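/-
GATE-F (S40) / node GF-KCOVER-CORE, file 1 (helper31): **the arithmetic core of the Kummer-cover
argument (F2)**, Mathlib only, HYPOTHESIS FORM.

Situation (GRAPH v1, board 5791, S4): `F'/F` the cyclic cover of degree `p` cut out by the Kummer
function `g₀` of `w₀`, `δ` a generator of `Gal(F'/F)`, `U` the group of `K'`-rational nonzero
functions of `F'`, `w₁ k, w₂ k : U → ℤ` (`k ∈ ℤ/p`) the `2p` extensions of the two Gauss valuations
(in units of a uniformiser of `K'`), permuted cyclically by `δ`; `f' ∈ U` a `K'`-rational Kummer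
function of `π^* x` and `δ f' = f' · c₁ · m ^ p` with `c₁ ∈ K'ˣ`, `m ∈ U`.

* `val_succ`, `val_add_natCast`: `w k f' ≡ w 0 f' + k · v(c₁)  (mod p)`;
* `val_const_mod` : if `p ∣ v(c₁)` (peu ramifié), all `w k f'` are congruent mod `p`;
* `tropical_const` : **(F2)** with the node relations
  `w₂ (j + b s) f' − w₁ (j + a s) f' = e s · n s j`, `n s j ≡ m_s(x) (mod p)` as binders:
  `e_s · m_s(x)` is INDEPENDENT of the node `s` (it is `w₂ 0 f' − w₁ 0 f'` mod `p`).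
* `tropical_arith` : the general (très ramifié) form, for the record:
  `e_s · m_s(x) = (w₂ 0 f' − w₁ 0 f') + (b s − a s) · v(c₁)` in `ℤ/p`.

Nothing here knows what a function field is: `U` is an abstract commutative group, the valuations
are additive maps to `ℤ`.
-/
import Mathlib

set_option autoImplicit false
set_option linter.unusedSectionVars false

namespace Fermat.Agent.GF.KCover.Core

variable {p : ℕ} [Fact p.Prime]

section OneFamily

variable {U : Type*} [CommGroup U] (δ : U →* U) (w : ZMod p → U → ℤ)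
  (hmul : ∀ k y z, w k (y * z) = w k y + w k z)
  (hδ : ∀ k y, w k (δ y) = w (k + 1) y)

include hmul in
theorem val_one (k : ZMod p) : w k 1 = 0 := by
  have h := hmul k 1 1
  rw [mul_one] at h
  linarith

include hmul in
theorem val_pow (k : ZMod p) (y : U) (n : ℕ) : w k (y ^ n) = n * w k y := by
  induction n with
  | zero => rw [pow_zero, val_one w hmul]; simp
  | succ n ih => rw [pow_succ, hmul, ih]; push_cast; ring

include hmul hδ in
/-- one step of `δ`: `w (k+1) f = w k f + v(c₁) + p · w k m`. -/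
theorem val_succ {f c₁ m : U} (hf : δ f = f * c₁ * m ^ p) (k : ZMod p) :
    w (k + 1) f = w k f + w k c₁ + p * w k m := by
  rw [← hδ k f, hf, hmul, hmul, val_pow w hmul]

include hmul hδ in
/-- `w k f ≡ w 0 f + k · v(c₁)` modulo `p`, when `v(c₁)` does not depend on the extension. -/
theorem val_natCast_mod {f c₁ m : U} (hf : δ f = f * c₁ * m ^ p) {vc : ℤ}
    (hc : ∀ k, w k c₁ = vc) (n : ℕ) :
    ((w (n : ZMod p) f : ℤ) : ZMod p) = ((w 0 f : ℤ) : ZMod p) + (n : ZMod p) * ((vc : ℤ) : ZMod p) := by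
  induction n with
  | zero => simp
  | succ n ih =>
    have h := val_succ δ w hmul hδ hf (n : ZMod p)
    rw [hc] at h
    rw [Nat.cast_succ, h]
    push_cast
    rw [ih, ZMod.natCast_self]
    ring

include hmul hδ in
/-- the same for an arbitrary index `k : ZMod p`. -/
theorem val_mod {f c₁ m : U} (hf : δ f = f * c₁ * m ^ p) {vc : ℤ}
    (hc : ∀ k, w k c₁ = vc) (k : ZMod p) :
    ((w k f : ℤ) : ZMod p) = ((w 0 f : ℤ) : ZMod p) + k * ((vc : ℤ) : ZMod p) := by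
  have h := val_natCast_mod δ w hmul hδ hf hc k.val
  rwa [ZMod.natCast_zmod_val] at h

include hmul hδ in
/-- **peu ramifié**: if `p ∣ v(c₁)` then all the valuations `w k f` are congruent modulo `p`. -/
theorem val_const_mod {f c₁ m : U} (hf : δ f = f * c₁ * m ^ p) {vc : ℤ}
    (hc : ∀ k, w k c₁ = vc) (hpeu : (p : ℤ) ∣ vc) (k : ZMod p) :
    ((w k f : ℤ) : ZMod p) = ((w 0 f : ℤ) : ZMod p) := by
  rw [val_mod δ w hmul hδ hf hc k, (ZMod.intCast_zmod_eq_zero_iff_dvd vc p).2 hpeu, mul_zero,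
    add_zero]

end OneFamily

section TwoFamilies

variable {U : Type*} [CommGroup U] (δ : U →* U) (w₁ w₂ : ZMod p → U → ℤ)
  (hmul₁ : ∀ k y z, w₁ k (y * z) = w₁ k y + w₁ k z)
  (hmul₂ : ∀ k y z, w₂ k (y * z) = w₂ k y + w₂ k z)
  (hδ₁ : ∀ k y, w₁ k (δ y) = w₁ (k + 1) y)
  (hδ₂ : ∀ k y, w₂ k (δ y) = w₂ (k + 1) y)

include hmul₁ hmul₂ hδ₁ hδ₂ in
/-- **the arithmetic of the cover, general form.**  `ι` = the nodes; the node `(s, j)` upstairs
joins the components `(1, j + a s)` and `(2, j + b s)`; `e s` = thickness (any integer, in the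
chosen unit); `n s j` = order at `(s, j)` of the reduction of `f'` on the component `(1, j + a s)`,
congruent mod `p` to the tropical coordinate `mx s` of `x`.  Then
`e_s · m_s(x) = (w₂ 0 f' − w₁ 0 f') + (b s − a s) · v(c₁)` in `ℤ/p`. -/
theorem tropical_arith {f c₁ m : U} (hf : δ f = f * c₁ * m ^ p) {vc : ℤ}
    (hc₁ : ∀ k, w₁ k c₁ = vc) (hc₂ : ∀ k, w₂ k c₁ = vc)
    {ι : Type*} (a b : ι → ZMod p) (e : ι → ℤ) (n : ι → ZMod p → ℤ)
    (hnode : ∀ s j, w₂ (j + b s) f - w₁ (j + a s) f = e s * n s j)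
    (mx : ι → ZMod p) (hn : ∀ s j, ((n s j : ℤ) : ZMod p) = mx s) (s : ι) :
    ((e s : ℤ) : ZMod p) * mx s =
      (((w₂ 0 f - w₁ 0 f : ℤ) : ℤ) : ZMod p) + (b s - a s) * ((vc : ℤ) : ZMod p) := by
  have h := congrArg (fun z : ℤ => (z : ZMod p)) (hnode s 0)
  simp only [zero_add] at h
  push_cast at h
  rw [hn s 0, val_mod δ w₂ hmul₂ hδ₂ hf hc₂ (b s), val_mod δ w₁ hmul₁ hδ₁ hf hc₁ (a s)] at h
  rw [← h]
  push_cast
  ring

include hmul₁ hmul₂ hδ₁ hδ₂ in
/-- **(F2), peu ramifié case**: `e_s · m_s(x)` does not depend on the node `s`. -/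
theorem tropical_const {f c₁ m : U} (hf : δ f = f * c₁ * m ^ p) {vc : ℤ}
    (hc₁ : ∀ k, w₁ k c₁ = vc) (hc₂ : ∀ k, w₂ k c₁ = vc) (hpeu : (p : ℤ) ∣ vc)
    {ι : Type*} (a b : ι → ZMod p) (e : ι → ℤ) (n : ι → ZMod p → ℤ)
    (hnode : ∀ s j, w₂ (j + b s) f - w₁ (j + a s) f = e s * n s j)
    (mx : ι → ZMod p) (hn : ∀ s j, ((n s j : ℤ) : ZMod p) = mx s) (s : ι) :
    ((e s : ℤ) : ZMod p) * mx s = (((w₂ 0 f - w₁ 0 f : ℤ) : ℤ) : ZMod p) := by
  rw [tropical_arith δ w₁ w₂ hmul₁ hmul₂ hδ₁ hδ₂ hf hc₁ hc₂ a b e n hnode mx hn s,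
    (ZMod.intCast_zmod_eq_zero_iff_dvd vc p).2 hpeu, mul_zero, add_zero]

include hmul₁ hmul₂ hδ₁ hδ₂ in
/-- **(F2), existential form** (the shape of S4 in GRAPH v1): there is ONE constant `C : ℤ/p` with
`e_s · m_s(x) = C` for every node `s`. -/
theorem exists_tropical_const {f c₁ m : U} (hf : δ f = f * c₁ * m ^ p) {vc : ℤ}
    (hc₁ : ∀ k, w₁ k c₁ = vc) (hc₂ : ∀ k, w₂ k c₁ = vc) (hpeu : (p : ℤ) ∣ vc)
    {ι : Type*} (a b : ι → ZMod p) (e : ι → ℤ) (n : ι → ZMod p → ℤ)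
    (hnode : ∀ s j, w₂ (j + b s) f - w₁ (j + a s) f = e s * n s j)
    (mx : ι → ZMod p) (hn : ∀ s j, ((n s j : ℤ) : ZMod p) = mx s) :
    ∃ C : ZMod p, ∀ s, ((e s : ℤ) : ZMod p) * mx s = C :=
  ⟨_, tropical_const δ w₁ w₂ hmul₁ hmul₂ hδ₁ hδ₂ hf hc₁ hc₂ hpeu a b e n hnode mx hn⟩

end TwoFamilies

end Fermat.Agent.GF.KCover.Core
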