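/-
GATE-F (S40) / node GF-KCOVER-CORE, file 2 (helper31): **the Kummer lemma of the cover argument**,
Mathlib only.

`F'` the function field of the cover `X' → X` (over `ℚ̄`), `C ⊆ F'` the constants (algebraically
closed in `F'` as far as `p`-th roots are concerned), `δ` a generator of `Gal(F'/F)`,
`G ^ p = g₀`, `δ G = ζ G`; `ρ` (the semilinear extension to `F'` of) an element of
`I' = Gal(ℚ̄/K')`, commuting with `δ`, `ρ G = G`.

`x ∈ Kum_p(F)` with Kummer function `u ∈ F = F'^δ`; `f'` a `K'`-rational Kummer function of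
`π^* x`: `f' = a · u · h ^ p` (`a` constant, `h ∈ F'`), `ρ f' = f'`; and
`δ f' = f' · c₁ · m ^ p` with `m` `K'`-rational, `c₁` constant.  The Galois action
`ρ x = x + κ(ρ) w₀` reads `ρ u = b · u · g₀ ^ κ · h_ρ ^ p = b · u · G ^ (p κ) · h_ρ ^ p`
(`b` constant, `h_ρ ∈ F`).

* `kummer_character` : `t := δ h / (h · m)` is a CONSTANT with `t ^ p = c₁` and
  `ρ t · ζ ^ κ(ρ) = t`, i.e. the Kummer character of `c₁ ∈ K'ˣ` is `−κ`:
  `K'(c₁^{1/p}) = K'(Y₀) = L`, so `c₁ ∈ K'ˣ ∩ L^{×p}` generates `L / K'`.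
* `exists_fixed_factor` : (C2a) `y` fixed by a group `Γ`, `y = a · n ^ p` with `a` constant, and
  Hilbert 90 for the constants (binder) ⟹ `y = c₁ · m ^ p` with `m` and `c₁` BOTH `Γ`-fixed.
-/
import Mathlib

set_option autoImplicit false
set_option linter.unusedSectionVars false

namespace Fermat.Agent.GF.KCover.Kummer

section Character

variable {F' : Type*} [Field F'] (C : Subfield F') {p : ℕ}

/-- **the Kummer lemma.** -/
theorem kummer_character (hp : 0 < p) (hC : ∀ y : F', y ^ p ∈ C → y ∈ C)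
    (δ ρ : F' ≃+* F') (hδρ : ∀ y, ρ (δ y) = δ (ρ y)) (hδC : ∀ c ∈ C, δ c = c)
    (hρC : ∀ c ∈ C, ρ c ∈ C)
    {ζ G : F'} (hG0 : G ≠ 0) (hδG : δ G = ζ * G)
    {f a u h c₁ m : F'} (ha : a ∈ C) (ha0 : a ≠ 0) (hu0 : u ≠ 0) (hh0 : h ≠ 0) (hm0 : m ≠ 0)
    (hc₁ : c₁ ∈ C) (hδu : δ u = u) (hf : f = a * u * h ^ p) (hδf : δ f = f * c₁ * m ^ p)
    (hρf : ρ f = f) (hρm : ρ m = m)
    {κ : ℕ} {b hr : F'} (hb : b ∈ C) (hb0 : b ≠ 0) (hδhr : δ hr = hr) (hhr0 : hr ≠ 0)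
    (hρu : ρ u = b * u * G ^ (p * κ) * hr ^ p) :
    (δ h / (h * m)) ^ p = c₁ ∧ δ h / (h * m) ∈ C ∧ ρ (δ h / (h * m)) * ζ ^ κ = δ h / (h * m) := by
  have hp0 : p ≠ 0 := hp.ne'
  have hf0 : f ≠ 0 := by
    rw [hf]; exact mul_ne_zero (mul_ne_zero ha0 hu0) (pow_ne_zero _ hh0)
  have hδh0 : δ h ≠ 0 := (map_ne_zero_iff _ δ.injective).2 hh0
  have hρh0 : ρ h ≠ 0 := (map_ne_zero_iff _ ρ.injective).2 hh0
  have hζ0 : ζ ≠ 0 := by
    intro h0
    have : δ G = 0 := by rw [hδG, h0, zero_mul]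
    exact hG0 ((map_eq_zero_iff _ δ.injective).1 this)
  -- step 1: `(δ h) ^ p = h ^ p * c₁ * m ^ p`
  have h1 : (δ h) ^ p = h ^ p * c₁ * m ^ p := by
    have e1 : δ f = a * u * (δ h) ^ p := by
      rw [hf, map_mul, map_mul, map_pow, hδC a ha, hδu]
    have e2 : a * u * (δ h) ^ p = a * u * (h ^ p * c₁ * m ^ p) := by
      rw [← e1, hδf, hf]; ring
    exact mul_left_cancel₀ (mul_ne_zero ha0 hu0) e2
  have ht : (δ h / (h * m)) ^ p = c₁ := by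
    rw [div_pow, mul_pow, h1]
    field_simp
  have htC : δ h / (h * m) ∈ C := hC _ (by rw [ht]; exact hc₁)
  refine ⟨ht, htC, ?_⟩
  -- step 3: `d := G ^ κ * hr * ρ h / h` is a constant
  set d : F' := G ^ κ * hr * ρ h / h with hd
  have hdp : d ^ p = a / (ρ a * b) := by
    have hρa0 : ρ a ≠ 0 := (map_ne_zero_iff _ ρ.injective).2 ha0
    have e1 : ρ f = ρ a * (b * u * G ^ (p * κ) * hr ^ p) * (ρ h) ^ p := by
      rw [hf, map_mul, map_mul, map_pow, hρu]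
    rw [hρf, hf] at e1
    rw [hd, div_pow, mul_pow, mul_pow, ← pow_mul, mul_comm κ p]
    rw [div_eq_div_iff (pow_ne_zero _ hh0) (mul_ne_zero hρa0 hb0)]
    have e2 : a * u * h ^ p = u * (ρ a * b * (G ^ (p * κ) * hr ^ p * ρ h ^ p)) := by
      rw [e1]; ring
    have e3 : a * h ^ p = ρ a * b * (G ^ (p * κ) * hr ^ p * ρ h ^ p) := by
      have : u * (a * h ^ p) = u * (ρ a * b * (G ^ (p * κ) * hr ^ p * ρ h ^ p)) := by
        rw [← e2]; ring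
      exact mul_left_cancel₀ hu0 this
    rw [mul_comm (G ^ (p * κ) * hr ^ p * ρ h ^ p) (ρ a * b), ← e3]
  have hdC : d ∈ C := by
    refine hC d ?_
    rw [hdp]
    exact C.div_mem ha (C.mul_mem (hρC a ha) hb)
  have hδd : δ d = d := hδC d hdC
  -- step 4: `δ (ρ h) / ρ h = (δ h / h) * ζ⁻¹ ^ κ`
  have hρh : ρ h = d * h / (G ^ κ * hr) := by
    rw [hd]
    field_simp
  have hGκ0 : G ^ κ ≠ 0 := pow_ne_zero _ hG0
  have h4 : δ (ρ h) * ζ ^ κ * h = δ h * ρ h := by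
    have e : δ (ρ h) = d * δ h / (ζ ^ κ * G ^ κ * hr) := by
      rw [hρh, map_div₀, map_mul, map_mul, map_pow, hδd, hδhr, hδG, mul_pow]
    rw [e, hρh]
    field_simp
  -- step 5
  have hρt : ρ (δ h / (h * m)) = δ (ρ h) / (ρ h * m) := by
    rw [map_div₀, map_mul, hρm, hδρ]
  rw [hρt]
  rw [div_mul_eq_mul_div, div_eq_div_iff (mul_ne_zero hρh0 hm0) (mul_ne_zero hh0 hm0)]
  have : δ (ρ h) * ζ ^ κ * (h * m) = (δ (ρ h) * ζ ^ κ * h) * m := by ring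
  rw [this, h4]
  ring

end Character

section Descent

variable {F' : Type*} [Field F'] (C : Subfield F') {p : ℕ}
  {Γ : Type*} [Group Γ] [MulSemiringAction Γ F']

/-- **(C2a)** descent of the factorisation `y = a · n ^ p` to `Γ`-fixed factors, from Hilbert 90
for the constants in the form of a binder: every `z : Γ → C` of the shape `ρ ↦ ρ n / n` is of the
shape `ρ ↦ ρ b / b` with `b ∈ Cˣ`. -/
theorem exists_fixed_factor (hC : ∀ y : F', y ^ p ∈ C → y ∈ C)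
    (hΓC : ∀ (ρ : Γ), ∀ c ∈ C, ρ • c ∈ C)
    {y a n : F'} (ha : a ∈ C) (ha0 : a ≠ 0) (hn0 : n ≠ 0) (hy : y = a * n ^ p)
    (hρy : ∀ ρ : Γ, ρ • y = y)
    (hH90 : (∀ ρ : Γ, (ρ • n) / n ∈ C) → ∃ b ∈ C, b ≠ 0 ∧ ∀ ρ : Γ, (ρ • n) / n = (ρ • b) / b) :
    ∃ c₁ m : F', c₁ ∈ C ∧ m ≠ 0 ∧ y = c₁ * m ^ p ∧ (∀ ρ : Γ, ρ • m = m) ∧
      ∀ ρ : Γ, ρ • c₁ = c₁ := by
  have hz : ∀ ρ : Γ, (ρ • n) / n ∈ C := by
    intro ρ
    refine hC _ ?_
    have hρa0 : ρ • a ≠ 0 := (smul_ne_zero_iff_ne ρ).2 ha0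
    have e : ((ρ • n) / n) ^ p = a / (ρ • a) := by
      have h1 : ρ • y = (ρ • a) * (ρ • n) ^ p := by
        rw [hy, smul_mul', smul_pow']
      rw [hρy, hy] at h1
      rw [div_pow, div_eq_div_iff (pow_ne_zero _ hn0) hρa0]
      linear_combination -h1
    rw [e]
    exact C.div_mem ha (hΓC ρ a ha)
  obtain ⟨b, hbC, hb0, hb⟩ := hH90 hz
  have hm : ∀ ρ : Γ, ρ • (n / b) = n / b := by
    intro ρ
    have hρb0 : ρ • b ≠ 0 := (smul_ne_zero_iff_ne ρ).2 hb0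
    have h1 := hb ρ
    rw [div_eq_div_iff hn0 hb0] at h1
    rw [smul_div₀', div_eq_div_iff hρb0 hb0]
    linear_combination h1
  have hmp : y = (a * b ^ p) * (n / b) ^ p := by
    rw [hy, div_pow]
    field_simp
  refine ⟨a * b ^ p, n / b, C.mul_mem ha (C.pow_mem hbC p), div_ne_zero hn0 hb0, hmp, hm, ?_⟩
  intro ρ
  have hmp0 : (n / b) ^ p ≠ 0 := pow_ne_zero _ (div_ne_zero hn0 hb0)
  have h1 : ρ • y = (ρ • (a * b ^ p)) * (ρ • (n / b)) ^ p := by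
    rw [hmp, smul_mul', smul_pow']
  rw [hρy, hm ρ] at h1
  have h2 : (a * b ^ p) * (n / b) ^ p = (ρ • (a * b ^ p)) * (n / b) ^ p := by
    rw [← hmp]; exact h1
  exact (mul_right_cancel₀ hmp0 h2).symm

end Descent

end Fermat.Agent.GF.KCover.Kummer
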