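/-
GATE-F (S40) / node GF-KCOVER-CORE, file 3 (helper31): **the cover frame (contract for
GF-KCOVER-INST / GF-KUM-DESC / GF-NORMDEPTH / GF-EPEU) and S4 of GRAPH v1 from it.**

`F'` = the function field over `ℚ̄` of the cyclic cover `X' → X` of degree `p` cut out by `w₀`
(`F' = F(G)`, `G ^ p = g₀`), `C` its constants, `Γ = I' = Gal(ℚ̄ / K')` acting semilinearly on `F'`,
`U = fixedUnits Γ F'` the `K'`-rational nonzero functions.

* `fixedUnits Γ F'` : the subgroup of `Γ`-fixed units; `CoverFrame.δU` : `δ` on it.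
* `CoverFrame` : the data + binders of the frame:
  - `δ` generates `Gal(F'/F)`, commutes with `Γ`, fixes the constants; `δ G = ζ G`;
  - the constants are `p`-root closed in `F'` and `Γ`-stable;
  - `w₁ k, w₂ k : U → ℤ` (`k : ℤ/p`), additive, `w k (δ y) = w (k+1) y`, all equal to ONE
    function `vK` on the `K'`-rational constants (the valuation of `K'` in units of a uniformiser).
* `CoverFrame.dvd_val_c₁` : **peu ramifié ⟹ `p ∣ v(c₁)`**, through the Kummer lemma: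
  the binder `hpeu` is S2 of GRAPH v1 in the form "a `K'`-rational constant `c` with a `p`-th root
  `t` whose Kummer character is `ρ ↦ ζ ^ (−κ ρ)` has `p ∣ v(c)`".
* `CoverFrame.exists_tropical_const` : **S4** — `e_s · m_s(x)` is independent of the node `s`.
-/
import Fermat.Agent.GF.KCover.Core
import Fermat.Agent.GF.KCover.Kummer

set_option autoImplicit false
set_option linter.unusedSectionVars false

namespace Fermat.Agent.GF.KCover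

open Fermat.Agent.GF.KCover.Kummer

section FixedUnits

variable (Γ : Type*) [Group Γ] (F' : Type*) [Field F'] [MulSemiringAction Γ F']

/-- the `Γ`-fixed units of `F'` (`Γ = Gal(ℚ̄/K')`: the `K'`-rational nonzero functions). -/
def fixedUnits : Subgroup F'ˣ where
  carrier := {y | ∀ ρ : Γ, ρ • (y : F') = (y : F')}
  one_mem' := fun ρ => by rw [Units.val_one, smul_one]
  mul_mem' := by
    intro y z hy hz ρ
    rw [Units.val_mul, smul_mul', hy ρ, hz ρ]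
  inv_mem' := by
    intro y hy ρ
    rw [Units.val_inv_eq_inv_val, smul_inv'', hy ρ]

variable {Γ F'}

theorem mem_fixedUnits {y : F'ˣ} : y ∈ fixedUnits Γ F' ↔ ∀ ρ : Γ, ρ • (y : F') = (y : F') :=
  Iff.rfl

end FixedUnits

/-- **The cover frame.** -/
structure CoverFrame (p : ℕ) (Γ : Type*) [Group Γ] (F' : Type*) [Field F']
    [MulSemiringAction Γ F'] (C : Subfield F') where
  /-- a generator of `Gal(F'/F)` -/
  δ : F' ≃+* F'
  δ_comm : ∀ (ρ : Γ) (y : F'), ρ • δ y = δ (ρ • y)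
  δ_const : ∀ c ∈ C, δ c = c
  const_root : ∀ y : F', y ^ p ∈ C → y ∈ C
  const_stable : ∀ (ρ : Γ), ∀ c ∈ C, ρ • c ∈ C
  /-- the primitive `p`-th root of unity and the Kummer generator of `F'/F` -/
  ζ : F'
  G : F'
  G_ne_zero : G ≠ 0
  δ_G : δ G = ζ * G
  /-- the valuations above the first / second Gauss valuation, on the `K'`-rational functions -/
  w₁ : ZMod p → fixedUnits Γ F' → ℤ
  w₂ : ZMod p → fixedUnits Γ F' → ℤ
  w₁_mul : ∀ k y z, w₁ k (y * z) = w₁ k y + w₁ k z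
  w₂_mul : ∀ k y z, w₂ k (y * z) = w₂ k y + w₂ k z
  /-- the valuation of `K'` (in the same unit) -/
  vK : fixedUnits Γ F' → ℤ
  w₁_const : ∀ (k : ZMod p) (c : fixedUnits Γ F'), ((c : F'ˣ) : F') ∈ C → w₁ k c = vK c
  w₂_const : ∀ (k : ZMod p) (c : fixedUnits Γ F'), ((c : F'ˣ) : F') ∈ C → w₂ k c = vK c
  w₁_δ : ∀ (k : ZMod p) (y y' : fixedUnits Γ F'), ((y' : F'ˣ) : F') = δ ((y : F'ˣ) : F') →
    w₁ k y' = w₁ (k + 1) y
  w₂_δ : ∀ (k : ZMod p) (y y' : fixedUnits Γ F'), ((y' : F'ˣ) : F') = δ ((y : F'ˣ) : F') →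
    w₂ k y' = w₂ (k + 1) y

namespace CoverFrame

variable {p : ℕ} {Γ : Type*} [Group Γ] {F' : Type*} [Field F'] [MulSemiringAction Γ F']
  {C : Subfield F'} (Φ : CoverFrame p Γ F' C)

/-- `δ` on the `K'`-rational functions. -/
def δU : fixedUnits Γ F' →* fixedUnits Γ F' where
  toFun y := ⟨Units.map (Φ.δ : F' →* F') (y : F'ˣ), fun ρ => by
    show ρ • Φ.δ ((y : F'ˣ) : F') = Φ.δ ((y : F'ˣ) : F')
    rw [Φ.δ_comm, y.2 ρ]⟩
  map_one' := by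
    apply Subtype.ext
    show Units.map (Φ.δ : F' →* F') (1 : F'ˣ) = 1
    rw [map_one]
  map_mul' := by
    intro y z
    apply Subtype.ext
    show Units.map (Φ.δ : F' →* F') ((y : F'ˣ) * (z : F'ˣ)) = _
    rw [map_mul]
    rfl

@[simp] theorem coe_δU (y : fixedUnits Γ F') :
    (((Φ.δU y : fixedUnits Γ F') : F'ˣ) : F') = Φ.δ ((y : F'ˣ) : F') := rfl

theorem w₁_δU (k : ZMod p) (y : fixedUnits Γ F') : Φ.w₁ k (Φ.δU y) = Φ.w₁ (k + 1) y :=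
  Φ.w₁_δ k y (Φ.δU y) rfl

theorem w₂_δU (k : ZMod p) (y : fixedUnits Γ F') : Φ.w₂ k (Φ.δU y) = Φ.w₂ (k + 1) y :=
  Φ.w₂_δ k y (Φ.δU y) rfl

/-- **peu ramifié ⟹ `p ∣ v(c₁)`** (Kummer lemma + S2).  `f'` a `K'`-rational Kummer function of
`π^* x`, `f' = a · u · h ^ p` with `u ∈ F`; `δ f' = f' · c₁ · m ^ p` with `m`, `c₁` `K'`-rational;
`κ : Γ → ℕ` the cocycle `ρ x − x = κ(ρ) w₀` in unit form.  The binder `hpeu` is S2. -/
theorem dvd_val_c₁ (hp : 0 < p)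
    {f c₁ m : fixedUnits Γ F'} {a u h : F'} (ha : a ∈ C) (ha0 : a ≠ 0) (hu0 : u ≠ 0)
    (hh0 : h ≠ 0) (hc₁ : ((c₁ : F'ˣ) : F') ∈ C) (hδu : Φ.δ u = u)
    (hf : ((f : F'ˣ) : F') = a * u * h ^ p) (hδf : Φ.δU f = f * c₁ * m ^ p)
    (κ : Γ → ℕ)
    (hκ : ∀ ρ : Γ, ∃ b hr : F', b ∈ C ∧ b ≠ 0 ∧ Φ.δ hr = hr ∧ hr ≠ 0 ∧
      ρ • u = b * u * Φ.G ^ (p * κ ρ) * hr ^ p)
    (hpeu : ∀ c : fixedUnits Γ F', ((c : F'ˣ) : F') ∈ C → ∀ t ∈ C, t ^ p = ((c : F'ˣ) : F') →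
      (∀ ρ : Γ, ρ • t * Φ.ζ ^ κ ρ = t) → (p : ℤ) ∣ Φ.vK c) :
    (p : ℤ) ∣ Φ.vK c₁ := by
  have hm0 : ((m : F'ˣ) : F') ≠ 0 := (m : F'ˣ).ne_zero
  have hδf' : Φ.δ ((f : F'ˣ) : F') = ((f : F'ˣ) : F') * ((c₁ : F'ˣ) : F') * ((m : F'ˣ) : F') ^ p := by
    have := congrArg (fun y : fixedUnits Γ F' => ((y : F'ˣ) : F')) hδf
    simpa using this
  -- the Kummer lemma for every `ρ`, with the SAME `t`
  set m' : F' := ((m : F'ˣ) : F') with hm'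
  have key : ∀ ρ : Γ, (Φ.δ h / (h * m')) ^ p = ((c₁ : F'ˣ) : F') ∧ Φ.δ h / (h * m') ∈ C ∧
      ρ • (Φ.δ h / (h * m')) * Φ.ζ ^ κ ρ = Φ.δ h / (h * m') := by
    intro ρ
    obtain ⟨b, hr, hb, hb0, hδhr, hhr0, hρu⟩ := hκ ρ
    exact kummer_character C hp Φ.const_root Φ.δ (MulSemiringAction.toRingEquiv Γ F' ρ)
      (fun y => Φ.δ_comm ρ y) Φ.δ_const (fun c hc => Φ.const_stable ρ c hc) Φ.G_ne_zero Φ.δ_G
      ha ha0 hu0 hh0 hm0 hc₁ hδu hf hδf' (f.2 ρ) (m.2 ρ) hb hb0 hδhr hhr0 hρu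
  obtain ⟨ht, htC, -⟩ := key 1
  exact hpeu c₁ hc₁ _ htC ht fun ρ => (key ρ).2.2

/-- **S4 of GRAPH v1**: `e_s · m_s(x)` is independent of the node `s`.

Binders on top of `dvd_val_c₁`: `ι` the nodes; the node `(s, j)` of the cover joins the components
`(1, j + a s)` and `(2, j + b s)`; `e s` its thickness (in the unit of `vK`); `n s j` the order at
`(s, j)` of the reduction of `f'` along `(1, j + a s)`; `mx s = m_s(x)` the tropical coordinate.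
Node relation (A4 upstairs): `w₂ (j + b s) f' − w₁ (j + a s) f' = e s · n s j`. -/
theorem exists_tropical_const [Fact p.Prime]
    {f c₁ m : fixedUnits Γ F'} {a u h : F'} (ha : a ∈ C) (ha0 : a ≠ 0) (hu0 : u ≠ 0)
    (hh0 : h ≠ 0) (hc₁ : ((c₁ : F'ˣ) : F') ∈ C) (hδu : Φ.δ u = u)
    (hf : ((f : F'ˣ) : F') = a * u * h ^ p) (hδf : Φ.δU f = f * c₁ * m ^ p)
    (κ : Γ → ℕ)
    (hκ : ∀ ρ : Γ, ∃ b hr : F', b ∈ C ∧ b ≠ 0 ∧ Φ.δ hr = hr ∧ hr ≠ 0 ∧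
      ρ • u = b * u * Φ.G ^ (p * κ ρ) * hr ^ p)
    (hpeu : ∀ c : fixedUnits Γ F', ((c : F'ˣ) : F') ∈ C → ∀ t ∈ C, t ^ p = ((c : F'ˣ) : F') →
      (∀ ρ : Γ, ρ • t * Φ.ζ ^ κ ρ = t) → (p : ℤ) ∣ Φ.vK c)
    {ι : Type*} (as bs : ι → ZMod p) (e : ι → ℤ) (n : ι → ZMod p → ℤ)
    (hnode : ∀ s j, Φ.w₂ (j + bs s) f - Φ.w₁ (j + as s) f = e s * n s j)
    (mx : ι → ZMod p) (hn : ∀ s j, ((n s j : ℤ) : ZMod p) = mx s) :
    ∃ Cst : ZMod p, ∀ s, ((e s : ℤ) : ZMod p) * mx s = Cst := by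
  have hp : 0 < p := (Fact.out : p.Prime).pos
  have hdvd := Φ.dvd_val_c₁ hp ha ha0 hu0 hh0 hc₁ hδu hf hδf κ hκ hpeu
  exact Core.exists_tropical_const Φ.δU Φ.w₁ Φ.w₂ Φ.w₁_mul Φ.w₂_mul Φ.w₁_δU Φ.w₂_δU hδf
    (fun k => Φ.w₁_const k c₁ hc₁) (fun k => Φ.w₂_const k c₁ hc₁) hdvd as bs e n hnode mx hn

end CoverFrame

end Fermat.Agent.GF.KCover
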