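/-
GATE-F (S44) / GF-ASFORM (helper40; helper13 RULING-3, board 6239 / 6222 §2 (c)(d)), ABSTRACT half.
Mathlib only.

**The Artin–Schreier normal form of a Kummer function on a two-component frame.**

`F` a field (think: the `K'`-rational functions of `X₀(N)`, `K' = K₀(ζ_p)`), `W₁ W₂` two valuation
subrings (the two Gauss valuations), `C ≤ Fr ≤ F` the constants and the rational functions,
`ϖ ∈ C` (`ϖ = ζ_p - 1`) a UNIFORMISER of both valuations on `Fr` (`hunif`: integer depths — this is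
where `K'`-rationality is used), `p / ϖ ^ (p - 1)` integral.

* `one_add_mul_pow`      : `(1 + ϖ y) ^ p = 1 + ϖ ^ p y'`, `y' ∈ W` (binomial expansion);
* `exists_const_form`    : **(c)** one component.  If `g = a · z · d ^ p` with `a ∈ C`, `d ∈ Fr` units of
  `W`, `z ≡ 1 mod ϖ ^ p`, `g ≡ κ mod 𝔪_W` (`κ ∈ C`), and a `p`-th root of a constant mod `𝔪_W` is a
  constant mod `𝔪_W` (`hroot`), then `g ≡ A mod ϖ ^ p W` for a constant unit `A ∈ C`;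
* `sub_div_mem_of_glue`  : **(d)** the gluing step.  If `g ≡ A₁ mod ϖ ^ p W₁`, `g ≡ A₂ mod ϖ ^ p W₂`
  and the two reductions of the elements of a `C`-stable additive group `Λ ∋ g, 1` are glued at ONE
  node (`hglue`: `f ∈ Λ`, `red₁ f = 0`, `red₂ f = c̄` for an integral constant `c ⟹ c̄ = 0`), then
  `g ≡ A₁ mod ϖ ^ p W₂` as well;
* `exists_asForm`        : **the normal form** `g = A · (1 + ϖ ^ p g1)`, `A ∈ C` a unit,
  `g1 ∈ Λ ∩ W₁ ∩ W₂`.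

In the application `Λ = L(p • D0)` for the chart divisor `D0` (supported on smooth residue discs),
so `g1` has no pole through any node: by normality it lies in every node ring, and
`O_s[Z'] / (Z' ^ p - ε Z' - g1)` is the finite étale node ring of the Kummer cover.
-/
import Mathlib

set_option autoImplicit false

namespace Fermat.Agent.GF.KCover.ASForm

variable {F : Type*} [Field F]

section Basic

variable (W : ValuationSubring F)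

theorem mem_iff_val {x : F} : x ∈ W ↔ W.valuation x ≤ 1 := (W.valuation_le_one_iff x).symm

theorem mem_nonunits_iff_val {x : F} : x ∈ W.nonunits ↔ W.valuation x < 1 :=
  W.mem_nonunits_iff

theorem mem_of_mem_nonunits {x : F} (h : x ∈ W.nonunits) : x ∈ W :=
  (mem_iff_val W).2 ((mem_nonunits_iff_val W).1 h).le

/-- `x ≡ y mod 𝔪_W`, `y` a unit `⟹ x` a unit. -/
theorem val_eq_one_of_sub_mem {x y : F} (hy : W.valuation y = 1) (h : x - y ∈ W.nonunits) :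
    W.valuation x = 1 := by
  have h1 : W.valuation (x - y) < W.valuation y := by
    rw [hy]; exact (mem_nonunits_iff_val W).1 h
  have h2 : x = y + (x - y) := by ring
  rw [h2, W.valuation.map_add_eq_of_lt_left h1, hy]

theorem val_eq_one_of_sub_mem' {x y : F} (hx : W.valuation x = 1) (h : x - y ∈ W.nonunits) :
    W.valuation y = 1 := by
  apply val_eq_one_of_sub_mem W hx
  have : y - x = -(x - y) := by ring
  rw [this, mem_nonunits_iff_val, Valuation.map_neg]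
  exact (mem_nonunits_iff_val W).1 h

theorem mul_mem_nonunits_left {x y : F} (hx : x ∈ W.nonunits) (hy : y ∈ W) :
    x * y ∈ W.nonunits := by
  rw [mem_nonunits_iff_val, map_mul]
  exact mul_lt_one_of_nonneg_of_lt_one_left zero_le ((mem_nonunits_iff_val W).1 hx)
    ((mem_iff_val W).1 hy)

theorem pow_mem_nonunits {x : F} (hx : x ∈ W.nonunits) {n : ℕ} (hn : n ≠ 0) :
    x ^ n ∈ W.nonunits := by
  rw [mem_nonunits_iff_val, map_pow]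
  exact pow_lt_one₀ zero_le ((mem_nonunits_iff_val W).1 hx) hn

/-- **binomial expansion**: `(1 + ϖ y) ^ p = 1 + ϖ ^ p y'` with `y'` integral. -/
theorem one_add_mul_pow {p : ℕ} (hp : p.Prime) {ϖ y : F} (hϖ0 : ϖ ≠ 0) (hϖ : ϖ ∈ W)
    (hpϖ : (p : F) / ϖ ^ (p - 1) ∈ W) (hy : y ∈ W) :
    ∃ y' ∈ W, (1 + ϖ * y) ^ p = 1 + ϖ ^ p * y' := by
  obtain ⟨r, hr⟩ := exists_add_pow_prime_eq hp (1 : W) (⟨ϖ * y, W.mul_mem _ _ hϖ hy⟩ : W)
  have hr' : (1 + ϖ * y) ^ p = 1 ^ p + (ϖ * y) ^ p + (p : F) * 1 * (ϖ * y) * (r : F) := by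
    have := congrArg (fun t : W => (t : F)) hr
    simpa using this
  refine ⟨y ^ p + (p : F) / ϖ ^ (p - 1) * y * (r : F), ?_, ?_⟩
  · exact W.add_mem _ _ (pow_mem hy p) (W.mul_mem _ _ (W.mul_mem _ _ hpϖ hy) r.2)
  · rw [hr']
    have hp1 : p = (p - 1) + 1 := (Nat.sub_add_cancel hp.one_le).symm
    have hϖp : ϖ ^ p = ϖ ^ (p - 1) * ϖ := by
      conv_lhs => rw [hp1, pow_succ]
    have hϖ1 : ϖ ^ (p - 1) ≠ 0 := pow_ne_zero _ hϖ0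
    rw [one_pow, mul_pow, mul_add, mul_one]
    have : ϖ ^ p * ((p : F) / ϖ ^ (p - 1) * y * (r : F)) = (p : F) * (ϖ * y) * (r : F) := by
      rw [hϖp]
      field_simp
    rw [this, add_assoc]

end Basic

section OneSide

variable (W : ValuationSubring F) {p : ℕ}

/-- **(c)** one component: from a deep `K'`-rational representation `g = a z d ^ p` to
`g ≡ A mod ϖ ^ p W` with `A` a constant unit. -/
theorem exists_const_form (hp : p.Prime) (Fr C : Subfield F) (hCFr : C ≤ Fr) {ϖ : F}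
    (hϖ0 : ϖ ≠ 0) (hϖm : ϖ ∈ W.nonunits)
    (hunif : ∀ x ∈ Fr, x ∈ W.nonunits → x / ϖ ∈ W)
    (hpϖ : (p : F) / ϖ ^ (p - 1) ∈ W)
    (hroot : ∀ d ∈ Fr, d ∈ W → ∀ a ∈ C, d ^ p - a ∈ W.nonunits → ∃ β ∈ C, d - β ∈ W.nonunits)
    {g a d z κ : F} (hg : g = a * z * d ^ p) (ha : a ∈ C) (haU : W.valuation a = 1)
    (hd : d ∈ Fr) (hdU : W.valuation d = 1) (hz : (z - 1) / ϖ ^ p ∈ W)
    (hκ : κ ∈ C) (hgκ : g - κ ∈ W.nonunits) :
    ∃ A ∈ C, W.valuation A = 1 ∧ (g - A) / ϖ ^ p ∈ W := by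
  have hp0 : p ≠ 0 := hp.ne_zero
  have hϖW : ϖ ∈ W := mem_of_mem_nonunits W hϖm
  have hϖp0 : ϖ ^ p ≠ 0 := pow_ne_zero _ hϖ0
  -- `z = 1 + ϖ ^ p z'`
  set z' : F := (z - 1) / ϖ ^ p with hz'
  have hzeq : z = 1 + ϖ ^ p * z' := by rw [hz']; field_simp; ring
  have hzm : z - 1 ∈ W.nonunits := by
    have : z - 1 = ϖ ^ p * z' := by rw [hzeq]; ring
    rw [this]
    exact mul_mem_nonunits_left W (pow_mem_nonunits W hϖm hp0) hz
  have hzU : W.valuation z = 1 := val_eq_one_of_sub_mem W (map_one _) hzm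
  have hzW : z ∈ W := (mem_iff_val W).2 hzU.le
  have ha0 : a ≠ 0 := fun h => by rw [h, map_zero] at haU; exact zero_ne_one haU
  have hz0 : z ≠ 0 := fun h => by rw [h, map_zero] at hzU; exact zero_ne_one hzU
  have hd0 : d ≠ 0 := fun h => by rw [h, map_zero] at hdU; exact zero_ne_one hdU
  have haW : a ∈ W := (mem_iff_val W).2 haU.le
  have hdW : d ∈ W := (mem_iff_val W).2 hdU.le
  have hgU : W.valuation g = 1 := by
    rw [hg, map_mul, map_mul, map_pow, haU, hzU, hdU, one_pow, mul_one, mul_one]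
  have hκU : W.valuation κ = 1 := val_eq_one_of_sub_mem' W hgU hgκ
  have hκW : κ ∈ W := (mem_iff_val W).2 hκU.le
  -- `d ^ p ≡ κ / a`
  have hdp : d ^ p - κ / a ∈ W.nonunits := by
    have h1 : d ^ p - κ / a = ((g - κ) - κ * (z - 1)) * (a * z)⁻¹ := by
      rw [hg]; field_simp; ring
    rw [h1]
    refine mul_mem_nonunits_left W ?_ ?_
    · rw [mem_nonunits_iff_val]
      refine W.valuation.map_sub_lt ((mem_nonunits_iff_val W).1 hgκ) ?_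
      rw [mul_comm]
      exact (mem_nonunits_iff_val W).1 (mul_mem_nonunits_left W hzm hκW)
    · rw [mem_iff_val, map_inv₀, map_mul, haU, hzU, mul_one, inv_one]
  obtain ⟨β, hβC, hdβ⟩ := hroot d hd hdW (κ / a) (C.div_mem hκ ha) hdp
  have hβU : W.valuation β = 1 := val_eq_one_of_sub_mem' W hdU hdβ
  have hβ0 : β ≠ 0 := fun h => by rw [h, map_zero] at hβU; exact zero_ne_one hβU
  have hβW : β ∈ W := (mem_iff_val W).2 hβU.le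
  -- `d = β (1 + ϖ y)`
  have hquot : (d - β) / β ∈ W.nonunits := by
    rw [div_eq_mul_inv]
    refine mul_mem_nonunits_left W hdβ ?_
    rw [mem_iff_val, map_inv₀, hβU, inv_one]
  have hquotFr : (d - β) / β ∈ Fr := Fr.div_mem (Fr.sub_mem hd (hCFr hβC)) (hCFr hβC)
  set y : F := (d - β) / β / ϖ with hy
  have hyW : y ∈ W := hunif _ hquotFr hquot
  have hdeq : d = β * (1 + ϖ * y) := by rw [hy]; field_simp; ring
  obtain ⟨y', hy'W, hy'⟩ := one_add_mul_pow W hp hϖ0 hϖW hpϖ hyW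
  refine ⟨a * β ^ p, C.mul_mem ha (C.pow_mem hβC p), ?_, ?_⟩
  · rw [map_mul, map_pow, haU, hβU, one_pow, mul_one]
  · have h2 : (g - a * β ^ p) / ϖ ^ p = a * β ^ p * (z' + y' + ϖ ^ p * z' * y') := by
      rw [hg, hdeq, mul_pow, hy', hzeq]
      field_simp
      ring
    rw [h2]
    refine W.mul_mem _ _ (W.mul_mem _ _ haW (pow_mem hβW p)) ?_
    exact W.add_mem _ _ (W.add_mem _ _ hz hy'W)
      (W.mul_mem _ _ (W.mul_mem _ _ (pow_mem hϖW p) hz) hy'W)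

end OneSide

section Glue

variable (W₁ W₂ : ValuationSubring F) {p : ℕ}

/-- constants have the same valuation at both components: transfer of `nonunits`. -/
theorem mem_nonunits_of_const (C : Subfield F) (hCval : ∀ c ∈ C, c ∈ W₂ → c ∈ W₁)
    {c : F} (hc : c ∈ C) (h : c ∈ W₁.nonunits) : c ∈ W₂.nonunits := by
  by_cases hc0 : c = 0
  · rw [hc0]; exact (W₂.mem_nonunits_iff).2 (by rw [map_zero]; exact zero_lt_one)
  rw [ValuationSubring.mem_nonunits_iff_or] at h ⊢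
  right
  intro h2
  rcases h with h | h
  · exact hc0 h
  · exact h (hCval _ (C.inv_mem hc) h2)

/-- **(d)** the gluing step at one node. -/
theorem sub_div_mem_of_glue (C : Subfield F) {ϖ : F} (hϖC : ϖ ∈ C) (hϖ0 : ϖ ≠ 0)
    (hϖ₁ : ϖ ∈ W₁.nonunits) (hϖ₂ : ϖ ∈ W₂.nonunits)
    (hunifC : ∀ c ∈ C, c ∈ W₁.nonunits → c / ϖ ∈ W₁)
    (hC12 : ∀ c ∈ C, c ∈ W₁ → c ∈ W₂)
    (Λ : AddSubgroup F) (hΛC : ∀ c ∈ C, c ∈ Λ) (hΛsmul : ∀ c ∈ C, ∀ f ∈ Λ, c * f ∈ Λ)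
    (hglue : ∀ f ∈ Λ, f ∈ W₁.nonunits → ∀ c ∈ C, c ∈ W₂ → f - c ∈ W₂.nonunits →
      c ∈ W₂.nonunits)
    {g A₁ A₂ : F} (hgΛ : g ∈ Λ) (hA₁ : A₁ ∈ C) (hA₂ : A₂ ∈ C)
    (hA₁W : A₁ ∈ W₁) (hA₂W : A₂ ∈ W₂)
    (h₁ : (g - A₁) / ϖ ^ p ∈ W₁) (h₂ : (g - A₂) / ϖ ^ p ∈ W₂) :
    (g - A₁) / ϖ ^ p ∈ W₂ := by
  have hϖW₁ : ϖ ∈ W₁ := mem_of_mem_nonunits W₁ hϖ₁
  have hϖW₂ : ϖ ∈ W₂ := mem_of_mem_nonunits W₂ hϖ₂
  set δ : F := A₂ - A₁ with hδ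
  have hδC : δ ∈ C := C.sub_mem hA₂ hA₁
  -- `δ / ϖ ^ j ∈ W₂` for all `j ≤ p`
  have key : ∀ j : ℕ, j ≤ p → δ / ϖ ^ j ∈ W₂ := by
    intro j
    induction j with
    | zero =>
      intro _
      rw [pow_zero, div_one]
      exact sub_mem hA₂W (hC12 _ hA₁ hA₁W)
    | succ j ih =>
      intro hj
      have hjp : j < p := hj
      have he : δ / ϖ ^ j ∈ W₂ := ih hjp.le
      set e : F := δ / ϖ ^ j with hedef
      have heC : e ∈ C := C.div_mem hδC (C.pow_mem hϖC j)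
      have hpj : p - j ≠ 0 := by omega
      have hpow : ϖ ^ p = ϖ ^ (p - j) * ϖ ^ j := by
        rw [← pow_add]; congr 1; omega
      have hϖj0 : ϖ ^ j ≠ 0 := pow_ne_zero _ hϖ0
      have hϖpj0 : ϖ ^ (p - j) ≠ 0 := pow_ne_zero _ hϖ0
      -- the test function
      set f : F := (g - A₁) / ϖ ^ j with hfdef
      have hfΛ : f ∈ Λ := by
        have : f = (ϖ ^ j)⁻¹ * (g - A₁) := by rw [hfdef]; field_simp
        rw [this]
        exact hΛsmul _ (C.inv_mem (C.pow_mem hϖC j)) _ (Λ.sub_mem hgΛ (hΛC _ hA₁))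
      have hf1 : f ∈ W₁.nonunits := by
        have : f = ϖ ^ (p - j) * ((g - A₁) / ϖ ^ p) := by
          rw [hfdef, hpow]; field_simp
        rw [this]
        exact mul_mem_nonunits_left W₁ (pow_mem_nonunits W₁ hϖ₁ hpj) h₁
      have hf2 : f - e ∈ W₂.nonunits := by
        have : f - e = ϖ ^ (p - j) * ((g - A₂) / ϖ ^ p) := by
          rw [hfdef, hedef, hδ, hpow]; field_simp; ring
        rw [this]
        exact mul_mem_nonunits_left W₂ (pow_mem_nonunits W₂ hϖ₂ hpj) h₂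
      have he2 : e ∈ W₂.nonunits := hglue f hfΛ hf1 e heC he hf2
      have he1 : e ∈ W₁.nonunits := mem_nonunits_of_const W₂ W₁ C hC12 heC he2
      have : δ / ϖ ^ (j + 1) = e / ϖ := by
        rw [hedef, pow_succ]; field_simp
      rw [this]
      exact hC12 _ (C.div_mem heC hϖC) (hunifC e heC he1)
  have : (g - A₁) / ϖ ^ p = (g - A₂) / ϖ ^ p + δ / ϖ ^ p := by
    rw [hδ]; field_simp; ring
  rw [this]
  exact W₂.add_mem _ _ h₂ (key p le_rfl)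

/-- **the Artin–Schreier normal form** `g = A (1 + ϖ ^ p g1)` on BOTH components. -/
theorem exists_asForm (hp : p.Prime) (Fr C : Subfield F) (hCFr : C ≤ Fr) {ϖ : F}
    (hϖC : ϖ ∈ C) (hϖ0 : ϖ ≠ 0) (hϖ₁ : ϖ ∈ W₁.nonunits) (hϖ₂ : ϖ ∈ W₂.nonunits)
    (hunif₁ : ∀ x ∈ Fr, x ∈ W₁.nonunits → x / ϖ ∈ W₁)
    (hunif₂ : ∀ x ∈ Fr, x ∈ W₂.nonunits → x / ϖ ∈ W₂)
    (hpϖ₁ : (p : F) / ϖ ^ (p - 1) ∈ W₁) (hpϖ₂ : (p : F) / ϖ ^ (p - 1) ∈ W₂)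
    (hroot₁ : ∀ d ∈ Fr, d ∈ W₁ → ∀ a ∈ C, d ^ p - a ∈ W₁.nonunits →
      ∃ β ∈ C, d - β ∈ W₁.nonunits)
    (hroot₂ : ∀ d ∈ Fr, d ∈ W₂ → ∀ a ∈ C, d ^ p - a ∈ W₂.nonunits →
      ∃ β ∈ C, d - β ∈ W₂.nonunits)
    (hC12 : ∀ c ∈ C, c ∈ W₁ → c ∈ W₂)
    (Λ : AddSubgroup F) (hΛC : ∀ c ∈ C, c ∈ Λ) (hΛsmul : ∀ c ∈ C, ∀ f ∈ Λ, c * f ∈ Λ)
    (hglue : ∀ f ∈ Λ, f ∈ W₁.nonunits → ∀ c ∈ C, c ∈ W₂ → f - c ∈ W₂.nonunits →
      c ∈ W₂.nonunits)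
    {g : F} (hgΛ : g ∈ Λ)
    {a₁ d₁ z₁ κ₁ : F} (hg₁ : g = a₁ * z₁ * d₁ ^ p) (ha₁ : a₁ ∈ C) (ha₁U : W₁.valuation a₁ = 1)
    (hd₁ : d₁ ∈ Fr) (hd₁U : W₁.valuation d₁ = 1) (hz₁ : (z₁ - 1) / ϖ ^ p ∈ W₁)
    (hκ₁ : κ₁ ∈ C) (hgκ₁ : g - κ₁ ∈ W₁.nonunits)
    {a₂ d₂ z₂ κ₂ : F} (hg₂ : g = a₂ * z₂ * d₂ ^ p) (ha₂ : a₂ ∈ C) (ha₂U : W₂.valuation a₂ = 1)
    (hd₂ : d₂ ∈ Fr) (hd₂U : W₂.valuation d₂ = 1) (hz₂ : (z₂ - 1) / ϖ ^ p ∈ W₂)
    (hκ₂ : κ₂ ∈ C) (hgκ₂ : g - κ₂ ∈ W₂.nonunits) :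
    ∃ A ∈ C, W₁.valuation A = 1 ∧ W₂.valuation A = 1 ∧
      ∃ g1 ∈ Λ, g1 ∈ W₁ ∧ g1 ∈ W₂ ∧ g = A * (1 + ϖ ^ p * g1) := by
  obtain ⟨A₁, hA₁C, hA₁U, hA₁⟩ := exists_const_form W₁ hp Fr C hCFr hϖ0 hϖ₁ hunif₁ hpϖ₁ hroot₁
    hg₁ ha₁ ha₁U hd₁ hd₁U hz₁ hκ₁ hgκ₁
  obtain ⟨A₂, hA₂C, hA₂U, hA₂⟩ := exists_const_form W₂ hp Fr C hCFr hϖ0 hϖ₂ hunif₂ hpϖ₂ hroot₂
    hg₂ ha₂ ha₂U hd₂ hd₂U hz₂ hκ₂ hgκ₂
  have hA₁W : A₁ ∈ W₁ := (mem_iff_val W₁).2 hA₁U.le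
  have hA₂W : A₂ ∈ W₂ := (mem_iff_val W₂).2 hA₂U.le
  have h12 : (g - A₁) / ϖ ^ p ∈ W₂ :=
    sub_div_mem_of_glue W₁ W₂ C hϖC hϖ0 hϖ₁ hϖ₂ (fun c hc => hunif₁ c (hCFr hc)) hC12 Λ hΛC
      hΛsmul hglue hgΛ hA₁C hA₂C hA₁W hA₂W hA₁ hA₂
  have hA₁0 : A₁ ≠ 0 := fun h => by rw [h, map_zero] at hA₁U; exact zero_ne_one hA₁U
  have hϖp0 : ϖ ^ p ≠ 0 := pow_ne_zero _ hϖ0
  -- `A₁` is a unit of `W₂` as well
  have hA₁inv : A₁⁻¹ ∈ W₁ := by rw [mem_iff_val, map_inv₀, hA₁U, inv_one]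
  have hA₁U₂ : W₂.valuation A₁ = 1 := by
    have h1 : W₂.valuation A₁ ≤ 1 := (mem_iff_val W₂).1 (hC12 _ hA₁C hA₁W)
    have h2 : W₂.valuation A₁⁻¹ ≤ 1 := (mem_iff_val W₂).1 (hC12 _ (C.inv_mem hA₁C) hA₁inv)
    rw [map_inv₀] at h2
    have hv0 : W₂.valuation A₁ ≠ 0 := (Valuation.ne_zero_iff _).2 hA₁0
    exact le_antisymm h1 ((inv_le_one₀ (zero_lt_iff.2 hv0)).1 h2)
  have hA₁inv₂ : A₁⁻¹ ∈ W₂ := by rw [mem_iff_val, map_inv₀, hA₁U₂, inv_one]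
  refine ⟨A₁, hA₁C, hA₁U, hA₁U₂, A₁⁻¹ * ((g - A₁) / ϖ ^ p), ?_, ?_, ?_, ?_⟩
  · have : A₁⁻¹ * ((g - A₁) / ϖ ^ p) = (A₁⁻¹ * (ϖ ^ p)⁻¹) * (g - A₁) := by
      rw [div_eq_mul_inv]; ring
    rw [this]
    exact hΛsmul _ (C.mul_mem (C.inv_mem hA₁C) (C.inv_mem (C.pow_mem hϖC p))) _
      (Λ.sub_mem hgΛ (hΛC _ hA₁C))
  · exact W₁.mul_mem _ _ hA₁inv hA₁
  · exact W₂.mul_mem _ _ hA₁inv₂ h12
  · field_simp
    ring

end Glue

end Fermat.Agent.GF.KCover.ASForm
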