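/-
GATE-F (S44) / GF-ASFORM (helper40), file 4: **the constants of the normal form are `p`-th powers
of each other** (seam with the field side `Pack.exists_root`, board 6527 (S3) / 6554).

* `exists_const_form_root` (abstract, Mathlib only): `ASForm.exists_const_form` with the constant
  `β` exported: `A = a β ^ p`, `d ≡ β mod 𝔪_W`.
* `exists_pth_root_const` : `u ∈ K' = ℚ̄^H` (`H ⊆ I_A`, `ζ_p ∈ K'`), `u ≡ 1 mod (ζ - 1) ^ p A` ⟹
  `u = β ^ p` with `β ∈ K'`, `β ≡ 1 mod (ζ - 1) A`.  No Hensel: `∏_j (1 - β₀ ζ ^ j) = 1 - u` gives a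
  root close to `1`, and inertia cannot move a root close to `1` (`(ζ ^ i - 1) β = ϖ (σ t - t)`).
-/
import Fermat.Agent.GF.KCover.ASForm
import Fermat.Agent.GL.Local.TameZeta

set_option autoImplicit false
set_option linter.unusedSectionVars false

noncomputable section

namespace Fermat.Agent.GF.KCover.ASFormRoot

open Fermat.Agent.GF.KCover.ASForm
open Fermat.Agent.GL.Local.InertiaField

local notation "GQ" => (AlgebraicClosure ℚ ≃ₐ[ℚ] AlgebraicClosure ℚ)
local notation "Qb" => AlgebraicClosure ℚ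

section Abstract

variable {F : Type*} [Field F] (W : ValuationSubring F) {p : ℕ}

/-- `ASForm.exists_const_form` with the constant `β` exported. -/
theorem exists_const_form_root (hp : p.Prime) (Fr C : Subfield F) (hCFr : C ≤ Fr) {ϖ : F}
    (hϖ0 : ϖ ≠ 0) (hϖm : ϖ ∈ W.nonunits)
    (hunif : ∀ x ∈ Fr, x ∈ W.nonunits → x / ϖ ∈ W)
    (hpϖ : (p : F) / ϖ ^ (p - 1) ∈ W)
    (hroot : ∀ d ∈ Fr, d ∈ W → ∀ a ∈ C, d ^ p - a ∈ W.nonunits → ∃ β ∈ C, d - β ∈ W.nonunits)
    {g a d z κ : F} (hg : g = a * z * d ^ p) (ha : a ∈ C) (haU : W.valuation a = 1)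
    (hd : d ∈ Fr) (hdU : W.valuation d = 1) (hz : (z - 1) / ϖ ^ p ∈ W)
    (hκ : κ ∈ C) (hgκ : g - κ ∈ W.nonunits) :
    ∃ β ∈ C, W.valuation β = 1 ∧ d - β ∈ W.nonunits ∧ (g - a * β ^ p) / ϖ ^ p ∈ W := by
  have hp0 : p ≠ 0 := hp.ne_zero
  have hϖW : ϖ ∈ W := mem_of_mem_nonunits W hϖm
  have hϖp0 : ϖ ^ p ≠ 0 := pow_ne_zero _ hϖ0
  set z' : F := (z - 1) / ϖ ^ p with hz'
  have hzeq : z = 1 + ϖ ^ p * z' := by rw [hz']; field_simp; ring
  have hzm : z - 1 ∈ W.nonunits := by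
    have : z - 1 = ϖ ^ p * z' := by rw [hzeq]; ring
    rw [this]
    exact mul_mem_nonunits_left W (pow_mem_nonunits W hϖm hp0) hz
  have hzU : W.valuation z = 1 := val_eq_one_of_sub_mem W (map_one _) hzm
  have ha0 : a ≠ 0 := fun h => by rw [h, map_zero] at haU; exact zero_ne_one haU
  have hz0 : z ≠ 0 := fun h => by rw [h, map_zero] at hzU; exact zero_ne_one hzU
  have haW : a ∈ W := (mem_iff_val W).2 haU.le
  have hdW : d ∈ W := (mem_iff_val W).2 hdU.le
  have hgU : W.valuation g = 1 := by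
    rw [hg, map_mul, map_mul, map_pow, haU, hzU, hdU, one_pow, mul_one, mul_one]
  have hκU : W.valuation κ = 1 := val_eq_one_of_sub_mem' W hgU hgκ
  have hκW : κ ∈ W := (mem_iff_val W).2 hκU.le
  have hdp : d ^ p - κ / a ∈ W.nonunits := by
    have h1 : d ^ p - κ / a = ((g - κ) - κ * (z - 1)) * (a * z)⁻¹ := by
      rw [hg]; field_simp; ring
    rw [h1]
    refine mul_mem_nonunits_left W ?_ ?_
    · rw [mem_nonunits_iff_val]
      refine W.valuation.map_sub_lt ((mem_nonunits_iff_val W).1 hgκ) ?_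
      rw [mul_comm]
      exact (mem_nonunits_iff_val W).1 (mul_mem_nonunits_left W hzm hκW)
    · rw [mem_iff_val, map_inv₀, map_mul, haU, hzU, mul_one, inv_one]
  obtain ⟨β, hβC, hdβ⟩ := hroot d hd hdW (κ / a) (C.div_mem hκ ha) hdp
  have hβU : W.valuation β = 1 := val_eq_one_of_sub_mem' W hdU hdβ
  have hβ0 : β ≠ 0 := fun h => by rw [h, map_zero] at hβU; exact zero_ne_one hβU
  have hβW : β ∈ W := (mem_iff_val W).2 hβU.le
  have hquot : (d - β) / β ∈ W.nonunits := by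
    rw [div_eq_mul_inv]
    refine mul_mem_nonunits_left W hdβ ?_
    rw [mem_iff_val, map_inv₀, hβU, inv_one]
  have hquotFr : (d - β) / β ∈ Fr := Fr.div_mem (Fr.sub_mem hd (hCFr hβC)) (hCFr hβC)
  set y : F := (d - β) / β / ϖ with hy
  have hyW : y ∈ W := hunif _ hquotFr hquot
  have hdeq : d = β * (1 + ϖ * y) := by rw [hy]; field_simp; ring
  obtain ⟨y', hy'W, hy'⟩ := one_add_mul_pow W hp hϖ0 hϖW hpϖ hyW
  refine ⟨β, hβC, hβU, hdβ, ?_⟩
  have h2 : (g - a * β ^ p) / ϖ ^ p = a * β ^ p * (z' + y' + ϖ ^ p * z' * y') := by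
    rw [hg, hdeq, mul_pow, hy', hzeq]
    field_simp
    ring
  rw [h2]
  refine W.mul_mem _ _ (W.mul_mem _ _ haW (pow_mem hβW p)) ?_
  exact W.add_mem _ _ (W.add_mem _ _ hz hy'W)
    (W.mul_mem _ _ (W.mul_mem _ _ (pow_mem hϖW p) hz) hy'W)

end Abstract

/-! ### `p`-th roots of constants close to `1` -/

section Root

variable (A : ValuationSubring Qb) {p : ℕ} (hp : p.Prime) (hpA : (p : Qb) ∈ A.nonunits)
  {ζ : Qb} (hζ : IsPrimitiveRoot ζ p)
  {H : Set GQ} (hHI : H ⊆ ((A.inertiaSubgroupIn ℚ : Subgroup GQ) : Set GQ))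
  (hζH : ∀ σ ∈ H, σ ζ = ζ)

include hp hpA hζ hHI hζH in
/-- **a `K'`-constant congruent to `1` modulo `(ζ - 1) ^ p` is the `p`-th power of a `K'`-constant
congruent to `1` modulo `ζ - 1`.** -/
theorem exists_pth_root_const {u : Qb} (hu : (u - 1) / (ζ - 1) ^ p ∈ A)
    (huH : ∀ σ ∈ H, σ u = u) :
    ∃ β : Qb, β ^ p = u ∧ (β - 1) / (ζ - 1) ∈ A ∧ ∀ σ ∈ H, σ β = β := by
  set ϖ : Qb := ζ - 1 with hϖdef
  have hϖ0 : ϖ ≠ 0 := sub_ne_zero.2 (hζ.ne_one hp.one_lt)
  have hvneg : ∀ x : Qb, A.valuation (x - 1) = A.valuation (1 - x) := fun x => by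
    rw [← neg_sub, Valuation.map_neg]
  have hvϖ : A.valuation ϖ < 1 := by
    rw [hϖdef, hvneg]
    exact A.mem_nonunits_iff.1 (one_sub_zeta_mem_nonunits A hp hpA hζ)
  have hvϖ0 : A.valuation ϖ ≠ 0 := (Valuation.ne_zero_iff _).2 hϖ0
  have hζA : ζ ∈ A := (zeta_mem A hp hζ).1
  -- `u` is a unit
  have hu1 : A.valuation (u - 1) ≤ A.valuation ϖ ^ p := by
    have h1 : u - 1 = ϖ ^ p * ((u - 1) / ϖ ^ p) := by
      field_simp
    rw [h1, map_mul, map_pow]
    exact mul_le_of_le_one_right' ((A.valuation_le_one_iff _).2 hu)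
  have hu1' : A.valuation (u - 1) < 1 :=
    lt_of_le_of_lt hu1 (pow_lt_one₀ zero_le hvϖ hp.ne_zero)
  have huU : A.valuation u = 1 := by
    have h2 : u = 1 + (u - 1) := by ring
    rw [h2, A.valuation.map_add_eq_of_lt_left (by rw [map_one]; exact hu1'), map_one]
  -- a root
  obtain ⟨β₀, hβ₀⟩ := IsAlgClosed.exists_pow_nat_eq u hp.pos
  have hβ₀U : A.valuation β₀ = 1 := by
    have h1 : A.valuation β₀ ^ p = 1 := by rw [← map_pow, hβ₀, huU]
    exact (pow_eq_one_iff_of_nonneg zero_le hp.ne_zero).1 h1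
  -- `1 - u = ∏ (1 - ζ ^ i β₀)`
  have hprod : 1 - u = ∏ i ∈ Finset.range p, (1 - ζ ^ i * β₀) := by
    have h1 := X_pow_sub_C_eq_prod hζ hp.pos hβ₀
    have h2 := congrArg (Polynomial.eval 1) h1
    simpa [Polynomial.eval_prod] using h2
  -- a root close to `1`
  obtain ⟨i, -, hi⟩ : ∃ i ∈ Finset.range p, A.valuation (1 - ζ ^ i * β₀) ≤ A.valuation ϖ := by
    by_contra hcon
    push Not at hcon
    have h1 : A.valuation ϖ ^ (Finset.range p).card <
        ∏ i ∈ Finset.range p, A.valuation (1 - ζ ^ i * β₀) := by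
      rw [← Finset.prod_const]
      exact Finset.prod_lt_prod_of_nonempty (fun i _ => zero_lt_iff.2 hvϖ0) hcon
        (Finset.nonempty_range_iff.2 hp.ne_zero)
    rw [Finset.card_range, ← map_prod, ← hprod, ← hvneg] at h1
    exact absurd hu1 (not_le.2 h1)
  set β : Qb := ζ ^ i * β₀ with hβdef
  have hβp : β ^ p = u := by
    rw [hβdef, mul_pow, ← pow_mul, mul_comm i p, pow_mul, hζ.pow_eq_one, one_pow, one_mul, hβ₀]
  have hβU : A.valuation β = 1 := by
    have h1 : A.valuation β ^ p = 1 := by rw [← map_pow, hβp, huU]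
    exact (pow_eq_one_iff_of_nonneg zero_le hp.ne_zero).1 h1
  have hβ0 : β ≠ 0 := fun h => by rw [h, map_zero] at hβU; exact zero_ne_one hβU
  set t : Qb := (β - 1) / ϖ with htdef
  have htA : t ∈ A := by
    rw [← A.valuation_le_one_iff, htdef, map_div₀, hvneg]
    exact div_le_one_of_le₀ hi zero_le
  have hβt : β = 1 + ϖ * t := by rw [htdef]; field_simp; ring
  refine ⟨β, hβp, htA, fun σ hσ => ?_⟩
  -- `σ β = ζ ^ j β`
  have hσβ : (σ β) ^ p = β ^ p := by rw [← map_pow, hβp, huH σ hσ]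
  have hq : (σ β / β) ^ p = 1 := by rw [div_pow, hσβ, div_self (pow_ne_zero _ hβ0)]
  have : NeZero p := ⟨hp.ne_zero⟩
  obtain ⟨j, -, hj⟩ := hζ.eq_pow_of_pow_eq_one hq
  have hσβ' : σ β = ζ ^ j * β := by
    rw [hj]; field_simp
  by_cases hpj : p ∣ j
  · obtain ⟨m, rfl⟩ := hpj
    rw [hσβ', pow_mul, hζ.pow_eq_one, one_pow, one_mul]
  · exfalso
    -- `σ β - β = ϖ (σ t - t)` is smaller than `ϖ`
    have hσI := hHI hσ
    have hσϖ : σ ϖ = ϖ := by rw [hϖdef, map_sub, map_one, hζH σ hσ]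
    have h1 : σ β - β = ϖ * (σ t - t) := by
      rw [hβt, map_add, map_one, map_mul, hσϖ]; ring
    have h2 : σ t - t ∈ A.nonunits :=
      ((mem_inertiaSubgroupIn_iff_forall A σ).1 hσI).2 t htA
    have h3 : A.valuation (σ β - β) < A.valuation ϖ := by
      rw [h1, map_mul]
      exact mul_lt_of_lt_one_right (zero_lt_iff.2 hvϖ0) (A.mem_nonunits_iff.1 h2)
    have h4 : A.valuation (σ β - β) = A.valuation ϖ := by
      rw [hσβ']
      have : ζ ^ j * β - β = -((1 - ζ ^ j) * β) := by ring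
      rw [this, Valuation.map_neg, map_mul, hβU, mul_one,
        valuation_one_sub_pow_eq A hp hζ hpj, hϖdef, hvneg]
    rw [h4] at h3
    exact lt_irrefl _ h3

end Root

end Fermat.Agent.GF.KCover.ASFormRoot
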