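/-
GATE-F (S44) / GF-ASFORM (helper40), MODULAR half, file 1: **step (c) on the modular frame**.

Level `N`, `A | p` a valuation subring of `ℚ̄`, `H ⊆ I_A` a set of automorphisms of `ℚ̄`
(`K' = ℚ̄^H`; in the application `H = I' = I_A ∩ ker (cyc p)`), `ζ` a primitive `p`-th root of unity
fixed by `H`, `ϖ = ζ - 1`.  `W` a valuation subring of `F_N = ℚ̄(X₀(N))` with `W ∩ ℚ̄ = A` (one of the
two Gauss valuations).

* `ratField N H`, `ratConstField N H` : the `H`-fixed functions / constants, as subfields of `F_N`;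
* `natCast_div_pow_mem` : `p / (ζ - 1) ^ (p - 1) ∈ ℤ[ζ] ⊆ A`;
* `exists_const_root` : the hypothesis `hroot` of `ASForm.exists_const_form` (a function whose
  `p`-th power is constant mod `𝔪_W` is constant mod `𝔪_W`, with an `I_A`-fixed constant);
* **`const_form_of_deep`** : from a `K'`-rational deep representation `g = a z d ^ p`
  (`z ≡ 1 mod ϖ ^ p W`, output of helper86 `exists_rat_deep_one/two`) and `g ≡ a₀ mod 𝔪_W`:
  `g = A (1 + ϖ ^ p y)`, `A` an `H`-fixed unit constant, `y ∈ W` `H`-fixed.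
  Binder `hint` = helper56 `exists_zpow_valuation_of_fixed` (integrality of `W` on `K'`-rational
  functions: `W.valuation u ∈ W.valuation ϖ ^ ℤ`).
-/
import Fermat.Agent.GF.KCover.ASForm
import Fermat.Agent.GF.NormDepth.Inst.RatModular
import Fermat.Agent.GL.Local.InertiaField

set_option autoImplicit false
set_option linter.unusedSectionVars false

noncomputable section

namespace Fermat.Agent.GF.KCover.ASFormMod

open ModularCurve
open Fermat.Agent.GJ.Kum.KumType Fermat.Agent.GJ.KumGroup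
open Fermat.Agent.GF.NormDepth.Inst
open Fermat.Agent.GF.KCover.ASForm
open Fermat.Agent.GL.Local.InertiaField

local notation "GQ" => (AlgebraicClosure ℚ ≃ₐ[ℚ] AlgebraicClosure ℚ)
local notation "Qb" => AlgebraicClosure ℚ

section Fields

variable (N : ℕ) [NeZero N] (H : Set GQ)

/-- the `H`-fixed functions (`K'`-rational functions, `K' = ℚ̄^H`), as a subfield of `F_N` -/
def ratField : Subfield (FK N) where
  carrier := {f | ∀ σ ∈ H, arithmeticRingAut (modularFunctionFieldFull N) σ f = f}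
  mul_mem' := fun {a b} ha hb σ hσ => by rw [map_mul, ha σ hσ, hb σ hσ]
  one_mem' := fun σ _ => map_one _
  add_mem' := fun {a b} ha hb σ hσ => by rw [map_add, ha σ hσ, hb σ hσ]
  zero_mem' := fun σ _ => map_zero _
  neg_mem' := fun {a} ha σ hσ => by rw [map_neg, ha σ hσ]
  inv_mem' := fun a ha σ hσ => by rw [map_inv₀, ha σ hσ]

theorem mem_ratField {f : FK N} :
    f ∈ ratField N H ↔ ∀ σ ∈ H, arithmeticRingAut (modularFunctionFieldFull N) σ f = f := Iff.rfl

/-- the `H`-fixed constants, as a subfield of `F_N` -/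
def ratConstField : Subfield (FK N) where
  carrier := {f | ∃ c : Qb, (∀ σ ∈ H, σ c = c) ∧ f = algebraMap Qb (FK N) c}
  mul_mem' := by
    rintro _ _ ⟨c, hc, rfl⟩ ⟨d, hd, rfl⟩
    exact ⟨c * d, fun σ hσ => by rw [map_mul, hc σ hσ, hd σ hσ], (map_mul _ _ _).symm⟩
  one_mem' := ⟨1, fun σ _ => map_one _, (map_one _).symm⟩
  add_mem' := by
    rintro _ _ ⟨c, hc, rfl⟩ ⟨d, hd, rfl⟩
    exact ⟨c + d, fun σ hσ => by rw [map_add, hc σ hσ, hd σ hσ], (map_add _ _ _).symm⟩
  zero_mem' := ⟨0, fun σ _ => map_zero _, (map_zero _).symm⟩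
  neg_mem' := by
    rintro _ ⟨c, hc, rfl⟩
    exact ⟨-c, fun σ hσ => by rw [map_neg, hc σ hσ], (map_neg _ _).symm⟩
  inv_mem' := by
    rintro _ ⟨c, hc, rfl⟩
    exact ⟨c⁻¹, fun σ hσ => by rw [map_inv₀, hc σ hσ], (map_inv₀ _ _).symm⟩

theorem mem_ratConstField {f : FK N} :
    f ∈ ratConstField N H ↔ ∃ c : Qb, (∀ σ ∈ H, σ c = c) ∧ f = algebraMap Qb (FK N) c := Iff.rfl

theorem ratConstField_le : ratConstField N H ≤ ratField N H := by
  rintro _ ⟨c, hc, rfl⟩ σ hσ
  rw [arithmeticRingAut_algebraMap, hc σ hσ]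

theorem coe_mem_ratField {u : (FK N)ˣ} (hu : u ∈ ratUnits N H) : (u : FK N) ∈ ratField N H :=
  fun σ hσ => congrArg Units.val (hu σ hσ)

theorem mem_ratUnits_of_coe {u : (FK N)ˣ} (hu : (u : FK N) ∈ ratField N H) : u ∈ ratUnits N H :=
  fun σ hσ => Units.ext (hu σ hσ)

theorem coe_mem_ratConstField {u : (FK N)ˣ} (hu : u ∈ ratConsts N H) :
    (u : FK N) ∈ ratConstField N H := by
  obtain ⟨c, hc, rfl⟩ := hu
  exact ⟨(c : Qb), hc, rfl⟩

end Fields

/-! ### valuation bookkeeping: `W ∩ ℚ̄ = A` -/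

section Base

variable {N : ℕ} [NeZero N] (W : ValuationSubring (FK N)) (A : ValuationSubring Qb)
  (hWA : ∀ a : Qb, a ∈ A ↔ algebraMap Qb (FK N) a ∈ W)

include hWA in
theorem algebraMap_mem_nonunits_iff (a : Qb) :
    algebraMap Qb (FK N) a ∈ W.nonunits ↔ a ∈ A.nonunits := by
  rw [ValuationSubring.mem_nonunits_iff_or, ValuationSubring.mem_nonunits_iff_or, ← map_inv₀,
    ← hWA, map_eq_zero]

include hWA in
theorem valuation_algebraMap_eq_one {a : Qb} (ha : A.valuation a = 1) :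
    W.valuation (algebraMap Qb (FK N) a) = 1 := by
  have h1 : a ∈ A := (A.valuation_le_one_iff a).1 ha.le
  have h2 : a ∉ A.nonunits := by rw [A.mem_nonunits_iff, ha]; exact lt_irrefl _
  have h3 : algebraMap Qb (FK N) a ∈ W := (hWA a).1 h1
  have h4 : algebraMap Qb (FK N) a ∉ W.nonunits := fun h =>
    h2 ((algebraMap_mem_nonunits_iff W A hWA a).1 h)
  rw [W.mem_nonunits_iff, not_lt] at h4
  exact le_antisymm ((W.valuation_le_one_iff _).2 h3) h4

theorem add_mem_nonunits {x y : FK N} (hx : x ∈ W.nonunits) (hy : y ∈ W.nonunits) :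
    x + y ∈ W.nonunits := by
  rw [W.mem_nonunits_iff] at hx hy ⊢
  exact lt_of_le_of_lt (W.valuation.map_add x y) (max_lt hx hy)

theorem mem_nonunits_of_pow {x : FK N} {n : ℕ} (h : x ^ n ∈ W.nonunits) : x ∈ W.nonunits := by
  rw [W.mem_nonunits_iff] at h ⊢
  by_contra hx
  rw [not_lt] at hx
  rw [map_pow] at h
  exact absurd h (not_lt.2 (one_le_pow₀ hx))

end Base

/-! ### the cyclotomic uniformiser -/

section Cyclo

variable {p : ℕ} (A : ValuationSubring Qb) {ζ : Qb}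

theorem zeta_mem (hζ : ζ ^ p = 1) (hp0 : p ≠ 0) : ζ ∈ A := by
  rw [← A.valuation_le_one_iff]
  have h1 : A.valuation ζ ^ p = 1 := by rw [← map_pow, hζ, map_one]
  exact ((pow_eq_one_iff_of_nonneg zero_le hp0).1 h1).le

/-- `p / (ζ - 1) ^ (p - 1) ∈ ℤ[ζ] ⊆ A`. -/
theorem natCast_div_pow_mem (hp : p.Prime) (hζ : IsPrimitiveRoot ζ p) :
    (p : Qb) / (ζ - 1) ^ (p - 1) ∈ A := by
  obtain ⟨z, hz, hpz⟩ := hζ.self_sub_one_pow_dvd_order (Nat.sub_lt hp.pos one_pos)
  have hζA : ζ ∈ A := zeta_mem A hζ.pow_eq_one hp.ne_zero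
  have hzA : z ∈ A := by
    have hle : Algebra.adjoin ℤ {ζ} ≤ subalgebraOfSubring A.toSubring :=
      Algebra.adjoin_le (by
        intro x hx
        rw [Set.mem_singleton_iff] at hx
        rw [hx]
        exact hζA)
    exact hle hz
  have h1 : ζ - 1 ≠ 0 := sub_ne_zero.2 (hζ.ne_one hp.one_lt)
  rw [hpz, mul_div_assoc, div_self (pow_ne_zero _ h1), mul_one]
  exact hzA

end Cyclo

/-! ### the hypothesis `hroot` -/

section Root

variable {N : ℕ} [NeZero N] (H : Set GQ) (W : ValuationSubring (FK N)) (A : ValuationSubring Qb)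
  (hWA : ∀ a : Qb, a ∈ A ↔ algebraMap Qb (FK N) a ∈ W)
  {p : ℕ} (hp : p.Prime) (hp2 : p ≠ 2) (hpA : (p : Qb) ∈ A.nonunits)
  (hHI : H ⊆ ((A.inertiaSubgroupIn ℚ : Subgroup GQ) : Set GQ))

include hWA hp hp2 hpA hHI in
/-- **`hroot`**: a function whose `p`-th power is a (rational) constant modulo `𝔪_W` is an
`I_A`-fixed constant modulo `𝔪_W`. -/
theorem exists_const_root (d : FK N) (hdW : d ∈ W) (a : FK N) (ha : a ∈ ratConstField N H)
    (hda : d ^ p - a ∈ W.nonunits) : ∃ β ∈ ratConstField N H, d - β ∈ W.nonunits := by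
  obtain ⟨a', -, rfl⟩ := ha
  have hpW : ((p : ℕ) : FK N) ∈ W.nonunits := by
    have := (algebraMap_mem_nonunits_iff W A hWA (p : Qb)).2 hpA
    rwa [map_natCast] at this
  have hdpW : d ^ p ∈ W := pow_mem hdW p
  have haW : algebraMap Qb (FK N) a' ∈ W := by
    have h1 : d ^ p - algebraMap Qb (FK N) a' ∈ W := mem_of_mem_nonunits W hda
    have h2 : algebraMap Qb (FK N) a' = d ^ p - (d ^ p - algebraMap Qb (FK N) a') := by ring
    rw [h2]
    exact sub_mem hdpW h1
  have ha'A : a' ∈ A := (hWA a').2 haW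
  by_cases hnu : a' ∈ A.nonunits
  · -- `d` itself is small
    refine ⟨0, (ratConstField N H).zero_mem, ?_⟩
    rw [sub_zero]
    apply mem_nonunits_of_pow W (n := p)
    have h2 : d ^ p = (d ^ p - algebraMap Qb (FK N) a') + algebraMap Qb (FK N) a' := by ring
    rw [h2]
    exact add_mem_nonunits W hda ((algebraMap_mem_nonunits_iff W A hWA a').2 hnu)
  · -- `a' = b ^ p`, `b` a unit of `A`, `b ≡` a root of unity of order prime to `p`
    obtain ⟨b, hb⟩ := IsAlgClosed.exists_pow_nat_eq a' hp.pos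
    have hva' : A.valuation a' = 1 := by
      rw [A.mem_nonunits_iff, not_lt] at hnu
      exact le_antisymm ((A.valuation_le_one_iff _).2 ha'A) hnu
    have hvb : A.valuation b = 1 := by
      have h1 : A.valuation b ^ p = 1 := by rw [← map_pow, hb, hva']
      exact (pow_eq_one_iff_of_nonneg zero_le hp.ne_zero).1 h1
    have hbA : b ∈ A := (A.valuation_le_one_iff b).1 hvb.le
    have hbnu : b ∉ A.nonunits := by rw [A.mem_nonunits_iff, hvb]; exact lt_irrefl _
    have hbW : algebraMap Qb (FK N) b ∈ W := (hWA b).1 hbA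
    -- `(d - b) ^ p ≡ d ^ p - b ^ p`
    obtain ⟨r, hr⟩ := exists_add_pow_prime_eq hp (⟨d, hdW⟩ : W)
      (⟨-algebraMap Qb (FK N) b, neg_mem hbW⟩ : W)
    have hr' : (d + -algebraMap Qb (FK N) b) ^ p = d ^ p + (-algebraMap Qb (FK N) b) ^ p +
        (p : FK N) * d * (-algebraMap Qb (FK N) b) * (r : FK N) := by
      have := congrArg (fun t : W => (t : FK N)) hr
      simpa using this
    have hodd : Odd p := hp.odd_of_ne_two hp2
    have hdb : d - algebraMap Qb (FK N) b ∈ W.nonunits := by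
      apply mem_nonunits_of_pow W (n := p)
      have h3 : (d - algebraMap Qb (FK N) b) ^ p = (d ^ p - algebraMap Qb (FK N) a') +
          (p : FK N) * (d * (-algebraMap Qb (FK N) b) * (r : FK N)) := by
        rw [sub_eq_add_neg, hr', hodd.neg_pow, ← map_pow, hb]
        ring
      rw [h3]
      refine add_mem_nonunits W hda (mul_mem_nonunits_left W hpW ?_)
      exact mul_mem (mul_mem hdW (neg_mem hbW)) r.2
    obtain ⟨η, M, hM, hηM, hbη⟩ :=
      exists_rootOfUnity_sub_mem_nonunits A hp hpA b hbA hbnu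
    have hηI : η ∈ inertiaField A := rootOfUnity_mem_inertiaField A hp hpA hM hηM
    rw [mem_inertiaField_iff] at hηI
    refine ⟨algebraMap Qb (FK N) η, ⟨η, fun σ hσ => hηI σ (hHI hσ), rfl⟩, ?_⟩
    have h4 : d - algebraMap Qb (FK N) η =
        (d - algebraMap Qb (FK N) b) + algebraMap Qb (FK N) (b - η) := by
      rw [map_sub]; ring
    rw [h4]
    exact add_mem_nonunits W hdb ((algebraMap_mem_nonunits_iff W A hWA _).2 hbη)

end Root

/-! ### step (c) on the modular frame -/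

section Deep

variable {N : ℕ} [NeZero N] (H : Set GQ) (W : ValuationSubring (FK N)) (A : ValuationSubring Qb)
  (hWA : ∀ a : Qb, a ∈ A ↔ algebraMap Qb (FK N) a ∈ W)
  {p : ℕ} (hp : p.Prime) (hp2 : p ≠ 2) (hpA : (p : Qb) ∈ A.nonunits)
  (hHI : H ⊆ ((A.inertiaSubgroupIn ℚ : Subgroup GQ) : Set GQ))
  {ζ : Qb} (hζ : IsPrimitiveRoot ζ p) (hζH : ∀ σ ∈ H, σ ζ = ζ)

include hp hp2 hpA hζ in
/-- `ζ - 1` is a non-unit of `A`. -/
theorem zeta_sub_one_mem_nonunits : ζ - 1 ∈ A.nonunits := by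
  have hζA : ζ ∈ A := zeta_mem A hζ.pow_eq_one hp.ne_zero
  obtain ⟨r, hr⟩ := exists_add_pow_prime_eq hp (⟨ζ, hζA⟩ : A) (⟨-1, neg_mem A.one_mem⟩ : A)
  have hr' : (ζ + -1) ^ p = ζ ^ p + (-1) ^ p + (p : Qb) * ζ * (-1) * (r : Qb) := by
    have := congrArg (fun t : A => (t : Qb)) hr
    simpa using this
  have hodd : Odd p := hp.odd_of_ne_two hp2
  rw [A.mem_nonunits_iff]
  by_contra hlt
  rw [not_lt] at hlt
  have h1 : A.valuation ((ζ - 1) ^ p) < 1 := by
    rw [sub_eq_add_neg, hr', hζ.pow_eq_one, hodd.neg_one_pow, add_neg_cancel, zero_add,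
      ← A.mem_nonunits_iff, mul_assoc, mul_assoc]
    rw [A.mem_nonunits_iff, map_mul]
    refine mul_lt_one_of_nonneg_of_lt_one_left zero_le (A.mem_nonunits_iff.1 hpA) ?_
    rw [A.valuation_le_one_iff]
    exact mul_mem hζA (mul_mem (neg_mem A.one_mem) r.2)
  rw [map_pow] at h1
  exact absurd h1 (not_lt.2 (one_le_pow₀ hlt))

include hWA hp hp2 hpA hHI hζ hζH in
/-- **step (c), modular**: from a `K'`-rational deep representation to `g = A (1 + ϖ ^ p y)`. -/
theorem const_form_of_deep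
    (hint : ∀ u : (FK N)ˣ, u ∈ ratUnits N H → ∃ n : ℤ,
      W.valuation (u : FK N) = W.valuation (algebraMap Qb (FK N) (ζ - 1)) ^ n)
    {g a z d a₀ : (FK N)ˣ} (ha : a ∈ ratConsts N H) (hz : z ∈ ratUnits N H)
    (hd : d ∈ ratUnits N H) (hg : g = a * z * d ^ p)
    (hr : ∃ r ∈ W, (z : FK N) - 1 = algebraMap Qb (FK N) ((ζ - 1) ^ p) * r)
    (ha₀ : a₀ ∈ ratConsts N H) (ha₀U : W.valuation (a₀ : FK N) = 1)
    (h0 : W.valuation (((a₀⁻¹ * g : (FK N)ˣ) : FK N) - 1) < 1) :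
    ∃ A' : Qb, (∀ σ ∈ H, σ A' = A') ∧ A.valuation A' = 1 ∧ ∃ y ∈ W, y ∈ ratField N H ∧
      (g : FK N) = algebraMap Qb (FK N) A' * (1 + algebraMap Qb (FK N) ((ζ - 1) ^ p) * y) := by
  set ϖ : FK N := algebraMap Qb (FK N) (ζ - 1) with hϖdef
  have hζ1 : ζ - 1 ≠ 0 := sub_ne_zero.2 (hζ.ne_one hp.one_lt)
  have hϖ0 : ϖ ≠ 0 := (map_ne_zero _).2 hζ1
  have hϖC : ϖ ∈ ratConstField N H :=
    ⟨ζ - 1, fun σ hσ => by rw [map_sub, map_one, hζH σ hσ], rfl⟩
  have hϖm : ϖ ∈ W.nonunits :=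
    (algebraMap_mem_nonunits_iff W A hWA _).2 (zeta_sub_one_mem_nonunits A hp hp2 hpA hζ)
  have hvϖ : W.valuation ϖ < 1 := W.mem_nonunits_iff.1 hϖm
  have hvϖ0 : W.valuation ϖ ≠ 0 := (Valuation.ne_zero_iff _).2 hϖ0
  have hϖp : algebraMap Qb (FK N) ((ζ - 1) ^ p) = ϖ ^ p := map_pow _ _ _
  -- the hypotheses of the abstract lemma
  have hunif : ∀ x ∈ ratField N H, x ∈ W.nonunits → x / ϖ ∈ W := by
    intro x hxF hxm
    by_cases hx0 : x = 0
    · rw [hx0, zero_div]; exact W.zero_mem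
    obtain ⟨n, hn⟩ := hint (Units.mk0 x hx0) (mem_ratUnits_of_coe N H hxF)
    rw [Units.val_mk0] at hn
    have hxv : W.valuation x < 1 := W.mem_nonunits_iff.1 hxm
    rw [← W.valuation_le_one_iff, map_div₀, hn]
    -- `n ≥ 1`
    have hn1 : 1 ≤ n := by
      by_contra hlt
      rw [not_le] at hlt
      obtain ⟨m, hm⟩ := Int.exists_eq_neg_ofNat (by omega : n ≤ 0)
      rw [hn, hm, zpow_neg, zpow_natCast] at hxv
      have h1 : W.valuation ϖ ^ m ≤ 1 := pow_le_one₀ zero_le hvϖ.le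
      have h2 : W.valuation ϖ ^ m ≠ 0 := pow_ne_zero _ hvϖ0
      exact absurd hxv (not_lt.2 ((one_le_inv₀ (zero_lt_iff.2 h2)).2 h1))
    obtain ⟨m, hm⟩ := Int.eq_ofNat_of_zero_le (by omega : 0 ≤ n - 1)
    have hn' : n = (m : ℤ) + 1 := by omega
    rw [hn', zpow_add₀ hvϖ0, zpow_one, zpow_natCast, mul_div_assoc, div_self hvϖ0, mul_one]
    exact pow_le_one₀ zero_le hvϖ.le
  have hpϖ : ((p : ℕ) : FK N) / ϖ ^ (p - 1) ∈ W := by
    have h1 := (hWA _).1 (natCast_div_pow_mem A hp hζ)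
    rwa [map_div₀, map_natCast, map_pow] at h1
  have hroot : ∀ d ∈ ratField N H, d ∈ W → ∀ a ∈ ratConstField N H, d ^ p - a ∈ W.nonunits →
      ∃ β ∈ ratConstField N H, d - β ∈ W.nonunits := fun d _ hdW a ha hda =>
    exists_const_root H W A hWA hp hp2 hpA hHI d hdW a ha hda
  -- valuations
  obtain ⟨r, hrW, hzr⟩ := hr
  have hzm : (z : FK N) - 1 ∈ W.nonunits := by
    rw [hzr, hϖp]
    exact mul_mem_nonunits_left W (pow_mem_nonunits W hϖm hp.ne_zero) hrW
  have hzU : W.valuation (z : FK N) = 1 := val_eq_one_of_sub_mem W (map_one _) hzm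
  have hgκ : (g : FK N) - (a₀ : FK N) ∈ W.nonunits := by
    have h1 : (g : FK N) - (a₀ : FK N) =
        (a₀ : FK N) * ((((a₀⁻¹ * g : (FK N)ˣ) : FK N)) - 1) := by
      rw [Units.val_mul, Units.val_inv_eq_inv_val]
      field_simp
    rw [h1, W.mem_nonunits_iff, map_mul, ha₀U, one_mul]
    exact h0
  have hgU : W.valuation (g : FK N) = 1 := val_eq_one_of_sub_mem W ha₀U hgκ
  obtain ⟨n, hn⟩ := hint d hd
  have hgF : (g : FK N) = (a : FK N) * (z : FK N) * (d : FK N) ^ p := by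
    rw [hg]; simp
  have haU' : W.valuation (a : FK N) * W.valuation (d : FK N) ^ p = 1 := by
    have := hgU
    rw [hgF, map_mul, map_mul, hzU, mul_one, map_pow] at this
    exact this
  -- rescale `a`, `d` to units
  set a' : FK N := (a : FK N) * ϖ ^ (n * p) with ha'def
  set d' : FK N := (d : FK N) * ϖ ^ (-n) with hd'def
  have hd'U : W.valuation d' = 1 := by
    rw [hd'def, map_mul, map_zpow₀, hn, ← zpow_add₀ hvϖ0, add_neg_cancel, zpow_zero]
  have ha'U : W.valuation a' = 1 := by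
    rw [ha'def, map_mul, map_zpow₀, zpow_mul, zpow_natCast, ← hn]
    exact haU'
  have hg' : (g : FK N) = a' * (z : FK N) * d' ^ p := by
    rw [hgF, ha'def, hd'def, mul_pow, ← zpow_natCast (ϖ ^ (-n)) p, ← zpow_mul]
    have h1 : ϖ ^ (n * (p : ℤ)) * ϖ ^ (-n * (p : ℤ)) = 1 := by
      rw [← zpow_add₀ hϖ0, neg_mul, add_neg_cancel, zpow_zero]
    calc (a : FK N) * (z : FK N) * (d : FK N) ^ p
        = (a : FK N) * (z : FK N) * (d : FK N) ^ p * (ϖ ^ (n * (p : ℤ)) * ϖ ^ (-n * (p : ℤ))) := by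
          rw [h1, mul_one]
      _ = _ := by ring
  have ha'C : a' ∈ ratConstField N H :=
    (ratConstField N H).mul_mem (coe_mem_ratConstField N H ha)
      ((ratConstField N H).zpow_mem hϖC _)
  have hd'F : d' ∈ ratField N H :=
    (ratField N H).mul_mem (coe_mem_ratField N H hd)
      ((ratField N H).zpow_mem (ratConstField_le N H hϖC) _)
  have hzdiv : ((z : FK N) - 1) / ϖ ^ p ∈ W := by
    rw [hzr, hϖp, mul_div_assoc, mul_comm, div_mul_cancel₀ _ (pow_ne_zero _ hϖ0)]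
    exact hrW
  obtain ⟨Ac, hAcC, hAcU, hAc⟩ := exists_const_form W hp (ratField N H) (ratConstField N H)
    (ratConstField_le N H) hϖ0 hϖm hunif hpϖ hroot hg' ha'C ha'U hd'F hd'U hzdiv
    (coe_mem_ratConstField N H ha₀) hgκ
  obtain ⟨A', hA'H, rfl⟩ := hAcC
  have hA'0 : algebraMap Qb (FK N) A' ≠ 0 := fun h => by
    rw [h, map_zero] at hAcU; exact zero_ne_one hAcU
  have hAcW : algebraMap Qb (FK N) A' ∈ W := (W.valuation_le_one_iff _).1 hAcU.le
  have hAcinvW : (algebraMap Qb (FK N) A')⁻¹ ∈ W := by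
    rw [← W.valuation_le_one_iff, map_inv₀, hAcU, inv_one]
  refine ⟨A', hA'H, ?_, (algebraMap Qb (FK N) A')⁻¹ * (((g : FK N) - algebraMap Qb (FK N) A') /
    ϖ ^ p), mul_mem hAcinvW hAc, ?_, ?_⟩
  · -- `A.valuation A' = 1`
    have h1 : A' ∈ A := (hWA A').2 hAcW
    have h2 : A'⁻¹ ∈ A := (hWA A'⁻¹).2 (by rw [map_inv₀]; exact hAcinvW)
    have h3 : A.valuation A' ≤ 1 := (A.valuation_le_one_iff _).2 h1
    have h4 : A.valuation A'⁻¹ ≤ 1 := (A.valuation_le_one_iff _).2 h2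
    rw [map_inv₀] at h4
    have hA'0' : A' ≠ 0 := fun h => hA'0 (by rw [h, map_zero])
    have hv0 : A.valuation A' ≠ 0 := (Valuation.ne_zero_iff _).2 hA'0'
    exact le_antisymm h3 ((inv_le_one₀ (zero_lt_iff.2 hv0)).1 h4)
  · have hgF' : (g : FK N) ∈ ratField N H := by
      rw [hgF]
      exact (ratField N H).mul_mem ((ratField N H).mul_mem
        (ratConstField_le N H (coe_mem_ratConstField N H ha)) (coe_mem_ratField N H hz))
        ((ratField N H).pow_mem (coe_mem_ratField N H hd) p)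
    have hAF : algebraMap Qb (FK N) A' ∈ ratField N H :=
      ratConstField_le N H ⟨A', hA'H, rfl⟩
    exact (ratField N H).mul_mem ((ratField N H).inv_mem hAF)
      ((ratField N H).div_mem ((ratField N H).sub_mem hgF' hAF)
        ((ratField N H).pow_mem (ratConstField_le N H hϖC) p))
  · rw [hϖp]
    have hϖp0 : ϖ ^ p ≠ 0 := pow_ne_zero _ hϖ0
    field_simp
    ring

end Deep

end Fermat.Agent.GF.KCover.ASFormMod
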