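/-
GATE-F (S44) / GF-ASFORM (helper40), MODULAR half, file 2: **the Artin–Schreier normal form on the
modular nodal frame** (board 6222 §2 (b)(c)(d), RULING-3 6239).

Level `N' p`, `p ∥ N' p`, `A | p`, `H ⊆ I_A` (`K' = ℚ̄^H`), `ζ` a primitive `p`-th root of unity fixed
by `H`, `ϖ = ζ - 1`; `Hn : NodalHyp` on the two Gauss valuations `(redDataBar, redData2)`.

**`exists_asForm_modular`** : `g` a `K'`-rational Kummer function with class in the `p`-new part,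
congruent to unit `K'`-constants modulo `𝔪(Rw_i)` (`i = 1, 2`), with poles bounded by an effective
divisor `Z` supported on good places.  Then

  `g = A (1 + ϖ ^ p g1)`,  `A` a `K'`-rational unit constant,
  `g1 ∈ Rw₁ ∩ Rw₂`, `K'`-rational, `g1 ∈ L(Z)`, and `red₁ g1 (P_s) = red₂ g1 (Q_s)` at every node.

Proof: helper86 `exists_rat_deep_{one,two}_of_const` (the `K'`-rational `U`-iteration, `e := ϖ ^ p`)
→ `ASFormMod.const_form_of_deep` on each component → helper60 `ASNode.g1_mem_Rw2` / `glued_value_g1`.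
Binders `hint₁ hint₂` = helper56 `exists_zpow_valuation_of_fixed` (the Gauss valuations are
`ℤ`-valued in `ϖ`-units on `K'`-rational functions).
-/
import Fermat.Agent.GF.KCover.ASFormMod
import Fermat.Agent.GF.KCover.ASNode.GlueConst
import Fermat.Agent.GS.Nodal.Inst.Level

set_option autoImplicit false
set_option linter.unusedSectionVars false

noncomputable section

namespace Fermat.Agent.GF.KCover.ASFormTop

open AlgebraicCurve ModularCurve IsLocalRing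
open Fermat.Agent.S24 Fermat.Agent.RRh45
open Fermat.Agent.GJ.J1 Fermat.Agent.GJ.J1.Val
open Fermat.Agent.GJ.Kum.KumType Fermat.Agent.GJ.KumGroup
open Fermat.Agent.GK.AL Fermat.Agent.GK.MultiVal Fermat.Agent.GK.BallTwo
open Fermat.Agent.GK.NodalGraded
open Fermat.Agent.GK.UQ Fermat.Agent.GK.UTr Fermat.Agent.GK.UqKronecker
open Fermat.Agent.GS.Nodal.LSR2 Fermat.Agent.GS.Nodal.L5 Fermat.Agent.GS.Nodal.Inst
open Fermat.Agent.GF.NormDepth.Inst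
open Fermat.Agent.GF.KCover.ASFormMod Fermat.Agent.GF.KCover.ASNode

attribute [local instance] finiteResidues_FN hasPrincipalDivisors_FN nonempty_place_FN
  isAlgClosed_res finiteResidues_Fres hasPrincipalDivisors_Fres nonempty_place_Fres

local notation "GQ" => (AlgebraicClosure ℚ ≃ₐ[ℚ] AlgebraicClosure ℚ)
local notation "Qb" => AlgebraicClosure ℚ

variable {N' p : ℕ} [NeZero N'] [Fact p.Prime] (h : ExactDvd p (N' * p))
  {A : ValuationSubring Qb} (hA : A.LiesOverPrime p) (hp2 : p ≠ 2)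
  {H : Set GQ} (hHI : H ⊆ ((A.inertiaSubgroupIn ℚ : Subgroup GQ) : Set GQ))
  {ζ : Qb} (hζ : IsPrimitiveRoot ζ p) (hζH : ∀ σ ∈ H, σ ζ = ζ)

include hA hp2 hHI hζ hζH in
/-- **the Artin–Schreier normal form on the modular nodal frame.** -/
theorem exists_asForm_modular
    (hint₁ : ∀ u : (FK (N' * p))ˣ, u ∈ ratUnits (N' * p) H → ∃ n : ℤ,
      (redDataBar (N' * p) A).Rw.valuation (u : FK (N' * p)) =
        (redDataBar (N' * p) A).Rw.valuation (algebraMap Qb (FK (N' * p)) (ζ - 1)) ^ n)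
    (hint₂ : ∀ u : (FK (N' * p))ˣ, u ∈ ratUnits (N' * p) H → ∃ n : ℤ,
      (redData2 (N' * p) A h).Rw.valuation (u : FK (N' * p)) =
        (redData2 (N' * p) A h).Rw.valuation (algebraMap Qb (FK (N' * p)) (ζ - 1)) ^ n)
    {ι : Type*} [Finite ι] [Nonempty ι]
    {P Q : ι → Place (ResidueField A) (FresBar (N' * p) A)}
    {C : Divisor Qb (FN (N' * p))} {C₁ C₂ : Divisor (ResidueField A) (FresBar (N' * p) A)}
    {g₀ c₀ : ℤ} {n₀ : ℕ}
    (Hn : NodalHyp (redCompatFN (N' * p) A h) P Q C C₁ C₂ g₀ c₀ n₀)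
    {Z : Divisor Qb (FN (N' * p))} (hZ : 0 ≤ Z) (hgood : ∀ v ∈ Z.support, GoodPlace Hn v)
    (g : pDivUnits Qb (FK (N' * p)) p) (hg : (g : (FK (N' * p))ˣ) ∈ ratUnits (N' * p) H)
    (h1 : aLow N' p p (Additive.ofMul (Kum.mk g)) = 0)
    (h2 : bLow h p (Additive.ofMul (Kum.mk g)) = 0)
    (hgZ : (((g : (FK (N' * p))ˣ) : FK (N' * p)) : FN (N' * p)) ∈ riemannRochSpace Z)
    {a₁ a₂ : (FK (N' * p))ˣ} (ha₁ : a₁ ∈ ratConsts (N' * p) H) (ha₂ : a₂ ∈ ratConsts (N' * p) H)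
    (ha₁U : (redDataBar (N' * p) A).Rw.valuation (a₁ : FK (N' * p)) = 1)
    (ha₂U : (redData2 (N' * p) A h).Rw.valuation (a₂ : FK (N' * p)) = 1)
    (h01 : (redDataBar (N' * p) A).Rw.valuation
      (((a₁⁻¹ * (g : (FK (N' * p))ˣ) : (FK (N' * p))ˣ) : FK (N' * p)) - 1) < 1)
    (h02 : (redData2 (N' * p) A h).Rw.valuation
      (((a₂⁻¹ * (g : (FK (N' * p))ˣ) : (FK (N' * p))ˣ) : FK (N' * p)) - 1) < 1) :
    ∃ A' : Qb, (∀ σ ∈ H, σ A' = A') ∧ A.valuation A' = 1 ∧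
      ∃ (g1 : FK (N' * p)) (hg1 : g1 ∈ (redDataBar (N' * p) A).Rw)
        (hg2 : g1 ∈ (redData2 (N' * p) A h).Rw),
        g1 ∈ ratField (N' * p) H ∧
        ((g : (FK (N' * p))ˣ) : FK (N' * p)) =
          algebraMap Qb (FK (N' * p)) A' * (1 + algebraMap Qb (FK (N' * p)) ((ζ - 1) ^ p) * g1) ∧
        (g1 : FN (N' * p)) ∈ riemannRochSpace Z ∧
        ∀ j : ι, ∃ c : ResidueField A,
          ValueAt (P j) ((redDataBar (N' * p) A).red ⟨g1, hg1⟩) c ∧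
          ValueAt (Q j) ((redData2 (N' * p) A h).red ⟨g1, hg2⟩) c := by
  have hp : p.Prime := Fact.out
  have hpA : ((p : ℕ) : Qb) ∈ A.nonunits := hA
  have hζ1 : ζ - 1 ≠ 0 := sub_ne_zero.2 (hζ.ne_one hp.one_lt)
  have hπ0 : (ζ - 1) ^ p ≠ 0 := pow_ne_zero _ hζ1
  -- the two deep representations
  obtain ⟨b₁, hb₁, z₁, hz₁, d₁, hd₁, hg₁, r₁, hr₁, hzr₁⟩ :=
    exists_rat_deep_one_of_const h hA g hg h1 h2 ha₁ h01 ((ζ - 1) ^ p) hπ0
  obtain ⟨b₂, hb₂, z₂, hz₂, d₂, hd₂, hg₂, r₂, hr₂, hzr₂⟩ :=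
    exists_rat_deep_two_of_const h hA g hg h1 h2 ha₂ h02 ((ζ - 1) ^ p) hπ0
  -- step (c) on each component
  obtain ⟨A₁, hA₁H, hA₁U, y₁, hy₁W, hy₁F, e₁⟩ :=
    const_form_of_deep H (redDataBar (N' * p) A).Rw A (redDataBar (N' * p) A).mem_A_iff hp hp2 hpA
      hHI hζ hζH hint₁ hb₁ hz₁ hd₁ hg₁ ⟨r₁, hr₁, hzr₁⟩ ha₁ ha₁U h01
  obtain ⟨A₂, hA₂H, hA₂U, y₂, hy₂W, hy₂F, e₂⟩ :=
    const_form_of_deep H (redData2 (N' * p) A h).Rw A (redData2 (N' * p) A h).mem_A_iff hp hp2 hpA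
      hHI hζ hζH hint₂ hb₂ hz₂ hd₂ hg₂ ⟨r₂, hr₂, hzr₂⟩ ha₂ ha₂U h02
  -- step (d): the common `g1`
  have hy₁W₂ : y₁ ∈ (redData2 (N' * p) A h).Rw :=
    g1_mem_Rw2 Hn hZ hgood hgZ hπ0 hA₁U hA₂U hy₁W hy₂W e₁ e₂
  have hA₁0 : A₁ ≠ 0 := fun h0 => by rw [h0, map_zero] at hA₁U; exact zero_ne_one hA₁U
  refine ⟨A₁, hA₁H, hA₁U, y₁, hy₁W, hy₁W₂, hy₁F, e₁, ?_, fun j => ?_⟩
  · have hy : y₁ = algebraMap Qb (FK (N' * p)) (A₁ * (ζ - 1) ^ p)⁻¹ *
        (((g : (FK (N' * p))ˣ) : FK (N' * p)) - algebraMap Qb (FK (N' * p)) A₁) := by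
      have hA₁F : algebraMap Qb (FK (N' * p)) A₁ ≠ 0 := (map_ne_zero _).2 hA₁0
      have hπF : algebraMap Qb (FK (N' * p)) ((ζ - 1) ^ p) ≠ 0 := (map_ne_zero _).2 hπ0
      rw [e₁, map_inv₀, map_mul]
      field_simp
      ring
    have h3 : ((g : (FK (N' * p))ˣ) : FK (N' * p)) - algebraMap Qb (FK (N' * p)) A₁ ∈
        riemannRochSpace Z := Submodule.sub_mem _ hgZ (const_mem_L hZ A₁)
    have h4 := (riemannRochSpace Z).smul_mem (A₁ * (ζ - 1) ^ p)⁻¹ h3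
    rw [Algebra.smul_def] at h4
    rw [hy]
    exact h4
  · exact glued_value_g1 Hn hZ hgood hgZ hπ0 hA₁U hy₁W hy₁W₂ e₁ j

end Fermat.Agent.GF.KCover.ASFormTop
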