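/-
GATE-F (S44) / GF-ASFORM (helper40), MODULAR half, file 3: **the normal form together with deep
representations carrying THE SAME constant on both components** (seam with the field side
`Pack.exists_root`; board 6527 (S3) / 6554).

* `const_form_of_deep_root` : `ASFormMod.const_form_of_deep` exporting the rescaled root:
  `g = A z d₁ ^ p` with the SAME `z` and the constant `A` of the normal form.
* **`exists_asForm_modular_deep`** : for every `e ∈ A`, `e ≠ 0`: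
  `g = A (1 + ϖ ^ p g1)` as in `ASFormTop.exists_asForm_modular`, and for `i = 1, 2`
  `g = A z_i d_i ^ p`, `z_i d_i` `K'`-rational, `z_i - 1 ∈ ϖ ^ p e Rw_i` — the SAME `A`.
  So the normalised Kummer generator `g₀ := g / A = 1 + ϖ ^ p g1` is `d_i ^ p z_i` with `z_i` as deep
  as wanted in BOTH completions.
* `exists_asForm_tame` : the same with `H := {ρ | IsTameFix A ζ ρ}` (`= I'`), BINDER-FREE
  (`hint₁ hint₂` discharged by helper56 `Int.exists_zpow_valuation_of_fixed₁/₂`).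
-/
import Fermat.Agent.GF.KCover.ASFormTop
import Fermat.Agent.GF.KCover.ASFormRoot
import Fermat.Agent.GF.KCover.Int.Modular

set_option autoImplicit false
set_option linter.unusedSectionVars false

noncomputable section

namespace Fermat.Agent.GF.KCover.ASFormDeep

open AlgebraicCurve ModularCurve IsLocalRing
open Fermat.Agent.S24 Fermat.Agent.RRh45
open Fermat.Agent.GJ.J1 Fermat.Agent.GJ.J1.Val
open Fermat.Agent.GJ.Kum.KumType Fermat.Agent.GJ.KumGroup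
open Fermat.Agent.GK.AL Fermat.Agent.GK.MultiVal Fermat.Agent.GK.BallTwo
open Fermat.Agent.GK.NodalGraded
open Fermat.Agent.GK.UQ Fermat.Agent.GK.UTr Fermat.Agent.GK.UqKronecker
open Fermat.Agent.GS.Nodal.LSR2 Fermat.Agent.GS.Nodal.L5 Fermat.Agent.GS.Nodal.Inst
open Fermat.Agent.GF.NormDepth.Inst
open Fermat.Agent.GF.KCover.ASForm Fermat.Agent.GF.KCover.ASFormMod
open Fermat.Agent.GF.KCover.ASFormRoot Fermat.Agent.GF.KCover.ASNode
open Fermat.Agent.GL.Local.InertiaField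

attribute [local instance] finiteResidues_FN hasPrincipalDivisors_FN nonempty_place_FN
  isAlgClosed_res finiteResidues_Fres hasPrincipalDivisors_Fres nonempty_place_Fres

local notation "GQ" => (AlgebraicClosure ℚ ≃ₐ[ℚ] AlgebraicClosure ℚ)
local notation "Qb" => AlgebraicClosure ℚ

/-! ### step (c) with the root exported -/

section Deep

variable {N : ℕ} [NeZero N] (H : Set GQ) (W : ValuationSubring (FK N)) (A : ValuationSubring Qb)
  (hWA : ∀ a : Qb, a ∈ A ↔ algebraMap Qb (FK N) a ∈ W)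
  {p : ℕ} (hp : p.Prime) (hp2 : p ≠ 2) (hpA : (p : Qb) ∈ A.nonunits)
  (hHI : H ⊆ ((A.inertiaSubgroupIn ℚ : Subgroup GQ) : Set GQ))
  {ζ : Qb} (hζ : IsPrimitiveRoot ζ p) (hζH : ∀ σ ∈ H, σ ζ = ζ)

include hWA hp hp2 hpA hHI hζ hζH in
/-- **step (c), modular, with the root**: `g = A z d₁ ^ p = A (1 + ϖ ^ p y)`. -/
theorem const_form_of_deep_root
    (hint : ∀ u : (FK N)ˣ, u ∈ ratUnits N H → ∃ n : ℤ,
      W.valuation (u : FK N) = W.valuation (algebraMap Qb (FK N) (ζ - 1)) ^ n)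
    {g a z d a₀ : (FK N)ˣ} (ha : a ∈ ratConsts N H) (hz : z ∈ ratUnits N H)
    (hd : d ∈ ratUnits N H) (hg : g = a * z * d ^ p)
    (hr : ∃ r ∈ W, (z : FK N) - 1 = algebraMap Qb (FK N) ((ζ - 1) ^ p) * r)
    (ha₀ : a₀ ∈ ratConsts N H) (ha₀U : W.valuation (a₀ : FK N) = 1)
    (h0 : W.valuation (((a₀⁻¹ * g : (FK N)ˣ) : FK N) - 1) < 1) :
    ∃ A' : Qb, (∀ σ ∈ H, σ A' = A') ∧ A.valuation A' = 1 ∧
      (∃ d₁ : FK N, d₁ ∈ ratField N H ∧ d₁ ≠ 0 ∧
        (g : FK N) = algebraMap Qb (FK N) A' * (z : FK N) * d₁ ^ p) ∧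
      ∃ y ∈ W, y ∈ ratField N H ∧
        (g : FK N) = algebraMap Qb (FK N) A' * (1 + algebraMap Qb (FK N) ((ζ - 1) ^ p) * y) := by
  set ϖ : FK N := algebraMap Qb (FK N) (ζ - 1) with hϖdef
  have hζ1 : ζ - 1 ≠ 0 := sub_ne_zero.2 (hζ.ne_one hp.one_lt)
  have hϖ0 : ϖ ≠ 0 := (map_ne_zero _).2 hζ1
  have hϖC : ϖ ∈ ratConstField N H :=
    ⟨ζ - 1, fun σ hσ => by rw [map_sub, map_one, hζH σ hσ], rfl⟩
  have hϖm : ϖ ∈ W.nonunits :=
    (algebraMap_mem_nonunits_iff W A hWA _).2 (zeta_sub_one_mem_nonunits A hp hp2 hpA hζ)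
  have hvϖ : W.valuation ϖ < 1 := W.mem_nonunits_iff.1 hϖm
  have hvϖ0 : W.valuation ϖ ≠ 0 := (Valuation.ne_zero_iff _).2 hϖ0
  have hϖp : algebraMap Qb (FK N) ((ζ - 1) ^ p) = ϖ ^ p := map_pow _ _ _
  have hunif : ∀ x ∈ ratField N H, x ∈ W.nonunits → x / ϖ ∈ W := by
    intro x hxF hxm
    by_cases hx0 : x = 0
    · rw [hx0, zero_div]; exact W.zero_mem
    obtain ⟨n, hn⟩ := hint (Units.mk0 x hx0) (mem_ratUnits_of_coe N H hxF)
    rw [Units.val_mk0] at hn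
    have hxv : W.valuation x < 1 := W.mem_nonunits_iff.1 hxm
    rw [← W.valuation_le_one_iff, map_div₀, hn]
    have hn1 : 1 ≤ n := by
      by_contra hlt
      rw [not_le] at hlt
      obtain ⟨m, hm⟩ := Int.exists_eq_neg_ofNat (by omega : n ≤ 0)
      rw [hn, hm, zpow_neg, zpow_natCast] at hxv
      have h1 : W.valuation ϖ ^ m ≤ 1 := pow_le_one₀ zero_le hvϖ.le
      have h2 : W.valuation ϖ ^ m ≠ 0 := pow_ne_zero _ hvϖ0
      exact absurd hxv (not_lt.2 ((one_le_inv₀ (zero_lt_iff.2 h2)).2 h1))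
    obtain ⟨m, hm⟩ := Int.eq_ofNat_of_zero_le (by omega : 0 ≤ n - 1)
    have hn' : n = (m : ℤ) + 1 := by omega
    rw [hn', zpow_add₀ hvϖ0, zpow_one, zpow_natCast, mul_div_assoc, div_self hvϖ0, mul_one]
    exact pow_le_one₀ zero_le hvϖ.le
  have hpϖ : ((p : ℕ) : FK N) / ϖ ^ (p - 1) ∈ W := by
    have h1 := (hWA _).1 (natCast_div_pow_mem A hp hζ)
    rwa [map_div₀, map_natCast, map_pow] at h1
  have hroot : ∀ d ∈ ratField N H, d ∈ W → ∀ a ∈ ratConstField N H, d ^ p - a ∈ W.nonunits →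
      ∃ β ∈ ratConstField N H, d - β ∈ W.nonunits := fun d _ hdW a ha hda =>
    exists_const_root H W A hWA hp hp2 hpA hHI d hdW a ha hda
  obtain ⟨r, hrW, hzr⟩ := hr
  have hzm : (z : FK N) - 1 ∈ W.nonunits := by
    rw [hzr, hϖp]
    exact mul_mem_nonunits_left W (pow_mem_nonunits W hϖm hp.ne_zero) hrW
  have hzU : W.valuation (z : FK N) = 1 := val_eq_one_of_sub_mem W (map_one _) hzm
  have hgκ : (g : FK N) - (a₀ : FK N) ∈ W.nonunits := by
    have h1 : (g : FK N) - (a₀ : FK N) =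
        (a₀ : FK N) * ((((a₀⁻¹ * g : (FK N)ˣ) : FK N)) - 1) := by
      rw [Units.val_mul, Units.val_inv_eq_inv_val]
      field_simp
    rw [h1, W.mem_nonunits_iff, map_mul, ha₀U, one_mul]
    exact h0
  have hgU : W.valuation (g : FK N) = 1 := val_eq_one_of_sub_mem W ha₀U hgκ
  obtain ⟨n, hn⟩ := hint d hd
  have hgF : (g : FK N) = (a : FK N) * (z : FK N) * (d : FK N) ^ p := by
    rw [hg]; simp
  have haU' : W.valuation (a : FK N) * W.valuation (d : FK N) ^ p = 1 := by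
    have := hgU
    rw [hgF, map_mul, map_mul, hzU, mul_one, map_pow] at this
    exact this
  set a' : FK N := (a : FK N) * ϖ ^ (n * p) with ha'def
  set d' : FK N := (d : FK N) * ϖ ^ (-n) with hd'def
  have hd'U : W.valuation d' = 1 := by
    rw [hd'def, map_mul, map_zpow₀, hn, ← zpow_add₀ hvϖ0, add_neg_cancel, zpow_zero]
  have ha'U : W.valuation a' = 1 := by
    rw [ha'def, map_mul, map_zpow₀, zpow_mul, zpow_natCast, ← hn]
    exact haU'
  have hg' : (g : FK N) = a' * (z : FK N) * d' ^ p := by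
    rw [hgF, ha'def, hd'def, mul_pow, ← zpow_natCast (ϖ ^ (-n)) p, ← zpow_mul]
    have h1 : ϖ ^ (n * (p : ℤ)) * ϖ ^ (-n * (p : ℤ)) = 1 := by
      rw [← zpow_add₀ hϖ0, neg_mul, add_neg_cancel, zpow_zero]
    calc (a : FK N) * (z : FK N) * (d : FK N) ^ p
        = (a : FK N) * (z : FK N) * (d : FK N) ^ p * (ϖ ^ (n * (p : ℤ)) * ϖ ^ (-n * (p : ℤ))) := by
          rw [h1, mul_one]
      _ = _ := by ring
  have ha'C : a' ∈ ratConstField N H :=
    (ratConstField N H).mul_mem (coe_mem_ratConstField N H ha)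
      ((ratConstField N H).zpow_mem hϖC _)
  have hd'F : d' ∈ ratField N H :=
    (ratField N H).mul_mem (coe_mem_ratField N H hd)
      ((ratField N H).zpow_mem (ratConstField_le N H hϖC) _)
  have hzdiv : ((z : FK N) - 1) / ϖ ^ p ∈ W := by
    rw [hzr, hϖp, mul_div_assoc, mul_comm, div_mul_cancel₀ _ (pow_ne_zero _ hϖ0)]
    exact hrW
  obtain ⟨β, hβC, hβU, -, hAc⟩ := exists_const_form_root W hp (ratField N H) (ratConstField N H)
    (ratConstField_le N H) hϖ0 hϖm hunif hpϖ hroot hg' ha'C ha'U hd'F hd'U hzdiv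
    (coe_mem_ratConstField N H ha₀) hgκ
  have hAcC : a' * β ^ p ∈ ratConstField N H :=
    (ratConstField N H).mul_mem ha'C ((ratConstField N H).pow_mem hβC p)
  have hAcU : W.valuation (a' * β ^ p) = 1 := by
    rw [map_mul, map_pow, ha'U, hβU, one_pow, mul_one]
  have hβ0 : β ≠ 0 := fun h => by rw [h, map_zero] at hβU; exact zero_ne_one hβU
  obtain ⟨A', hA'H, hA'eq⟩ := hAcC
  rw [hA'eq] at hAc hAcU
  have hA'0 : algebraMap Qb (FK N) A' ≠ 0 := fun h => by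
    rw [h, map_zero] at hAcU; exact zero_ne_one hAcU
  have hAcW : algebraMap Qb (FK N) A' ∈ W := (W.valuation_le_one_iff _).1 hAcU.le
  have hAcinvW : (algebraMap Qb (FK N) A')⁻¹ ∈ W := by
    rw [← W.valuation_le_one_iff, map_inv₀, hAcU, inv_one]
  have hgF' : (g : FK N) ∈ ratField N H := by
    rw [hgF]
    exact (ratField N H).mul_mem ((ratField N H).mul_mem
      (ratConstField_le N H (coe_mem_ratConstField N H ha)) (coe_mem_ratField N H hz))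
      ((ratField N H).pow_mem (coe_mem_ratField N H hd) p)
  have hAF : algebraMap Qb (FK N) A' ∈ ratField N H :=
    ratConstField_le N H ⟨A', hA'H, rfl⟩
  have hd'0 : d' ≠ 0 := fun h => by rw [h, map_zero] at hd'U; exact zero_ne_one hd'U
  refine ⟨A', hA'H, ?_, ⟨d' / β, (ratField N H).div_mem hd'F (ratConstField_le N H hβC),
    div_ne_zero hd'0 hβ0, ?_⟩, (algebraMap Qb (FK N) A')⁻¹ *
      (((g : FK N) - algebraMap Qb (FK N) A') / ϖ ^ p), mul_mem hAcinvW hAc, ?_, ?_⟩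
  · have h1 : A' ∈ A := (hWA A').2 hAcW
    have h2 : A'⁻¹ ∈ A := (hWA A'⁻¹).2 (by rw [map_inv₀]; exact hAcinvW)
    have h3 : A.valuation A' ≤ 1 := (A.valuation_le_one_iff _).2 h1
    have h4 : A.valuation A'⁻¹ ≤ 1 := (A.valuation_le_one_iff _).2 h2
    rw [map_inv₀] at h4
    have hA'0' : A' ≠ 0 := fun h => hA'0 (by rw [h, map_zero])
    have hv0 : A.valuation A' ≠ 0 := (Valuation.ne_zero_iff _).2 hA'0'
    exact le_antisymm h3 ((inv_le_one₀ (zero_lt_iff.2 hv0)).1 h4)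
  · rw [← hA'eq, hg', div_pow]
    field_simp
  · exact (ratField N H).mul_mem ((ratField N H).inv_mem hAF)
      ((ratField N H).div_mem ((ratField N H).sub_mem hgF' hAF)
        ((ratField N H).pow_mem (ratConstField_le N H hϖC) p))
  · rw [hϖp]
    have hϖp0 : ϖ ^ p ≠ 0 := pow_ne_zero _ hϖ0
    field_simp
    ring

end Deep

/-! ### the normal form with deep representations, same constant on both components -/

section Top

variable {N' p : ℕ} [NeZero N'] [Fact p.Prime] (h : ExactDvd p (N' * p))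
  {A : ValuationSubring Qb} (hA : A.LiesOverPrime p) (hp2 : p ≠ 2)
  {H : Set GQ} (hHI : H ⊆ ((A.inertiaSubgroupIn ℚ : Subgroup GQ) : Set GQ))
  {ζ : Qb} (hζ : IsPrimitiveRoot ζ p) (hζH : ∀ σ ∈ H, σ ζ = ζ)

set_option maxHeartbeats 1600000 in
include hA hp2 hHI hζ hζH in
/-- **the Artin–Schreier normal form with deep representations carrying the same constant.** -/
theorem exists_asForm_modular_deep
    (hint₁ : ∀ u : (FK (N' * p))ˣ, u ∈ ratUnits (N' * p) H → ∃ n : ℤ,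
      (redDataBar (N' * p) A).Rw.valuation (u : FK (N' * p)) =
        (redDataBar (N' * p) A).Rw.valuation (algebraMap Qb (FK (N' * p)) (ζ - 1)) ^ n)
    (hint₂ : ∀ u : (FK (N' * p))ˣ, u ∈ ratUnits (N' * p) H → ∃ n : ℤ,
      (redData2 (N' * p) A h).Rw.valuation (u : FK (N' * p)) =
        (redData2 (N' * p) A h).Rw.valuation (algebraMap Qb (FK (N' * p)) (ζ - 1)) ^ n)
    {ι : Type*} [Finite ι] [Nonempty ι]
    {P Q : ι → Place (ResidueField A) (FresBar (N' * p) A)}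
    {C : Divisor Qb (FN (N' * p))} {C₁ C₂ : Divisor (ResidueField A) (FresBar (N' * p) A)}
    {g₀ c₀ : ℤ} {n₀ : ℕ}
    (Hn : NodalHyp (redCompatFN (N' * p) A h) P Q C C₁ C₂ g₀ c₀ n₀)
    {Z : Divisor Qb (FN (N' * p))} (hZ : 0 ≤ Z) (hgood : ∀ v ∈ Z.support, GoodPlace Hn v)
    (g : pDivUnits Qb (FK (N' * p)) p) (hg : (g : (FK (N' * p))ˣ) ∈ ratUnits (N' * p) H)
    (h1 : aLow N' p p (Additive.ofMul (Kum.mk g)) = 0)
    (h2 : bLow h p (Additive.ofMul (Kum.mk g)) = 0)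
    (hgZ : (((g : (FK (N' * p))ˣ) : FK (N' * p)) : FN (N' * p)) ∈ riemannRochSpace Z)
    {a₁ a₂ : (FK (N' * p))ˣ} (ha₁ : a₁ ∈ ratConsts (N' * p) H) (ha₂ : a₂ ∈ ratConsts (N' * p) H)
    (ha₁U : (redDataBar (N' * p) A).Rw.valuation (a₁ : FK (N' * p)) = 1)
    (ha₂U : (redData2 (N' * p) A h).Rw.valuation (a₂ : FK (N' * p)) = 1)
    (h01 : (redDataBar (N' * p) A).Rw.valuation
      (((a₁⁻¹ * (g : (FK (N' * p))ˣ) : (FK (N' * p))ˣ) : FK (N' * p)) - 1) < 1)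
    (h02 : (redData2 (N' * p) A h).Rw.valuation
      (((a₂⁻¹ * (g : (FK (N' * p))ˣ) : (FK (N' * p))ˣ) : FK (N' * p)) - 1) < 1)
    (e : Qb) (heA : e ∈ A) (he0 : e ≠ 0) :
    ∃ A' : Qb, (∀ σ ∈ H, σ A' = A') ∧ A.valuation A' = 1 ∧
      (∃ z₁ d₁ : FK (N' * p), z₁ ∈ ratField (N' * p) H ∧ d₁ ∈ ratField (N' * p) H ∧ d₁ ≠ 0 ∧
        ((g : (FK (N' * p))ˣ) : FK (N' * p)) = algebraMap Qb (FK (N' * p)) A' * z₁ * d₁ ^ p ∧
        ∃ r ∈ (redDataBar (N' * p) A).Rw,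
          z₁ - 1 = algebraMap Qb (FK (N' * p)) ((ζ - 1) ^ p * e) * r) ∧
      (∃ z₂ d₂ : FK (N' * p), z₂ ∈ ratField (N' * p) H ∧ d₂ ∈ ratField (N' * p) H ∧ d₂ ≠ 0 ∧
        ((g : (FK (N' * p))ˣ) : FK (N' * p)) = algebraMap Qb (FK (N' * p)) A' * z₂ * d₂ ^ p ∧
        ∃ r ∈ (redData2 (N' * p) A h).Rw,
          z₂ - 1 = algebraMap Qb (FK (N' * p)) ((ζ - 1) ^ p * e) * r) ∧
      ∃ (g1 : FK (N' * p)) (hg1 : g1 ∈ (redDataBar (N' * p) A).Rw)
        (hg2 : g1 ∈ (redData2 (N' * p) A h).Rw),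
        g1 ∈ ratField (N' * p) H ∧
        ((g : (FK (N' * p))ˣ) : FK (N' * p)) =
          algebraMap Qb (FK (N' * p)) A' * (1 + algebraMap Qb (FK (N' * p)) ((ζ - 1) ^ p) * g1) ∧
        (g1 : FN (N' * p)) ∈ riemannRochSpace Z ∧
        ∀ j : ι, ∃ c : ResidueField A,
          ValueAt (P j) ((redDataBar (N' * p) A).red ⟨g1, hg1⟩) c ∧
          ValueAt (Q j) ((redData2 (N' * p) A h).red ⟨g1, hg2⟩) c := by
  have hp : p.Prime := Fact.out
  have hpA : ((p : ℕ) : Qb) ∈ A.nonunits := hA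
  have hζ1 : ζ - 1 ≠ 0 := sub_ne_zero.2 (hζ.ne_one hp.one_lt)
  have hπ0 : (ζ - 1) ^ p ≠ 0 := pow_ne_zero _ hζ1
  have hπe0 : (ζ - 1) ^ p * e ≠ 0 := mul_ne_zero hπ0 he0
  -- the two deep representations
  obtain ⟨b₁, hb₁, z₁, hz₁, d₁, hd₁, hg₁, r₁, hr₁, hzr₁⟩ :=
    exists_rat_deep_one_of_const h hA g hg h1 h2 ha₁ h01 ((ζ - 1) ^ p * e) hπe0
  obtain ⟨b₂, hb₂, z₂, hz₂, d₂, hd₂, hg₂, r₂, hr₂, hzr₂⟩ :=
    exists_rat_deep_two_of_const h hA g hg h1 h2 ha₂ h02 ((ζ - 1) ^ p * e) hπe0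
  have heW₁ : algebraMap Qb (FK (N' * p)) e ∈ (redDataBar (N' * p) A).Rw :=
    ((redDataBar (N' * p) A).mem_A_iff e).1 heA
  have heW₂ : algebraMap Qb (FK (N' * p)) e ∈ (redData2 (N' * p) A h).Rw :=
    ((redData2 (N' * p) A h).mem_A_iff e).1 heA
  have hzr₁' : (z₁ : FK (N' * p)) - 1 = algebraMap Qb (FK (N' * p)) ((ζ - 1) ^ p) *
      (algebraMap Qb (FK (N' * p)) e * r₁) := by rw [hzr₁, map_mul, mul_assoc]
  have hzr₂' : (z₂ : FK (N' * p)) - 1 = algebraMap Qb (FK (N' * p)) ((ζ - 1) ^ p) *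
      (algebraMap Qb (FK (N' * p)) e * r₂) := by rw [hzr₂, map_mul, mul_assoc]
  -- step (c) on each component
  obtain ⟨A₁, hA₁H, hA₁U, ⟨D₁, hD₁F, hD₁0, hgD₁⟩, y₁, hy₁W, hy₁F, e₁⟩ :=
    const_form_of_deep_root H (redDataBar (N' * p) A).Rw A (redDataBar (N' * p) A).mem_A_iff hp hp2
      hpA hHI hζ hζH hint₁ hb₁ hz₁ hd₁ hg₁ ⟨_, mul_mem heW₁ hr₁, hzr₁'⟩ ha₁ ha₁U h01
  obtain ⟨A₂, hA₂H, hA₂U, ⟨D₂, hD₂F, hD₂0, hgD₂⟩, y₂, hy₂W, hy₂F, e₂⟩ :=
    const_form_of_deep_root H (redData2 (N' * p) A h).Rw A (redData2 (N' * p) A h).mem_A_iff hp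
      hp2 hpA hHI hζ hζH hint₂ hb₂ hz₂ hd₂ hg₂ ⟨_, mul_mem heW₂ hr₂, hzr₂'⟩ ha₂ ha₂U h02
  -- step (d)
  have hcg : A.valuation (A₁ - A₂) ≤ A.valuation ((ζ - 1) ^ p) :=
    const_congr Hn hZ hgood hgZ hA₁U hA₂U hy₁W hy₂W e₁ e₂
  have hy₁W₂ : y₁ ∈ (redData2 (N' * p) A h).Rw :=
    g1_mem_Rw2 Hn hZ hgood hgZ hπ0 hA₁U hA₂U hy₁W hy₂W e₁ e₂
  have hA₁0 : A₁ ≠ 0 := fun h0 => by rw [h0, map_zero] at hA₁U; exact zero_ne_one hA₁U
  have hA₂0 : A₂ ≠ 0 := fun h0 => by rw [h0, map_zero] at hA₂U; exact zero_ne_one hA₂U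
  -- `A₂ / A₁` is the `p`-th power of a rational constant
  have hu : (A₂ / A₁ - 1) / (ζ - 1) ^ p ∈ A := by
    have h3 : (A₂ / A₁ - 1) / (ζ - 1) ^ p = -(A₁ - A₂) / (A₁ * (ζ - 1) ^ p) := by
      field_simp
      ring
    rw [h3, ← A.valuation_le_one_iff, map_div₀, Valuation.map_neg, map_mul, hA₁U, one_mul]
    exact div_le_one_of_le₀ hcg zero_le
  have huH : ∀ σ ∈ H, σ (A₂ / A₁) = A₂ / A₁ := fun σ hσ => by
    rw [map_div₀, hA₁H σ hσ, hA₂H σ hσ]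
  obtain ⟨β, hβp, -, hβH⟩ := exists_pth_root_const A hp hpA hζ hHI hζH hu huH
  have hβ0 : β ≠ 0 := fun h0 => by
    rw [h0, zero_pow hp.ne_zero] at hβp
    exact div_ne_zero hA₂0 hA₁0 hβp.symm
  have hβF : algebraMap Qb (FK (N' * p)) β ∈ ratField (N' * p) H :=
    ratConstField_le (N' * p) H ⟨β, hβH, rfl⟩
  refine ⟨A₁, hA₁H, hA₁U, ⟨z₁, D₁, coe_mem_ratField _ H hz₁, hD₁F, hD₁0, hgD₁, r₁, hr₁, hzr₁⟩,
    ⟨z₂, algebraMap Qb (FK (N' * p)) β * D₂, coe_mem_ratField _ H hz₂,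
      (ratField (N' * p) H).mul_mem hβF hD₂F, mul_ne_zero ((map_ne_zero _).2 hβ0) hD₂0, ?_,
      r₂, hr₂, hzr₂⟩, y₁, hy₁W, hy₁W₂, hy₁F, e₁, ?_, fun j => ?_⟩
  · rw [hgD₂, mul_pow, ← map_pow, hβp, map_div₀]
    have hA₁F : algebraMap Qb (FK (N' * p)) A₁ ≠ 0 := (map_ne_zero _).2 hA₁0
    field_simp
  · have hy : y₁ = algebraMap Qb (FK (N' * p)) (A₁ * (ζ - 1) ^ p)⁻¹ *
        (((g : (FK (N' * p))ˣ) : FK (N' * p)) - algebraMap Qb (FK (N' * p)) A₁) := by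
      have hA₁F : algebraMap Qb (FK (N' * p)) A₁ ≠ 0 := (map_ne_zero _).2 hA₁0
      have hπF : algebraMap Qb (FK (N' * p)) ((ζ - 1) ^ p) ≠ 0 := (map_ne_zero _).2 hπ0
      rw [e₁, map_inv₀, map_mul]
      field_simp
      ring
    have h3 : ((g : (FK (N' * p))ˣ) : FK (N' * p)) - algebraMap Qb (FK (N' * p)) A₁ ∈
        riemannRochSpace Z := Submodule.sub_mem _ hgZ (const_mem_L hZ A₁)
    have h4 := (riemannRochSpace Z).smul_mem (A₁ * (ζ - 1) ^ p)⁻¹ h3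
    rw [Algebra.smul_def] at h4
    rw [hy]
    exact h4
  · exact glued_value_g1 Hn hZ hgood hgZ hπ0 hA₁U hy₁W hy₁W₂ e₁ j

end Top

/-! ### the binder-free form for `H = I' = {ρ ∈ I_A | ρ ζ = ζ}` -/

section Tame

open Fermat.Agent.GF.Peu Fermat.Agent.GK.SS

variable {N' p : ℕ} [NeZero N'] [Fact p.Prime] (h : ExactDvd p (N' * p))
  {A : ValuationSubring Qb} (hA : A.LiesOverPrime p)
  {ζ : Qb} (hζ : IsPrimitiveRoot ζ p)

/-- the tame inertia group `I' = {ρ ∈ I_A | ρ ζ = ζ}`, as a set -/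
def tameSet (A : ValuationSubring Qb) (ζ : Qb) : Set GQ := {ρ | IsTameFix A ζ ρ}

theorem tameSet_subset : tameSet A ζ ⊆ ((A.inertiaSubgroupIn ℚ : Subgroup GQ) : Set GQ) :=
  fun _ hρ => hρ.1

theorem tameSet_fix : ∀ σ ∈ tameSet A ζ, σ ζ = ζ := fun _ hσ => hσ.2

include hA hζ in
/-- helper56's integrality of `w₁` on `I'`-fixed functions, in the binder shape `hint₁` -/
theorem hint₁_tame (u : (FK (N' * p))ˣ) (hu : u ∈ ratUnits (N' * p) (tameSet A ζ)) : ∃ n : ℤ,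
    (redDataBar (N' * p) A).Rw.valuation (u : FK (N' * p)) =
      (redDataBar (N' * p) A).Rw.valuation (algebraMap Qb (FK (N' * p)) (ζ - 1)) ^ n := by
  obtain ⟨n, hn⟩ := Fermat.Agent.GF.KCover.Int.exists_zpow_valuation_of_fixed₁ (N' * p) A hA hζ
    (u : FK (N' * p)) u.ne_zero (fun ρ hρ => congrArg Units.val (hu ρ hρ))
  refine ⟨n, ?_⟩
  have e : algebraMap Qb (FK (N' * p)) (ζ - 1) = -algebraMap Qb (FK (N' * p)) (1 - ζ) := by
    rw [← map_neg, neg_sub]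
  rw [e, Valuation.map_neg]
  exact hn

include hA hζ in
/-- helper56's integrality of `w₂` on `I'`-fixed functions, in the binder shape `hint₂` -/
theorem hint₂_tame (u : (FK (N' * p))ˣ) (hu : u ∈ ratUnits (N' * p) (tameSet A ζ)) : ∃ n : ℤ,
    (redData2 (N' * p) A h).Rw.valuation (u : FK (N' * p)) =
      (redData2 (N' * p) A h).Rw.valuation (algebraMap Qb (FK (N' * p)) (ζ - 1)) ^ n := by
  obtain ⟨n, hn⟩ := Fermat.Agent.GF.KCover.Int.exists_zpow_valuation_of_fixed₂ (N' * p) A h hA hζ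
    (u : FK (N' * p)) u.ne_zero (fun ρ hρ => congrArg Units.val (hu ρ hρ))
  refine ⟨n, ?_⟩
  have e : algebraMap Qb (FK (N' * p)) (ζ - 1) = -algebraMap Qb (FK (N' * p)) (1 - ζ) := by
    rw [← map_neg, neg_sub]
  rw [e, Valuation.map_neg]
  exact hn

end Tame

end Fermat.Agent.GF.KCover.ASFormDeep
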