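/-
GATE-F (S44) / GF-ASFORM-LC (helper40): **the constant of the Artin–Schreier normal form is the
`p`-th power of a `K'`-rational constant when `lc_q g = 1`** — by pure leading-coefficient algebra
on the `U`-iteration (no regularity at the cusp, no `q`-expansion principle).

* `leadingCoeff_normL` : `lc (N_ℓ u) = lc (u) ^ ℓ` for `ℓ` odd (from `qExpand_normL_eq_prod`);
* `lcHom_uNormF` : `lc_q (U_q x) = lc_q (x) ^ q`; `lcU`, `lcU_TT`, `lcU_fixed`, `lcHom_fixed`;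
* `exists_rat_factor_lc` : `lc_q g = 1` ⟹ `U² g = b * g * c ^ p` with `b ∈ (K'^×)^p`;
* `exists_rat_deep_one_lc` : `g = α ^ p * z * d ^ p`, `α` a rational constant, `z - 1 ∈ e • Rw₁`
  (helper86's `rat_deep_of_gain` run with the subgroup of `p`-th powers of rational constants);
* **`const_isPthPower_of_lc`** : ANY normal form `g = A' (1 + ϖ ^ p y)`, `y ∈ Rw₁`, has
  `A' = α ^ p`, `α` `H`-fixed;
* **`exists_asForm_modular_deep_lc`** : `ASFormDeep.exists_asForm_modular_deep` + `A' = α ^ p`;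
* **`exists_deepRep_of_lc`**, **`exists_deepRep_tame`** : `g = d_i ^ p * z_i`, `d_i z_i` rational,
  `w_i (z_i - 1) ≤ w_i (p) ^ 3` for `i = 1, 2` — NO constant (shape of helper3's
  `WDataOf.exists_root`).
-/
import Fermat.Agent.GF.KCover.ASFormDeep
import Fermat.Agent.GJ.Kum.ZetaProd
import Fermat.Agent.S28.CuspExpansion
import Fermat.Agent.GF.F2Asm.TameSigma
import Fermat.Agent.GK.UQ.NormSeries

set_option autoImplicit false
set_option linter.unusedSectionVars false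

noncomputable section

namespace Fermat.Agent.GF.KCover.ASFormLc

open AlgebraicCurve ModularCurve IsLocalRing HahnSeries Finset
open Fermat.Agent.S24 Fermat.Agent.RRh45 Fermat.Agent.S24_helper62
open Fermat.Agent.GJ.J1 Fermat.Agent.GJ.J1.Val
open Fermat.Agent.GJ.Kum.KumType Fermat.Agent.GJ.KumGroup
open Fermat.Agent.GK.AL Fermat.Agent.GK.UQ Fermat.Agent.GK.UTr Fermat.Agent.GK.UqKronecker
open Fermat.Agent.GF.NormDepth.Inst Fermat.Agent.GF.NormDepth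
open Fermat.Agent.GF.KCover.ASForm Fermat.Agent.GF.KCover.ASFormMod
open Fermat.Agent.GF.KCover.ASFormRoot Fermat.Agent.GF.KCover.ASFormDeep
open Fermat.Agent.GF.KumDesc Fermat.Agent.GF.F2Asm.Inst Fermat.Agent.GF.F2Asm.TameSigma
open Fermat.Agent.S28 (scaleHom scaleHom_coeff)
open Fermat.Agent.S28.CuspExp (order_scaleHom order_qExpand)
open Fermat.Agent.GK.MultiVal Fermat.Agent.GK.BallTwo Fermat.Agent.GK.NodalGraded
open Fermat.Agent.GS.Nodal.LSR2 Fermat.Agent.GS.Nodal.L5 Fermat.Agent.GS.Nodal.Inst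
open Fermat.Agent.GF.Peu Fermat.Agent.GK.SS

attribute [local instance] finiteResidues_FN hasPrincipalDivisors_FN nonempty_place_FN
  isAlgClosed_res finiteResidues_Fres hasPrincipalDivisors_Fres nonempty_place_Fres

local notation "GQ" => (AlgebraicClosure ℚ ≃ₐ[ℚ] AlgebraicClosure ℚ)
local notation "Qb" => AlgebraicClosure ℚ

/-! ### Laurent series: the leading coefficient of the norm series -/

section Series

variable {K : Type*} [Field K]

theorem leadingCoeff_scaleHom (c : Kˣ) (u : LaurentSeries K) :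
    (scaleHom K c u).leadingCoeff = ((c ^ u.order : Kˣ) : K) * u.leadingCoeff := by
  rw [leadingCoeff_eq, leadingCoeff_eq, order_scaleHom, scaleHom_coeff]

theorem leadingCoeff_qExpand (ℓ : ℕ) [NeZero ℓ] (x : LaurentSeries K) :
    (qExpand K ℓ x).leadingCoeff = x.leadingCoeff := by
  rw [leadingCoeff_eq, leadingCoeff_eq, order_qExpand, qExpand_coeff_mul]

/-- the leading coefficient as a monoid-with-zero homomorphism -/
def lcL (K : Type*) [Field K] : LaurentSeries K →*₀ K where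
  toFun f := f.leadingCoeff
  map_zero' := HahnSeries.leadingCoeff_zero
  map_one' := HahnSeries.leadingCoeff_one
  map_mul' f g := HahnSeries.leadingCoeff_mul f g

theorem lcL_apply (f : LaurentSeries K) : lcL K f = f.leadingCoeff := rfl

/-- **the leading coefficient of the norm series**, `ℓ` odd -/
theorem leadingCoeff_normL {ℓ : ℕ} [NeZero ℓ] (hodd : Odd ℓ) {z : K} (hz : IsPrimitiveRoot z ℓ)
    (u : LaurentSeries K) : (Fermat.Agent.GJ.Kum.normL ℓ u).leadingCoeff = u.leadingCoeff ^ ℓ := by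
  have h1 := Fermat.Agent.GJ.Kum.qExpand_normL_eq_prod_field ℓ hz u
  have h2 := congrArg (lcL K) h1
  rw [lcL_apply, leadingCoeff_qExpand, map_prod] at h2
  rw [h2]
  set ζ : Kˣ := Units.mk0 z (hz.ne_zero (NeZero.ne ℓ)) with hζ
  have hζℓ : ζ ^ ℓ = 1 := by
    apply Units.ext
    rw [Units.val_pow_eq_pow_val, Units.val_one, hζ, Units.val_mk0, hz.pow_eq_one]
  have h3 : ∀ b ∈ range ℓ, lcL K (scaleHom K (ζ ^ b) u) =
      (((ζ ^ b) ^ u.order : Kˣ) : K) * u.leadingCoeff := fun b _ => by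
    rw [lcL_apply, leadingCoeff_scaleHom]
  rw [Finset.prod_congr rfl h3, Finset.prod_mul_distrib, Finset.prod_const, Finset.card_range]
  have h4 : ∏ b ∈ range ℓ, (((ζ ^ b) ^ u.order : Kˣ) : K) = 1 := by
    rw [← Units.coe_prod, Finset.prod_zpow, Finset.prod_pow_eq_pow_sum]
    obtain ⟨k, hk⟩ := hodd
    have h5 : ∑ i ∈ range ℓ, i = ℓ * k := by
      have h6 := Finset.sum_range_id_mul_two ℓ
      have h7 : ℓ - 1 = 2 * k := by omega
      rw [h7] at h6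
      have : (∑ i ∈ range ℓ, i) * 2 = (ℓ * k) * 2 := by rw [h6]; ring
      exact Nat.eq_of_mul_eq_mul_right (by norm_num) this
    rw [h5, pow_mul, hζℓ, one_pow, one_zpow, Units.val_one]
  rw [h4, one_mul]

end Series

/-! ### the leading `q`-coefficient and `U_q` -/

section LcU

variable {N q : ℕ} [NeZero N] [Fact q.Prime]

/-- **`lc_q (U_q x) = lc_q (x) ^ q`** for an odd prime `q ∣ N` -/
theorem lcHom_uNormF (hq2 : q ≠ 2) (hqN : q ∣ N) (x : FK N) :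
    Laurent.lcHom (qEmb N) (uNormF N q x) = Laurent.lcHom (qEmb N) x ^ q := by
  have hq : q.Prime := Fact.out
  rw [Laurent.lcHom_apply, Laurent.lcHom_apply, qEmb_apply, qEmb_apply, coe_uNormF hqN,
    leadingCoeff_normL (hq.odd_of_ne_two hq2)
      (IsPrimitiveRoot.coe_units_iff.mpr (zetaBar_isPrimitiveRoot q))]

/-- the leading `q`-coefficient on units -/
def lcU (N : ℕ) [NeZero N] : (FK N)ˣ →* Qbˣ := Units.map (Laurent.lcHom (qEmb N) : FK N →* Qb)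

@[simp] theorem coe_lcU (u : (FK N)ˣ) :
    ((lcU N u : Qbˣ) : Qb) = Laurent.lcHom (qEmb N) (u : FK N) := rfl

theorem lcU_constUnit (c : Qbˣ) : lcU N (constUnit N c) = c := by
  apply Units.ext
  rw [coe_lcU, coe_constUnit, Laurent.lcHom_algebraMap]

theorem lcU_uNormUnits (hq2 : q ≠ 2) (hqN : q ∣ N) (u : (FK N)ˣ) :
    lcU N (uNormUnits hqN u) = lcU N u ^ q := by
  apply Units.ext
  rw [coe_lcU, coe_uNormUnits, lcHom_uNormF hq2 hqN, Units.val_pow_eq_pow_val, coe_lcU]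

/-- the leading coefficient of an `H`-rational unit is `H`-fixed -/
theorem lcU_fixed {H : Set GQ} {u : (FK N)ˣ} (hu : u ∈ ratUnits N H) :
    ∀ σ ∈ H, σ ((lcU N u : Qbˣ) : Qb) = lcU N u := fun σ hσ => by
  rw [coe_lcU, ← lcHom_smul]
  have h1 : arithmeticGalois (modularFunctionFieldFull N) σ • ((u : (FK N)ˣ) : FK N) =
      ((galUnits N σ u : (FK N)ˣ) : FK N) := rfl
  rw [h1, hu σ hσ]

end LcU

/-! ### the `U`-iteration with `p`-th power constants -/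

section Iter

variable {N' p : ℕ} [NeZero N'] [Fact p.Prime] (h : ExactDvd p (N' * p))
  {A : ValuationSubring Qb} (H : Set GQ)

/-- the `p`-th powers of the rational constants -/
def ratConstsPow (N : ℕ) [NeZero N] (H : Set GQ) (p : ℕ) : Subgroup (FK N)ˣ :=
  (ratConsts N H).map (powMonoidHom p)

theorem mem_ratConstsPow {N : ℕ} [NeZero N] {H : Set GQ} {p : ℕ} {u : (FK N)ˣ} :
    u ∈ ratConstsPow N H p ↔ ∃ a ∈ ratConsts N H, a ^ p = u := by
  unfold ratConstsPow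
  rw [Subgroup.mem_map]
  rfl

theorem lcU_TT (hp2 : p ≠ 2) (u : (FK (N' * p))ˣ) :
    lcU (N' * p) (TT (N' := N') (p := p) u) = (lcU (N' * p) u ^ p) ^ p := by
  unfold TT
  rw [MonoidHom.comp_apply, lcU_uNormUnits hp2, lcU_uNormUnits hp2]

theorem TT_mem_ratConstsPow {a : (FK (N' * p))ˣ} (ha : a ∈ ratConstsPow (N' * p) H p) :
    TT (N' := N') (p := p) a ∈ ratConstsPow (N' * p) H p := by
  obtain ⟨x, hx, rfl⟩ := mem_ratConstsPow.1 ha
  exact mem_ratConstsPow.2 ⟨TT (N' := N') (p := p) x, TT_mem_ratConsts H hx, (map_pow _ _ _).symm⟩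

/-- **`U² g = b * g * c ^ p` with `b` the `p`-th power of a rational constant**, when
`lc_q g = 1`. -/
theorem exists_rat_factor_lc (hp2 : p ≠ 2) (g : pDivUnits Qb (FK (N' * p)) p)
    (hg : (g : (FK (N' * p))ˣ) ∈ ratUnits (N' * p) H)
    (h1 : aLow N' p p (Additive.ofMul (Kum.mk g)) = 0)
    (h2 : bLow h p (Additive.ofMul (Kum.mk g)) = 0)
    (hlc : Laurent.lcHom (qEmb (N' * p)) (((g : (FK (N' * p))ˣ) : FK (N' * p))) = 1) :
    ∃ b ∈ ratConstsPow (N' * p) H p, ∃ c ∈ ratUnits (N' * p) H,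
      TT (N' := N') (p := p) (g : (FK (N' * p))ˣ) = b * (g : (FK (N' * p))ˣ) * c ^ p := by
  obtain ⟨b, hb, c, hc, hT⟩ := exists_rat_factor h H g hg h1 h2
  refine ⟨b, ?_, c, hc, hT⟩
  have hlcg : lcU (N' * p) (g : (FK (N' * p))ˣ) = 1 := Units.ext (by rw [coe_lcU, hlc]; rfl)
  have h3 := congrArg (lcU (N' * p)) hT
  rw [lcU_TT hp2, hlcg, map_mul, map_mul, map_pow, hlcg, one_pow, one_pow, mul_one] at h3
  obtain ⟨β, hβ, rfl⟩ := hb
  rw [lcU_constUnit] at h3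
  have hβeq : β = ((lcU (N' * p) c)⁻¹) ^ p := by
    rw [inv_pow]
    exact eq_inv_of_mul_eq_one_left h3.symm
  refine mem_ratConstsPow.2 ⟨constUnit (N' * p) (lcU (N' * p) c)⁻¹, ⟨_, fun σ hσ => ?_, rfl⟩, ?_⟩
  · rw [Units.val_inv_eq_inv_val, map_inv₀, lcU_fixed hc σ hσ]
  · rw [← map_pow, ← hβeq]

variable {H}

/-- **the `K'`-rational `U`-iteration with a `p`-th power constant**: if `lc_q g = 1` then
`g = α ^ p * z * d ^ p` with `α` a rational constant, `z d` rational, `z - 1 ∈ e • Rw₁`. -/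
theorem exists_rat_deep_one_lc (hA : A.LiesOverPrime p) (hp2 : p ≠ 2)
    (g : pDivUnits Qb (FK (N' * p)) p) (hg : (g : (FK (N' * p))ˣ) ∈ ratUnits (N' * p) H)
    (h1 : aLow N' p p (Additive.ofMul (Kum.mk g)) = 0)
    (h2 : bLow h p (Additive.ofMul (Kum.mk g)) = 0)
    (hlc : Laurent.lcHom (qEmb (N' * p)) (((g : (FK (N' * p))ˣ) : FK (N' * p))) = 1)
    {a₀ : (FK (N' * p))ˣ} (ha₀ : a₀ ∈ ratConsts (N' * p) H)
    (h0 : (redDataBar (N' * p) A).Rw.valuation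
      (((a₀⁻¹ * (g : (FK (N' * p))ˣ) : (FK (N' * p))ˣ) : FK (N' * p)) - 1) < 1)
    (e : Qb) (he : e ≠ 0) :
    ∃ α ∈ ratConsts (N' * p) H, ∃ z ∈ ratUnits (N' * p) H, ∃ d ∈ ratUnits (N' * p) H,
      (g : (FK (N' * p))ˣ) = α ^ p * z * d ^ p ∧
      ∃ r ∈ (redDataBar (N' * p) A).Rw, (z : FK (N' * p)) - 1 = algebraMap Qb (FK (N' * p)) e * r := by
  have hp : p.Prime := Fact.out
  have hpA : (redDataBar (N' * p) A).A.valuation ((p : ℕ) : Kbar) < 1 :=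
    A.mem_nonunits_iff.1 hA
  have hp0 : ((p : ℕ) : Kbar) ≠ 0 := by exact_mod_cast hp.ne_zero
  have hp1 : (redDataBar (N' * p) A).Rw.valuation ((p : ℕ) : FN (N' * p)) ≤ 1 := by
    have := (val_algebraMap_le_iff (redDataBar (N' * p) A) (a := ((p : ℕ) : Kbar)) (b := 1)
      one_ne_zero).mpr (by rw [map_one]; exact hpA.le)
    rwa [map_one, map_one, map_natCast] at this
  set T := TT (N' := N') (p := p) with hT
  obtain ⟨b, hb, c, hc, hTg⟩ := exists_rat_factor_lc h H hp2 g hg h1 h2 hlc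
  set z₀ : (FK (N' * p))ˣ := a₀⁻¹ * (g : (FK (N' * p))ˣ) with hz₀
  have hz₀F : z₀ ∈ ratUnits (N' * p) H :=
    (ratUnits (N' * p) H).mul_mem
      ((ratUnits (N' * p) H).inv_mem (ratConsts_le_ratUnits (N' * p) H ha₀)) hg
  have hstart : (g : (FK (N' * p))ˣ) = a₀ * z₀ * 1 ^ p := by
    rw [one_pow, mul_one, hz₀, mul_inv_cancel_left]
  -- one manual step
  have hstep := rat_step T p hstart hTg
  have hTa₀ : T a₀ ∈ ratConstsPow (N' * p) H p := by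
    obtain ⟨c₀, hc₀, rfl⟩ := ha₀
    rw [hT, TT_constUnit]
    refine mem_ratConstsPow.2 ⟨constUnit (N' * p) (c₀ ^ p), ⟨c₀ ^ p, fun σ hσ => ?_, rfl⟩,
      (map_pow _ _ _).symm⟩
    rw [Units.val_pow_eq_pow_val, map_pow, hc₀ σ hσ]
  have hgain := gain_TT (udepth A) hp1 z₀ h0
  have hTz₀ : (redDataBar (N' * p) A).Rw.valuation ((T z₀ : FK (N' * p)) - 1) < 1 := by
    refine lt_of_le_of_lt hgain ?_
    calc max ((redDataBar (N' * p) A).Rw.valuation ((p : ℕ) : FN (N' * p)))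
          ((redDataBar (N' * p) A).Rw.valuation ((z₀ : FK (N' * p)) - 1)) *
          (redDataBar (N' * p) A).Rw.valuation ((z₀ : FK (N' * p)) - 1)
        ≤ 1 * (redDataBar (N' * p) A).Rw.valuation ((z₀ : FK (N' * p)) - 1) :=
          mul_le_mul' (max_le hp1 h0.le) le_rfl
      _ = (redDataBar (N' * p) A).Rw.valuation ((z₀ : FK (N' * p)) - 1) := one_mul _
      _ < 1 := h0
  obtain ⟨a, ha, z, hz, d, hd, hgzd, hr⟩ :=
    rat_deep_of_gain (Fermat.Agent.GS.F.unram_redDataBar (N' * p) A)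
      (Fermat.Agent.GH.Inst.harch A hp hA) hpA hp0 T
      (fun z hz => gain_TT (udepth A) hp1 z hz) (ratUnits (N' * p) H)
      (ratConstsPow (N' * p) H p)
      (fun u hu => TT_mem_ratUnits H hu) (fun a ha => TT_mem_ratConstsPow H ha)
      (g : (FK (N' * p))ˣ) ⟨b, hb, c, hc, hTg⟩
      ((ratConstsPow (N' * p) H p).mul_mem ((ratConstsPow (N' * p) H p).inv_mem hb) hTa₀)
      (TT_mem_ratUnits H hz₀F)
      ((ratUnits (N' * p) H).mul_mem (TT_mem_ratUnits H (ratUnits (N' * p) H).one_mem)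
        ((ratUnits (N' * p) H).inv_mem hc))
      hstep hTz₀ e he
  obtain ⟨α, hα, rfl⟩ := mem_ratConstsPow.1 ha
  exact ⟨α, hα, z, hz, d, hd, hgzd, hr⟩

end Iter

/-! ### the constant of the normal form is a `p`-th power when `lc_q g = 1` -/

section Top

variable {N' p : ℕ} [NeZero N'] [Fact p.Prime] (h : ExactDvd p (N' * p))
  {A : ValuationSubring Qb} (hA : A.LiesOverPrime p) (hp2 : p ≠ 2)
  {H : Set GQ} (hHI : H ⊆ ((A.inertiaSubgroupIn ℚ : Subgroup GQ) : Set GQ))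
  {ζ : Qb} (hζ : IsPrimitiveRoot ζ p) (hζH : ∀ σ ∈ H, σ ζ = ζ)

/-- the leading coefficient of an `H`-rational function is `H`-fixed -/
theorem lcHom_fixed {N : ℕ} [NeZero N] {H : Set GQ} {f : FK N} (hf : f ∈ ratField N H) :
    ∀ σ ∈ H, σ (Laurent.lcHom (qEmb N) f) = Laurent.lcHom (qEmb N) f := fun σ hσ => by
  rw [← lcHom_smul]
  have h1 : arithmeticGalois (modularFunctionFieldFull N) σ • f =
      arithmeticRingAut (modularFunctionFieldFull N) σ f := rfl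
  rw [h1, hf σ hσ]

include hA hp2 hHI hζ hζH in
/-- **the constant of ANY normal form `g = A' (1 + ϖ ^ p y)`, `y ∈ Rw₁`, is the `p`-th power of a
`K'`-rational constant when `lc_q g = 1`.** -/
theorem const_isPthPower_of_lc
    (hint₁ : ∀ u : (FK (N' * p))ˣ, u ∈ ratUnits (N' * p) H → ∃ n : ℤ,
      (redDataBar (N' * p) A).Rw.valuation (u : FK (N' * p)) =
        (redDataBar (N' * p) A).Rw.valuation (algebraMap Qb (FK (N' * p)) (ζ - 1)) ^ n)
    (g : pDivUnits Qb (FK (N' * p)) p) (hg : (g : (FK (N' * p))ˣ) ∈ ratUnits (N' * p) H)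
    (h1 : aLow N' p p (Additive.ofMul (Kum.mk g)) = 0)
    (h2 : bLow h p (Additive.ofMul (Kum.mk g)) = 0)
    (hlc : Laurent.lcHom (qEmb (N' * p)) (((g : (FK (N' * p))ˣ) : FK (N' * p))) = 1)
    {a₁ : (FK (N' * p))ˣ} (ha₁ : a₁ ∈ ratConsts (N' * p) H)
    (ha₁U : (redDataBar (N' * p) A).Rw.valuation (a₁ : FK (N' * p)) = 1)
    (h01 : (redDataBar (N' * p) A).Rw.valuation
      (((a₁⁻¹ * (g : (FK (N' * p))ˣ) : (FK (N' * p))ˣ) : FK (N' * p)) - 1) < 1)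
    {A' : Qb} (hA'H : ∀ σ ∈ H, σ A' = A') (hA'U : A.valuation A' = 1)
    {y : FK (N' * p)} (hy : y ∈ (redDataBar (N' * p) A).Rw)
    (hgy : ((g : (FK (N' * p))ˣ) : FK (N' * p)) =
      algebraMap Qb (FK (N' * p)) A' * (1 + algebraMap Qb (FK (N' * p)) ((ζ - 1) ^ p) * y)) :
    ∃ α : Qb, (∀ σ ∈ H, σ α = α) ∧ α ^ p = A' := by
  have hp : p.Prime := Fact.out
  have hpA : ((p : ℕ) : Qb) ∈ A.nonunits := hA
  have hζ1 : ζ - 1 ≠ 0 := sub_ne_zero.2 (hζ.ne_one hp.one_lt)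
  have hπ0 : (ζ - 1) ^ p ≠ 0 := pow_ne_zero _ hζ1
  have hmemA := (redDataBar (N' * p) A).mem_A_iff
  -- a deep representation with a `p`-th power constant
  obtain ⟨α₀, hα₀, z, hz, d, hd, hgzd, r, hr, hzr⟩ :=
    exists_rat_deep_one_lc h hA hp2 g hg h1 h2 hlc ha₁ h01 ((ζ - 1) ^ p) hπ0
  have hα₀p : α₀ ^ p ∈ ratConsts (N' * p) H := (ratConsts (N' * p) H).pow_mem hα₀ p
  -- its normal form
  obtain ⟨A'', hA''H, hA''U, ⟨D, hDF, hD0, hgD⟩, y'', hy''W, -, e''⟩ :=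
    const_form_of_deep_root H (redDataBar (N' * p) A).Rw A hmemA hp hp2
      hpA hHI hζ hζH hint₁ hα₀p hz hd hgzd ⟨r, hr, hzr⟩ ha₁ ha₁U h01
  -- `A'' = (α₀ lc(d) / lc(D)) ^ p`
  obtain ⟨c₀, hc₀, rfl⟩ := hα₀
  set lcd : Qb := Laurent.lcHom (qEmb (N' * p)) ((d : (FK (N' * p))ˣ) : FK (N' * p)) with hlcd
  set lcD : Qb := Laurent.lcHom (qEmb (N' * p)) D with hlcD
  have hlcD0 : lcD ≠ 0 := (map_ne_zero _).2 hD0
  have hlcdH : ∀ σ ∈ H, σ lcd = lcd := lcHom_fixed (coe_mem_ratField _ H hd)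
  have hlcDH : ∀ σ ∈ H, σ lcD = lcD := lcHom_fixed hDF
  have hz0 : ((z : (FK (N' * p))ˣ) : FK (N' * p)) ≠ 0 := z.ne_zero
  have hA''eq : A'' * lcD ^ p = (c₀ : Qb) ^ p * lcd ^ p := by
    have h3 : algebraMap Qb (FK (N' * p)) A'' * D ^ p =
        (algebraMap Qb (FK (N' * p)) (c₀ : Qb)) ^ p * ((d : (FK (N' * p))ˣ) : FK (N' * p)) ^ p := by
      have h4 : ((g : (FK (N' * p))ˣ) : FK (N' * p)) =
          (algebraMap Qb (FK (N' * p)) (c₀ : Qb)) ^ p * (z : FK (N' * p)) *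
            ((d : (FK (N' * p))ˣ) : FK (N' * p)) ^ p := by
        rw [hgzd]
        simp
      rw [hgD] at h4
      have h5 : (z : FK (N' * p)) * (algebraMap Qb (FK (N' * p)) A'' * D ^ p) =
          (z : FK (N' * p)) * ((algebraMap Qb (FK (N' * p)) (c₀ : Qb)) ^ p *
            ((d : (FK (N' * p))ˣ) : FK (N' * p)) ^ p) := by
        calc (z : FK (N' * p)) * (algebraMap Qb (FK (N' * p)) A'' * D ^ p)
            = algebraMap Qb (FK (N' * p)) A'' * (z : FK (N' * p)) * D ^ p := by ring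
          _ = _ := by rw [h4]; ring
      exact mul_left_cancel₀ hz0 h5
    have h6 := congrArg (Laurent.lcHom (qEmb (N' * p))) h3
    rw [map_mul, map_mul, map_pow, map_pow, map_pow, Laurent.lcHom_algebraMap,
      Laurent.lcHom_algebraMap] at h6
    exact h6
  -- `A'` and `A''` are congruent modulo `ϖ ^ p`
  have hA''0 : A'' ≠ 0 := fun h0 => by rw [h0, map_zero] at hA''U; exact zero_ne_one hA''U
  have hA'A : A' ∈ A := (A.valuation_le_one_iff _).1 hA'U.le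
  have hA''A : A'' ∈ A := (A.valuation_le_one_iff _).1 hA''U.le
  have hA''invA : A''⁻¹ ∈ A := by
    rw [← A.valuation_le_one_iff, map_inv₀, hA''U, inv_one]
  have hdiff : (A' - A'') / (ζ - 1) ^ p ∈ A := by
    refine (hmemA _).2 ?_
    have hπF : algebraMap Qb (FK (N' * p)) ((ζ - 1) ^ p) ≠ 0 := (map_ne_zero _).2 hπ0
    have h7 : algebraMap Qb (FK (N' * p)) ((A' - A'') / (ζ - 1) ^ p) =
        algebraMap Qb (FK (N' * p)) A'' * y'' - algebraMap Qb (FK (N' * p)) A' * y := by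
      rw [map_div₀, map_sub, div_eq_iff hπF]
      have h8 := hgy.symm.trans e''
      linear_combination h8
    rw [h7]
    exact sub_mem (mul_mem ((hmemA A'').1 hA''A) hy''W) (mul_mem ((hmemA A').1 hA'A) hy)
  have hu : (A' / A'' - 1) / (ζ - 1) ^ p ∈ A := by
    have h9 : (A' / A'' - 1) / (ζ - 1) ^ p = (A' - A'') / (ζ - 1) ^ p * A''⁻¹ := by
      field_simp
    rw [h9]
    exact mul_mem hdiff hA''invA
  have huH : ∀ σ ∈ H, σ (A' / A'') = A' / A'' := fun σ hσ => by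
    rw [map_div₀, hA'H σ hσ, hA''H σ hσ]
  obtain ⟨β, hβp, -, hβH⟩ := exists_pth_root_const A hp hpA hζ hHI hζH hu huH
  refine ⟨(c₀ : Qb) * lcd / lcD * β, fun σ hσ => ?_, ?_⟩
  · rw [map_mul, map_div₀, map_mul, hc₀ σ hσ, hlcdH σ hσ, hlcDH σ hσ, hβH σ hσ]
  · rw [mul_pow, div_pow, mul_pow, ← hA''eq, hβp]
    field_simp

end Top

/-! ### the constant-free deep representations -/

section Final

variable {N' p : ℕ} [NeZero N'] [Fact p.Prime] (h : ExactDvd p (N' * p))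
  {A : ValuationSubring Qb} (hA : A.LiesOverPrime p) (hp2 : p ≠ 2)
  {H : Set GQ} (hHI : H ⊆ ((A.inertiaSubgroupIn ℚ : Subgroup GQ) : Set GQ))
  {ζ : Qb} (hζ : IsPrimitiveRoot ζ p) (hζH : ∀ σ ∈ H, σ ζ = ζ)

set_option maxHeartbeats 1600000 in
include hA hp2 hHI hζ hζH in
/-- **`exists_asForm_modular_deep` with the constant a `p`-th power**, when `lc_q g = 1`. -/
theorem exists_asForm_modular_deep_lc
    (hint₁ : ∀ u : (FK (N' * p))ˣ, u ∈ ratUnits (N' * p) H → ∃ n : ℤ,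
      (redDataBar (N' * p) A).Rw.valuation (u : FK (N' * p)) =
        (redDataBar (N' * p) A).Rw.valuation (algebraMap Qb (FK (N' * p)) (ζ - 1)) ^ n)
    (hint₂ : ∀ u : (FK (N' * p))ˣ, u ∈ ratUnits (N' * p) H → ∃ n : ℤ,
      (redData2 (N' * p) A h).Rw.valuation (u : FK (N' * p)) =
        (redData2 (N' * p) A h).Rw.valuation (algebraMap Qb (FK (N' * p)) (ζ - 1)) ^ n)
    {ι : Type*} [Finite ι] [Nonempty ι]
    {P Q : ι → Place (ResidueField A) (FresBar (N' * p) A)}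
    {C : Divisor Qb (FN (N' * p))} {C₁ C₂ : Divisor (ResidueField A) (FresBar (N' * p) A)}
    {g₀ c₀ : ℤ} {n₀ : ℕ}
    (Hn : NodalHyp (redCompatFN (N' * p) A h) P Q C C₁ C₂ g₀ c₀ n₀)
    {Z : Divisor Qb (FN (N' * p))} (hZ : 0 ≤ Z) (hgood : ∀ v ∈ Z.support, GoodPlace Hn v)
    (g : pDivUnits Qb (FK (N' * p)) p) (hg : (g : (FK (N' * p))ˣ) ∈ ratUnits (N' * p) H)
    (h1 : aLow N' p p (Additive.ofMul (Kum.mk g)) = 0)
    (h2 : bLow h p (Additive.ofMul (Kum.mk g)) = 0)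
    (hlc : Laurent.lcHom (qEmb (N' * p)) (((g : (FK (N' * p))ˣ) : FK (N' * p))) = 1)
    (hgZ : (((g : (FK (N' * p))ˣ) : FK (N' * p)) : FN (N' * p)) ∈ riemannRochSpace Z)
    {a₁ a₂ : (FK (N' * p))ˣ} (ha₁ : a₁ ∈ ratConsts (N' * p) H) (ha₂ : a₂ ∈ ratConsts (N' * p) H)
    (ha₁U : (redDataBar (N' * p) A).Rw.valuation (a₁ : FK (N' * p)) = 1)
    (ha₂U : (redData2 (N' * p) A h).Rw.valuation (a₂ : FK (N' * p)) = 1)
    (h01 : (redDataBar (N' * p) A).Rw.valuation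
      (((a₁⁻¹ * (g : (FK (N' * p))ˣ) : (FK (N' * p))ˣ) : FK (N' * p)) - 1) < 1)
    (h02 : (redData2 (N' * p) A h).Rw.valuation
      (((a₂⁻¹ * (g : (FK (N' * p))ˣ) : (FK (N' * p))ˣ) : FK (N' * p)) - 1) < 1)
    (e : Qb) (heA : e ∈ A) (he0 : e ≠ 0) :
    ∃ A' : Qb, (∀ σ ∈ H, σ A' = A') ∧ A.valuation A' = 1 ∧
      (∃ α : Qb, (∀ σ ∈ H, σ α = α) ∧ α ^ p = A') ∧
      (∃ z₁ d₁ : FK (N' * p), z₁ ∈ ratField (N' * p) H ∧ d₁ ∈ ratField (N' * p) H ∧ d₁ ≠ 0 ∧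
        ((g : (FK (N' * p))ˣ) : FK (N' * p)) = algebraMap Qb (FK (N' * p)) A' * z₁ * d₁ ^ p ∧
        ∃ r ∈ (redDataBar (N' * p) A).Rw,
          z₁ - 1 = algebraMap Qb (FK (N' * p)) ((ζ - 1) ^ p * e) * r) ∧
      (∃ z₂ d₂ : FK (N' * p), z₂ ∈ ratField (N' * p) H ∧ d₂ ∈ ratField (N' * p) H ∧ d₂ ≠ 0 ∧
        ((g : (FK (N' * p))ˣ) : FK (N' * p)) = algebraMap Qb (FK (N' * p)) A' * z₂ * d₂ ^ p ∧
        ∃ r ∈ (redData2 (N' * p) A h).Rw,
          z₂ - 1 = algebraMap Qb (FK (N' * p)) ((ζ - 1) ^ p * e) * r) ∧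
      ∃ (g1 : FK (N' * p)) (hg1 : g1 ∈ (redDataBar (N' * p) A).Rw)
        (hg2 : g1 ∈ (redData2 (N' * p) A h).Rw),
        g1 ∈ ratField (N' * p) H ∧
        ((g : (FK (N' * p))ˣ) : FK (N' * p)) =
          algebraMap Qb (FK (N' * p)) A' * (1 + algebraMap Qb (FK (N' * p)) ((ζ - 1) ^ p) * g1) ∧
        (g1 : FN (N' * p)) ∈ riemannRochSpace Z ∧
        ∀ j : ι, ∃ c : ResidueField A,
          ValueAt (P j) ((redDataBar (N' * p) A).red ⟨g1, hg1⟩) c ∧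
          ValueAt (Q j) ((redData2 (N' * p) A h).red ⟨g1, hg2⟩) c := by
  obtain ⟨A', hA'H, hA'U, hrep₁, hrep₂, g1, hg1, hg2, hg1F, hgg1, hg1Z, hval⟩ :=
    exists_asForm_modular_deep h hA hp2 hHI hζ hζH hint₁ hint₂ Hn hZ hgood g hg h1 h2 hgZ ha₁ ha₂
      ha₁U ha₂U h01 h02 e heA he0
  exact ⟨A', hA'H, hA'U,
    const_isPthPower_of_lc h hA hp2 hHI hζ hζH hint₁ g hg h1 h2 hlc ha₁ ha₁U h01 hA'H hA'U hg1 hgg1,
    hrep₁, hrep₂, g1, hg1, hg2, hg1F, hgg1, hg1Z, hval⟩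

set_option maxHeartbeats 1600000 in
include hA hp2 hHI hζ hζH in
/-- **the constant-free deep representations** (`Pack.exists_root` shape): for `lc_q g = 1`,
`g = d_i ^ p * z_i` with `d_i z_i` `K'`-rational and `w_i (z_i - 1) ≤ w_i (p) ^ 3`, `i = 1, 2`. -/
theorem exists_deepRep_of_lc
    (hint₁ : ∀ u : (FK (N' * p))ˣ, u ∈ ratUnits (N' * p) H → ∃ n : ℤ,
      (redDataBar (N' * p) A).Rw.valuation (u : FK (N' * p)) =
        (redDataBar (N' * p) A).Rw.valuation (algebraMap Qb (FK (N' * p)) (ζ - 1)) ^ n)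
    (hint₂ : ∀ u : (FK (N' * p))ˣ, u ∈ ratUnits (N' * p) H → ∃ n : ℤ,
      (redData2 (N' * p) A h).Rw.valuation (u : FK (N' * p)) =
        (redData2 (N' * p) A h).Rw.valuation (algebraMap Qb (FK (N' * p)) (ζ - 1)) ^ n)
    {ι : Type*} [Finite ι] [Nonempty ι]
    {P Q : ι → Place (ResidueField A) (FresBar (N' * p) A)}
    {C : Divisor Qb (FN (N' * p))} {C₁ C₂ : Divisor (ResidueField A) (FresBar (N' * p) A)}
    {g₀ c₀ : ℤ} {n₀ : ℕ}
    (Hn : NodalHyp (redCompatFN (N' * p) A h) P Q C C₁ C₂ g₀ c₀ n₀)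
    {Z : Divisor Qb (FN (N' * p))} (hZ : 0 ≤ Z) (hgood : ∀ v ∈ Z.support, GoodPlace Hn v)
    (g : pDivUnits Qb (FK (N' * p)) p) (hg : (g : (FK (N' * p))ˣ) ∈ ratUnits (N' * p) H)
    (h1 : aLow N' p p (Additive.ofMul (Kum.mk g)) = 0)
    (h2 : bLow h p (Additive.ofMul (Kum.mk g)) = 0)
    (hlc : Laurent.lcHom (qEmb (N' * p)) (((g : (FK (N' * p))ˣ) : FK (N' * p))) = 1)
    (hgZ : (((g : (FK (N' * p))ˣ) : FK (N' * p)) : FN (N' * p)) ∈ riemannRochSpace Z)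
    {a₁ a₂ : (FK (N' * p))ˣ} (ha₁ : a₁ ∈ ratConsts (N' * p) H) (ha₂ : a₂ ∈ ratConsts (N' * p) H)
    (ha₁U : (redDataBar (N' * p) A).Rw.valuation (a₁ : FK (N' * p)) = 1)
    (ha₂U : (redData2 (N' * p) A h).Rw.valuation (a₂ : FK (N' * p)) = 1)
    (h01 : (redDataBar (N' * p) A).Rw.valuation
      (((a₁⁻¹ * (g : (FK (N' * p))ˣ) : (FK (N' * p))ˣ) : FK (N' * p)) - 1) < 1)
    (h02 : (redData2 (N' * p) A h).Rw.valuation
      (((a₂⁻¹ * (g : (FK (N' * p))ˣ) : (FK (N' * p))ˣ) : FK (N' * p)) - 1) < 1) :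
    (∃ d z : FK (N' * p), d ∈ ratField (N' * p) H ∧ z ∈ ratField (N' * p) H ∧
      ((g : (FK (N' * p))ˣ) : FK (N' * p)) = d ^ p * z ∧
      (redDataBar (N' * p) A).Rw.valuation (z - 1) ≤
        (redDataBar (N' * p) A).Rw.valuation (algebraMap Qb (FK (N' * p)) (p : Qb)) ^ 3) ∧
    (∃ d z : FK (N' * p), d ∈ ratField (N' * p) H ∧ z ∈ ratField (N' * p) H ∧
      ((g : (FK (N' * p))ˣ) : FK (N' * p)) = d ^ p * z ∧
      (redData2 (N' * p) A h).Rw.valuation (z - 1) ≤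
        (redData2 (N' * p) A h).Rw.valuation (algebraMap Qb (FK (N' * p)) (p : Qb)) ^ 3) := by
  have hp : p.Prime := Fact.out
  have hζ1 : ζ - 1 ≠ 0 := sub_ne_zero.2 (hζ.ne_one hp.one_lt)
  have hζA : ζ ∈ A := zeta_mem A hζ.pow_eq_one hp.ne_zero
  have hϖA : ζ - 1 ∈ A := sub_mem hζA A.one_mem
  obtain ⟨k, hk⟩ : ∃ k, p = k + 2 := ⟨p - 2, by have := hp.two_le; omega⟩
  have hq : ((p : ℕ) : Qb) / (ζ - 1) ^ (k + 1) ∈ A := by
    have := natCast_div_pow_mem A hp hζ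
    rwa [show p - 1 = k + 1 by omega] at this
  have hp0 : ((p : ℕ) : Qb) ≠ 0 := by exact_mod_cast hp.ne_zero
  set e : Qb := (((p : ℕ) : Qb) / (ζ - 1) ^ (k + 1)) ^ 3 * (ζ - 1) ^ (2 * k + 1) with he
  have heA : e ∈ A := mul_mem (pow_mem hq 3) (pow_mem hϖA _)
  have he0 : e ≠ 0 :=
    mul_ne_zero (pow_ne_zero _ (div_ne_zero hp0 (pow_ne_zero _ hζ1))) (pow_ne_zero _ hζ1)
  have hπe : (ζ - 1) ^ p * e = ((p : ℕ) : Qb) ^ 3 := by
    rw [he, hk]
    field_simp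
    ring
  obtain ⟨A', -, -, ⟨α, hαH, hαp⟩, ⟨z₁, d₁, hz₁, hd₁, -, hg₁, r₁, hr₁, hzr₁⟩,
      ⟨z₂, d₂, hz₂, hd₂, -, hg₂, r₂, hr₂, hzr₂⟩, -⟩ :=
    exists_asForm_modular_deep_lc h hA hp2 hHI hζ hζH hint₁ hint₂ Hn hZ hgood g hg h1 h2 hlc hgZ
      ha₁ ha₂ ha₁U ha₂U h01 h02 e heA he0
  have hαF : algebraMap Qb (FK (N' * p)) α ∈ ratField (N' * p) H :=
    ratConstField_le (N' * p) H ⟨α, hαH, rfl⟩
  have hAα : algebraMap Qb (FK (N' * p)) A' = (algebraMap Qb (FK (N' * p)) α) ^ p := by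
    rw [← map_pow, hαp]
  refine ⟨⟨algebraMap Qb (FK (N' * p)) α * d₁, z₁, (ratField (N' * p) H).mul_mem hαF hd₁, hz₁, ?_, ?_⟩,
    ⟨algebraMap Qb (FK (N' * p)) α * d₂, z₂, (ratField (N' * p) H).mul_mem hαF hd₂, hz₂, ?_, ?_⟩⟩
  · rw [hg₁, hAα]; ring
  · rw [hzr₁, hπe, map_mul, map_pow, map_pow]
    exact mul_le_of_le_one_right' (((redDataBar (N' * p) A).Rw.valuation_le_one_iff _).2 hr₁)
  · rw [hg₂, hAα]; ring
  · rw [hzr₂, hπe, map_mul, map_pow, map_pow]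
    exact mul_le_of_le_one_right' (((redData2 (N' * p) A h).Rw.valuation_le_one_iff _).2 hr₂)

end Final

/-! ### the binder-free form for `H = I'` -/

section Tame

variable {N' p : ℕ} [NeZero N'] [Fact p.Prime] (h : ExactDvd p (N' * p))
  {A : ValuationSubring Qb} (hA : A.LiesOverPrime p) (hp2 : p ≠ 2)
  {ζ : Qb} (hζ : IsPrimitiveRoot ζ p)

set_option maxHeartbeats 1600000 in
include hA hp2 hζ in
/-- **the constant-free deep representations over `K' = ℚ̄^{I'}`**, in the shape of helper3's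
`WDataOf.exists_root` (`d z ∈ F₁ N A ζ` spelled out). -/
theorem exists_deepRep_tame
    {ι : Type*} [Finite ι] [Nonempty ι]
    {P Q : ι → Place (ResidueField A) (FresBar (N' * p) A)}
    {C : Divisor Qb (FN (N' * p))} {C₁ C₂ : Divisor (ResidueField A) (FresBar (N' * p) A)}
    {g₀ c₀ : ℤ} {n₀ : ℕ}
    (Hn : NodalHyp (redCompatFN (N' * p) A h) P Q C C₁ C₂ g₀ c₀ n₀)
    {Z : Divisor Qb (FN (N' * p))} (hZ : 0 ≤ Z) (hgood : ∀ v ∈ Z.support, GoodPlace Hn v)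
    (g : pDivUnits Qb (FK (N' * p)) p)
    (hg : (g : (FK (N' * p))ˣ) ∈ ratUnits (N' * p) (tameSet A ζ))
    (h1 : aLow N' p p (Additive.ofMul (Kum.mk g)) = 0)
    (h2 : bLow h p (Additive.ofMul (Kum.mk g)) = 0)
    (hlc : Laurent.lcHom (qEmb (N' * p)) (((g : (FK (N' * p))ˣ) : FK (N' * p))) = 1)
    (hgZ : (((g : (FK (N' * p))ˣ) : FK (N' * p)) : FN (N' * p)) ∈ riemannRochSpace Z)
    {a₁ a₂ : (FK (N' * p))ˣ} (ha₁ : a₁ ∈ ratConsts (N' * p) (tameSet A ζ))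
    (ha₂ : a₂ ∈ ratConsts (N' * p) (tameSet A ζ))
    (ha₁U : (redDataBar (N' * p) A).Rw.valuation (a₁ : FK (N' * p)) = 1)
    (ha₂U : (redData2 (N' * p) A h).Rw.valuation (a₂ : FK (N' * p)) = 1)
    (h01 : (redDataBar (N' * p) A).Rw.valuation
      (((a₁⁻¹ * (g : (FK (N' * p))ˣ) : (FK (N' * p))ˣ) : FK (N' * p)) - 1) < 1)
    (h02 : (redData2 (N' * p) A h).Rw.valuation
      (((a₂⁻¹ * (g : (FK (N' * p))ˣ) : (FK (N' * p))ˣ) : FK (N' * p)) - 1) < 1) :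
    (∃ d z : FK (N' * p),
      (∀ ρ : GQ, IsTameFix A ζ ρ → arithmeticRingAut (modularFunctionFieldFull (N' * p)) ρ d = d) ∧
      (∀ ρ : GQ, IsTameFix A ζ ρ → arithmeticRingAut (modularFunctionFieldFull (N' * p)) ρ z = z) ∧
      ((g : (FK (N' * p))ˣ) : FK (N' * p)) = d ^ p * z ∧
      (redDataBar (N' * p) A).Rw.valuation (z - 1) ≤
        (redDataBar (N' * p) A).Rw.valuation (algebraMap Qb (FK (N' * p)) (p : Qb)) ^ 3) ∧
    (∃ d z : FK (N' * p),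
      (∀ ρ : GQ, IsTameFix A ζ ρ → arithmeticRingAut (modularFunctionFieldFull (N' * p)) ρ d = d) ∧
      (∀ ρ : GQ, IsTameFix A ζ ρ → arithmeticRingAut (modularFunctionFieldFull (N' * p)) ρ z = z) ∧
      ((g : (FK (N' * p))ˣ) : FK (N' * p)) = d ^ p * z ∧
      (redData2 (N' * p) A h).Rw.valuation (z - 1) ≤
        (redData2 (N' * p) A h).Rw.valuation (algebraMap Qb (FK (N' * p)) (p : Qb)) ^ 3) := by
  obtain ⟨⟨d₁, z₁, hd₁, hz₁, hg₁, hv₁⟩, ⟨d₂, z₂, hd₂, hz₂, hg₂, hv₂⟩⟩ :=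
    exists_deepRep_of_lc h hA hp2 tameSet_subset hζ tameSet_fix (hint₁_tame hA hζ)
      (hint₂_tame h hA hζ) Hn hZ hgood g hg h1 h2 hlc hgZ ha₁ ha₂ ha₁U ha₂U h01 h02
  exact ⟨⟨d₁, z₁, fun ρ hρ => hd₁ ρ hρ, fun ρ hρ => hz₁ ρ hρ, hg₁, hv₁⟩,
    ⟨d₂, z₂, fun ρ hρ => hd₂ ρ hρ, fun ρ hρ => hz₂ ρ hρ, hg₂, hv₂⟩⟩

end Tame

end Fermat.Agent.GF.KCover.ASFormLc
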