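/-
GATE-F (S44) / GF-ASFORM-NRM (helper40): **the normalised chart representative `g / lc_q g`**: the
constant of the Artin–Schreier normal form of ANY rational `g` (unit with constant reductions,
class in `Knew`) is `lc_q g` times the `p`-th power of a `K'`-rational constant — so the
normalised function `nrm g = g / lc_q g` (helper31 `TameSigma.nrm`, `T.g₀` of
`TameOfRep.exists_tameDatum_of_rep`) has the normal form and the deep representations with NO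
constant left.  (`lc_q g` need NOT be a unit of `A`: no regularity at the cusp is used.)

* `nrmU g` : `g / lc_q g` as a `p`-divisible unit; `mk_nrmU` (same Kummer class), `lc_nrmU`,
  `coe_coe_nrmU` (`= TameSigma.nrm N g`), `nrmU_mem_ratUnits`;
* `exists_rat_deep_one_nrm` : `g = (lc_q g · α ^ p) z d ^ p`, `z - 1 ∈ e • Rw₁`;
* **`const_eq_lc_mul_pow`** : ANY normal form `g = A' (1 + ϖ ^ p y)`, `y ∈ Rw₁`, has
  `A' = lc_q g · α ^ p`, `α` `H`-fixed;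
* **`exists_asForm_nrm_deep`** : `nrm g = α ^ p (1 + ϖ ^ p g1) = α ^ p z_i d_i ^ p` (`i = 1, 2`),
  `g1 ∈ Rw₁ ∩ Rw₂ ∩ F_{K'} ∩ L(Z)` glued at the nodes;
* **`exists_deepRep_nrm`**, **`exists_deepRep_nrm_tame`** : `nrm g = d_i ^ p * z_i`, `d_i z_i`
  rational, `w_i (z_i - 1) ≤ w_i (p) ^ 3` (shape of helper3's `WDataOf.exists_root`).
-/
import Fermat.Agent.GF.KCover.ASFormLc

set_option autoImplicit false
set_option linter.unusedSectionVars false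

noncomputable section

namespace Fermat.Agent.GF.KCover.ASFormNrm

open AlgebraicCurve ModularCurve IsLocalRing HahnSeries Finset
open Fermat.Agent.S24 Fermat.Agent.RRh45 Fermat.Agent.S24_helper62
open Fermat.Agent.GJ.J1 Fermat.Agent.GJ.J1.Val
open Fermat.Agent.GJ.Kum.KumType Fermat.Agent.GJ.KumGroup
open Fermat.Agent.GK.AL Fermat.Agent.GK.UQ Fermat.Agent.GK.UTr Fermat.Agent.GK.UqKronecker
open Fermat.Agent.GF.NormDepth.Inst Fermat.Agent.GF.NormDepth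
open Fermat.Agent.GF.KCover.ASForm Fermat.Agent.GF.KCover.ASFormMod
open Fermat.Agent.GF.KCover.ASFormRoot Fermat.Agent.GF.KCover.ASFormDeep
open Fermat.Agent.GF.KCover.ASFormLc
open Fermat.Agent.GF.KumDesc Fermat.Agent.GF.F2Asm.Inst Fermat.Agent.GF.F2Asm.TameSigma
open Fermat.Agent.GK.MultiVal Fermat.Agent.GK.BallTwo Fermat.Agent.GK.NodalGraded
open Fermat.Agent.GS.Nodal.LSR2 Fermat.Agent.GS.Nodal.L5 Fermat.Agent.GS.Nodal.Inst
open Fermat.Agent.GF.Peu Fermat.Agent.GK.SS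

attribute [local instance] finiteResidues_FN hasPrincipalDivisors_FN nonempty_place_FN
  isAlgClosed_res finiteResidues_Fres hasPrincipalDivisors_Fres nonempty_place_Fres

local notation "GQ" => (AlgebraicClosure ℚ ≃ₐ[ℚ] AlgebraicClosure ℚ)
local notation "Qb" => AlgebraicClosure ℚ

/-! ### the normalised unit `g / lc_q g` -/

section Nrm

variable {N : ℕ} [NeZero N] {p : ℕ}

/-- constants are `p`-divisible units -/
theorem constUnit_mem_pDivUnits (c : Qbˣ) : constUnit N c ∈ pDivUnits Qb (FK N) p := by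
  intro v
  rw [coe_constUnit, Fermat.Agent.S24.PlaceB.ord_algebraMap v c.ne_zero]
  exact dvd_zero _

/-- `g / lc_q g`, as a `p`-divisible unit -/
def nrmU (g : pDivUnits Qb (FK N) p) : pDivUnits Qb (FK N) p :=
  ⟨(constUnit N (lcU N (g : (FK N)ˣ)))⁻¹ * (g : (FK N)ˣ),
    (pDivUnits Qb (FK N) p).mul_mem ((pDivUnits Qb (FK N) p).inv_mem (constUnit_mem_pDivUnits _))
      g.2⟩

theorem coe_nrmU (g : pDivUnits Qb (FK N) p) :
    ((nrmU g : pDivUnits Qb (FK N) p) : (FK N)ˣ) =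
      (constUnit N (lcU N (g : (FK N)ˣ)))⁻¹ * (g : (FK N)ˣ) := rfl

theorem coe_coe_nrmU (g : pDivUnits Qb (FK N) p) :
    (((nrmU g : pDivUnits Qb (FK N) p) : (FK N)ˣ) : FK N) = nrm N (((g : (FK N)ˣ) : FK N)) := by
  rw [coe_nrmU, Units.val_mul, Units.val_inv_eq_inv_val, coe_constUnit, coe_lcU, nrm_apply, mul_comm]

theorem lc_nrmU (g : pDivUnits Qb (FK N) p) :
    Laurent.lcHom (qEmb N) (((nrmU g : pDivUnits Qb (FK N) p) : (FK N)ˣ) : FK N) = 1 := by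
  rw [coe_coe_nrmU, Laurent.lcHom_apply]
  exact lc_nrm (g : (FK N)ˣ).ne_zero

theorem mk_nrmU (hp : p ≠ 0) (g : pDivUnits Qb (FK N) p) : Kum.mk (nrmU g) = Kum.mk g := by
  rw [Kum.mk_eq_mk_iff]
  obtain ⟨μ, hμ⟩ := IsAlgClosed.exists_pow_nat_eq ((lcU N (g : (FK N)ˣ) : Qbˣ) : Qb)
    (Nat.pos_of_ne_zero hp)
  have hμ0 : μ ≠ 0 := fun h0 => by
    rw [h0, zero_pow hp] at hμ
    exact (lcU N (g : (FK N)ˣ)).ne_zero hμ.symm
  refine ⟨constUnit N (Units.mk0 μ hμ0), ?_⟩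
  have h1 : (constUnit N (Units.mk0 μ hμ0)) ^ p = constUnit N (lcU N (g : (FK N)ˣ)) := by
    rw [← map_pow]
    congr 1
    exact Units.ext (by rw [Units.val_pow_eq_pow_val, Units.val_mk0, hμ])
  rw [h1, coe_nrmU, mul_comm _ (g : (FK N)ˣ), mul_assoc, inv_mul_cancel, mul_one]

theorem nrmU_mem_ratUnits {H : Set GQ} {g : pDivUnits Qb (FK N) p}
    (hg : (g : (FK N)ˣ) ∈ ratUnits N H) :
    ((nrmU g : pDivUnits Qb (FK N) p) : (FK N)ˣ) ∈ ratUnits N H := by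
  rw [coe_nrmU]
  exact (ratUnits N H).mul_mem ((ratUnits N H).inv_mem
    (ratConsts_le_ratUnits N H ⟨_, lcU_fixed hg, rfl⟩)) hg

end Nrm

/-! ### the iteration for a general `g`: the constant is `lc_q g` times a `p`-th power -/

section Iter

variable {N' p : ℕ} [NeZero N'] [Fact p.Prime] (h : ExactDvd p (N' * p))
  {A : ValuationSubring Qb} {H : Set GQ}

/-- **the `K'`-rational `U`-iteration with constant `lc_q g · α ^ p`.** -/
theorem exists_rat_deep_one_nrm (hA : A.LiesOverPrime p) (hp2 : p ≠ 2)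
    (g : pDivUnits Qb (FK (N' * p)) p) (hg : (g : (FK (N' * p))ˣ) ∈ ratUnits (N' * p) H)
    (h1 : aLow N' p p (Additive.ofMul (Kum.mk g)) = 0)
    (h2 : bLow h p (Additive.ofMul (Kum.mk g)) = 0)
    {a₀ : (FK (N' * p))ˣ} (ha₀ : a₀ ∈ ratConsts (N' * p) H)
    (h0 : (redDataBar (N' * p) A).Rw.valuation
      (((a₀⁻¹ * (g : (FK (N' * p))ˣ) : (FK (N' * p))ˣ) : FK (N' * p)) - 1) < 1)
    (e : Qb) (he : e ≠ 0) :
    ∃ α ∈ ratConsts (N' * p) H, ∃ z ∈ ratUnits (N' * p) H, ∃ d ∈ ratUnits (N' * p) H,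
      (g : (FK (N' * p))ˣ) =
        (constUnit (N' * p) (lcU (N' * p) (g : (FK (N' * p))ˣ)) * α ^ p) * z * d ^ p ∧
      ∃ r ∈ (redDataBar (N' * p) A).Rw, (z : FK (N' * p)) - 1 = algebraMap Qb (FK (N' * p)) e * r := by
  have hp : p.Prime := Fact.out
  set lam := constUnit (N' * p) (lcU (N' * p) (g : (FK (N' * p))ˣ)) with hlam
  have hlamC : lam ∈ ratConsts (N' * p) H := ⟨_, lcU_fixed hg, rfl⟩
  have hmk : Kum.mk (nrmU g) = Kum.mk g := mk_nrmU hp.ne_zero g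
  have h0' : (redDataBar (N' * p) A).Rw.valuation
      (((((lam⁻¹ * a₀)⁻¹ * ((nrmU g : pDivUnits Qb (FK (N' * p)) p) : (FK (N' * p))ˣ) :
        (FK (N' * p))ˣ)) : FK (N' * p)) - 1) < 1 := by
    have e1 : (lam⁻¹ * a₀)⁻¹ * ((nrmU g : pDivUnits Qb (FK (N' * p)) p) : (FK (N' * p))ˣ) =
        a₀⁻¹ * (g : (FK (N' * p))ˣ) := by
      rw [coe_nrmU, ← hlam]
      rw [mul_inv, inv_inv, mul_comm lam, mul_assoc, mul_inv_cancel_left]
    rw [e1]
    exact h0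
  obtain ⟨α, hα, z, hz, d, hd, hgzd, hr⟩ :=
    exists_rat_deep_one_lc h hA hp2 (nrmU g) (nrmU_mem_ratUnits hg) (by rw [hmk]; exact h1)
      (by rw [hmk]; exact h2) (lc_nrmU g)
      ((ratConsts (N' * p) H).mul_mem ((ratConsts (N' * p) H).inv_mem hlamC) ha₀) h0' e he
  refine ⟨α, hα, z, hz, d, hd, ?_, hr⟩
  have e2 : (g : (FK (N' * p))ˣ) =
      lam * ((nrmU g : pDivUnits Qb (FK (N' * p)) p) : (FK (N' * p))ˣ) := by
    rw [coe_nrmU, ← hlam, mul_inv_cancel_left]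
  rw [e2, hgzd]
  simp only [mul_assoc]

end Iter

/-! ### the constant of the normal form is `lc_q g` times a `p`-th power -/

section Top

variable {N' p : ℕ} [NeZero N'] [Fact p.Prime] (h : ExactDvd p (N' * p))
  {A : ValuationSubring Qb} (hA : A.LiesOverPrime p) (hp2 : p ≠ 2)
  {H : Set GQ} (hHI : H ⊆ ((A.inertiaSubgroupIn ℚ : Subgroup GQ) : Set GQ))
  {ζ : Qb} (hζ : IsPrimitiveRoot ζ p) (hζH : ∀ σ ∈ H, σ ζ = ζ)

include hA hp2 hHI hζ hζH in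
/-- **the constant of ANY normal form `g = A' (1 + ϖ ^ p y)`, `y ∈ Rw₁`, is `lc_q g` times the
`p`-th power of a `K'`-rational constant.** -/
theorem const_eq_lc_mul_pow
    (hint₁ : ∀ u : (FK (N' * p))ˣ, u ∈ ratUnits (N' * p) H → ∃ n : ℤ,
      (redDataBar (N' * p) A).Rw.valuation (u : FK (N' * p)) =
        (redDataBar (N' * p) A).Rw.valuation (algebraMap Qb (FK (N' * p)) (ζ - 1)) ^ n)
    (g : pDivUnits Qb (FK (N' * p)) p) (hg : (g : (FK (N' * p))ˣ) ∈ ratUnits (N' * p) H)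
    (h1 : aLow N' p p (Additive.ofMul (Kum.mk g)) = 0)
    (h2 : bLow h p (Additive.ofMul (Kum.mk g)) = 0)
    {a₁ : (FK (N' * p))ˣ} (ha₁ : a₁ ∈ ratConsts (N' * p) H)
    (ha₁U : (redDataBar (N' * p) A).Rw.valuation (a₁ : FK (N' * p)) = 1)
    (h01 : (redDataBar (N' * p) A).Rw.valuation
      (((a₁⁻¹ * (g : (FK (N' * p))ˣ) : (FK (N' * p))ˣ) : FK (N' * p)) - 1) < 1)
    {A' : Qb} (hA'H : ∀ σ ∈ H, σ A' = A') (hA'U : A.valuation A' = 1)
    {y : FK (N' * p)} (hy : y ∈ (redDataBar (N' * p) A).Rw)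
    (hgy : ((g : (FK (N' * p))ˣ) : FK (N' * p)) =
      algebraMap Qb (FK (N' * p)) A' * (1 + algebraMap Qb (FK (N' * p)) ((ζ - 1) ^ p) * y)) :
    ∃ α : Qb, (∀ σ ∈ H, σ α = α) ∧
      A' = Laurent.lcHom (qEmb (N' * p)) (((g : (FK (N' * p))ˣ) : FK (N' * p))) * α ^ p := by
  have hp : p.Prime := Fact.out
  have hpA : ((p : ℕ) : Qb) ∈ A.nonunits := hA
  have hζ1 : ζ - 1 ≠ 0 := sub_ne_zero.2 (hζ.ne_one hp.one_lt)
  have hπ0 : (ζ - 1) ^ p ≠ 0 := pow_ne_zero _ hζ1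
  have hmemA := (redDataBar (N' * p) A).mem_A_iff
  set lam : Qb := Laurent.lcHom (qEmb (N' * p)) (((g : (FK (N' * p))ˣ) : FK (N' * p))) with hlam
  -- a deep representation with constant `lc_q g · α₀ ^ p`
  obtain ⟨α₀, hα₀, z, hz, d, hd, hgzd, r, hr, hzr⟩ :=
    exists_rat_deep_one_nrm h hA hp2 g hg h1 h2 ha₁ h01 ((ζ - 1) ^ p) hπ0
  have hlamC : constUnit (N' * p) (lcU (N' * p) (g : (FK (N' * p))ˣ)) ∈ ratConsts (N' * p) H :=
    ⟨_, lcU_fixed hg, rfl⟩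
  have haC : constUnit (N' * p) (lcU (N' * p) (g : (FK (N' * p))ˣ)) * α₀ ^ p ∈
      ratConsts (N' * p) H :=
    (ratConsts (N' * p) H).mul_mem hlamC ((ratConsts (N' * p) H).pow_mem hα₀ p)
  -- its normal form
  obtain ⟨A'', hA''H, hA''U, ⟨D, hDF, hD0, hgD⟩, y'', hy''W, -, e''⟩ :=
    const_form_of_deep_root H (redDataBar (N' * p) A).Rw A hmemA hp hp2
      hpA hHI hζ hζH hint₁ haC hz hd hgzd ⟨r, hr, hzr⟩ ha₁ ha₁U h01
  -- `A'' = lc_q g · (α₀ lc(d) / lc(D)) ^ p`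
  obtain ⟨c₀, hc₀, rfl⟩ := hα₀
  set lcd : Qb := Laurent.lcHom (qEmb (N' * p)) ((d : (FK (N' * p))ˣ) : FK (N' * p)) with hlcd
  set lcD : Qb := Laurent.lcHom (qEmb (N' * p)) D with hlcD
  have hlcD0 : lcD ≠ 0 := (map_ne_zero _).2 hD0
  have hlcdH : ∀ σ ∈ H, σ lcd = lcd := lcHom_fixed (coe_mem_ratField _ H hd)
  have hlcDH : ∀ σ ∈ H, σ lcD = lcD := lcHom_fixed hDF
  have hz0 : ((z : (FK (N' * p))ˣ) : FK (N' * p)) ≠ 0 := z.ne_zero
  have hA''eq : A'' * lcD ^ p = lam * (c₀ : Qb) ^ p * lcd ^ p := by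
    have h3 : algebraMap Qb (FK (N' * p)) A'' * D ^ p =
        algebraMap Qb (FK (N' * p)) lam * (algebraMap Qb (FK (N' * p)) (c₀ : Qb)) ^ p *
          ((d : (FK (N' * p))ˣ) : FK (N' * p)) ^ p := by
      have h4 : ((g : (FK (N' * p))ˣ) : FK (N' * p)) =
          algebraMap Qb (FK (N' * p)) lam * (algebraMap Qb (FK (N' * p)) (c₀ : Qb)) ^ p *
            (z : FK (N' * p)) * ((d : (FK (N' * p))ˣ) : FK (N' * p)) ^ p := by
        conv_lhs => rw [hgzd]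
        simp only [Units.val_mul, Units.val_pow_eq_pow_val, coe_constUnit, coe_lcU]
        rfl
      rw [hgD] at h4
      have h5 : (z : FK (N' * p)) * (algebraMap Qb (FK (N' * p)) A'' * D ^ p) =
          (z : FK (N' * p)) * (algebraMap Qb (FK (N' * p)) lam *
            (algebraMap Qb (FK (N' * p)) (c₀ : Qb)) ^ p *
            ((d : (FK (N' * p))ˣ) : FK (N' * p)) ^ p) := by
        calc (z : FK (N' * p)) * (algebraMap Qb (FK (N' * p)) A'' * D ^ p)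
            = algebraMap Qb (FK (N' * p)) A'' * (z : FK (N' * p)) * D ^ p := by ring
          _ = _ := by rw [h4]; ring
      exact mul_left_cancel₀ hz0 h5
    have h6 := congrArg (Laurent.lcHom (qEmb (N' * p))) h3
    rw [map_mul, map_mul, map_mul, map_pow, map_pow, map_pow, Laurent.lcHom_algebraMap,
      Laurent.lcHom_algebraMap, Laurent.lcHom_algebraMap] at h6
    exact h6
  -- `A'` and `A''` are congruent modulo `ϖ ^ p`
  have hA''0 : A'' ≠ 0 := fun h0 => by rw [h0, map_zero] at hA''U; exact zero_ne_one hA''U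
  have hA'A : A' ∈ A := (A.valuation_le_one_iff _).1 hA'U.le
  have hA''A : A'' ∈ A := (A.valuation_le_one_iff _).1 hA''U.le
  have hA''invA : A''⁻¹ ∈ A := by
    rw [← A.valuation_le_one_iff, map_inv₀, hA''U, inv_one]
  have hdiff : (A' - A'') / (ζ - 1) ^ p ∈ A := by
    refine (hmemA _).2 ?_
    have hπF : algebraMap Qb (FK (N' * p)) ((ζ - 1) ^ p) ≠ 0 := (map_ne_zero _).2 hπ0
    have h7 : algebraMap Qb (FK (N' * p)) ((A' - A'') / (ζ - 1) ^ p) =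
        algebraMap Qb (FK (N' * p)) A'' * y'' - algebraMap Qb (FK (N' * p)) A' * y := by
      rw [map_div₀, map_sub, div_eq_iff hπF]
      have h8 := hgy.symm.trans e''
      linear_combination h8
    rw [h7]
    exact sub_mem (mul_mem ((hmemA A'').1 hA''A) hy''W) (mul_mem ((hmemA A').1 hA'A) hy)
  have hu : (A' / A'' - 1) / (ζ - 1) ^ p ∈ A := by
    have h9 : (A' / A'' - 1) / (ζ - 1) ^ p = (A' - A'') / (ζ - 1) ^ p * A''⁻¹ := by
      field_simp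
    rw [h9]
    exact mul_mem hdiff hA''invA
  have huH : ∀ σ ∈ H, σ (A' / A'') = A' / A'' := fun σ hσ => by
    rw [map_div₀, hA'H σ hσ, hA''H σ hσ]
  obtain ⟨β, hβp, -, hβH⟩ := exists_pth_root_const A hp hpA hζ hHI hζH hu huH
  refine ⟨(c₀ : Qb) * lcd / lcD * β, fun σ hσ => ?_, ?_⟩
  · rw [map_mul, map_div₀, map_mul, hc₀ σ hσ, hlcdH σ hσ, hlcDH σ hσ, hβH σ hσ]
  · have h10 : A' = A'' * β ^ p := by
      rw [hβp]
      field_simp
    have h11 : A'' = lam * (c₀ : Qb) ^ p * lcd ^ p / lcD ^ p := by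
      rw [← hA''eq]
      field_simp
    rw [h10, mul_pow, div_pow, mul_pow, h11]
    ring

end Top

/-! ### the normal form and the constant-free deep representations of `g / lc_q g` -/

section Final

variable {N' p : ℕ} [NeZero N'] [Fact p.Prime] (h : ExactDvd p (N' * p))
  {A : ValuationSubring Qb} (hA : A.LiesOverPrime p) (hp2 : p ≠ 2)
  {H : Set GQ} (hHI : H ⊆ ((A.inertiaSubgroupIn ℚ : Subgroup GQ) : Set GQ))
  {ζ : Qb} (hζ : IsPrimitiveRoot ζ p) (hζH : ∀ σ ∈ H, σ ζ = ζ)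

set_option maxHeartbeats 1600000 in
include hA hp2 hHI hζ hζH in
/-- **the Artin–Schreier normal form of `g / lc_q g`**: `g / lc_q g = α ^ p (1 + ϖ ^ p g1)` with `α`
a `K'`-rational unit constant, together with the deep representations
`g / lc_q g = α ^ p z_i d_i ^ p`. -/
theorem exists_asForm_nrm_deep
    (hint₁ : ∀ u : (FK (N' * p))ˣ, u ∈ ratUnits (N' * p) H → ∃ n : ℤ,
      (redDataBar (N' * p) A).Rw.valuation (u : FK (N' * p)) =
        (redDataBar (N' * p) A).Rw.valuation (algebraMap Qb (FK (N' * p)) (ζ - 1)) ^ n)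
    (hint₂ : ∀ u : (FK (N' * p))ˣ, u ∈ ratUnits (N' * p) H → ∃ n : ℤ,
      (redData2 (N' * p) A h).Rw.valuation (u : FK (N' * p)) =
        (redData2 (N' * p) A h).Rw.valuation (algebraMap Qb (FK (N' * p)) (ζ - 1)) ^ n)
    {ι : Type*} [Finite ι] [Nonempty ι]
    {P Q : ι → Place (ResidueField A) (FresBar (N' * p) A)}
    {C : Divisor Qb (FN (N' * p))} {C₁ C₂ : Divisor (ResidueField A) (FresBar (N' * p) A)}
    {g₀ c₀ : ℤ} {n₀ : ℕ}
    (Hn : NodalHyp (redCompatFN (N' * p) A h) P Q C C₁ C₂ g₀ c₀ n₀)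
    {Z : Divisor Qb (FN (N' * p))} (hZ : 0 ≤ Z) (hgood : ∀ v ∈ Z.support, GoodPlace Hn v)
    (g : pDivUnits Qb (FK (N' * p)) p) (hg : (g : (FK (N' * p))ˣ) ∈ ratUnits (N' * p) H)
    (h1 : aLow N' p p (Additive.ofMul (Kum.mk g)) = 0)
    (h2 : bLow h p (Additive.ofMul (Kum.mk g)) = 0)
    (hgZ : (((g : (FK (N' * p))ˣ) : FK (N' * p)) : FN (N' * p)) ∈ riemannRochSpace Z)
    {a₁ a₂ : (FK (N' * p))ˣ} (ha₁ : a₁ ∈ ratConsts (N' * p) H) (ha₂ : a₂ ∈ ratConsts (N' * p) H)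
    (ha₁U : (redDataBar (N' * p) A).Rw.valuation (a₁ : FK (N' * p)) = 1)
    (ha₂U : (redData2 (N' * p) A h).Rw.valuation (a₂ : FK (N' * p)) = 1)
    (h01 : (redDataBar (N' * p) A).Rw.valuation
      (((a₁⁻¹ * (g : (FK (N' * p))ˣ) : (FK (N' * p))ˣ) : FK (N' * p)) - 1) < 1)
    (h02 : (redData2 (N' * p) A h).Rw.valuation
      (((a₂⁻¹ * (g : (FK (N' * p))ˣ) : (FK (N' * p))ˣ) : FK (N' * p)) - 1) < 1)
    (e : Qb) (heA : e ∈ A) (he0 : e ≠ 0) :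
    ∃ α : Qb, α ≠ 0 ∧ (∀ σ ∈ H, σ α = α) ∧
      (∃ z₁ d₁ : FK (N' * p), z₁ ∈ ratField (N' * p) H ∧ d₁ ∈ ratField (N' * p) H ∧ d₁ ≠ 0 ∧
        nrm (N' * p) (((g : (FK (N' * p))ˣ) : FK (N' * p))) =
          algebraMap Qb (FK (N' * p)) α ^ p * z₁ * d₁ ^ p ∧
        ∃ r ∈ (redDataBar (N' * p) A).Rw,
          z₁ - 1 = algebraMap Qb (FK (N' * p)) ((ζ - 1) ^ p * e) * r) ∧
      (∃ z₂ d₂ : FK (N' * p), z₂ ∈ ratField (N' * p) H ∧ d₂ ∈ ratField (N' * p) H ∧ d₂ ≠ 0 ∧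
        nrm (N' * p) (((g : (FK (N' * p))ˣ) : FK (N' * p))) =
          algebraMap Qb (FK (N' * p)) α ^ p * z₂ * d₂ ^ p ∧
        ∃ r ∈ (redData2 (N' * p) A h).Rw,
          z₂ - 1 = algebraMap Qb (FK (N' * p)) ((ζ - 1) ^ p * e) * r) ∧
      ∃ (g1 : FK (N' * p)) (hg1 : g1 ∈ (redDataBar (N' * p) A).Rw)
        (hg2 : g1 ∈ (redData2 (N' * p) A h).Rw),
        g1 ∈ ratField (N' * p) H ∧
        nrm (N' * p) (((g : (FK (N' * p))ˣ) : FK (N' * p))) =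
          algebraMap Qb (FK (N' * p)) α ^ p *
            (1 + algebraMap Qb (FK (N' * p)) ((ζ - 1) ^ p) * g1) ∧
        (g1 : FN (N' * p)) ∈ riemannRochSpace Z ∧
        ∀ j : ι, ∃ c : ResidueField A,
          ValueAt (P j) ((redDataBar (N' * p) A).red ⟨g1, hg1⟩) c ∧
          ValueAt (Q j) ((redData2 (N' * p) A h).red ⟨g1, hg2⟩) c := by
  obtain ⟨A', hA'H, hA'U, ⟨z₁, d₁, hz₁, hd₁, hd₁0, hg₁, hr₁⟩, ⟨z₂, d₂, hz₂, hd₂, hd₂0, hg₂, hr₂⟩,
      g1, hg1, hg2, hg1F, hgg1, hg1Z, hval⟩ :=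
    exists_asForm_modular_deep h hA hp2 hHI hζ hζH hint₁ hint₂ Hn hZ hgood g hg h1 h2 hgZ ha₁ ha₂
      ha₁U ha₂U h01 h02 e heA he0
  obtain ⟨α, hαH, hαp⟩ :=
    const_eq_lc_mul_pow h hA hp2 hHI hζ hζH hint₁ g hg h1 h2 ha₁ ha₁U h01 hA'H hA'U hg1 hgg1
  set lam : Qb := Laurent.lcHom (qEmb (N' * p)) (((g : (FK (N' * p))ˣ) : FK (N' * p))) with hlam
  have hlam0 : lam ≠ 0 := (map_ne_zero _).2 (g : (FK (N' * p))ˣ).ne_zero
  have hlamF : algebraMap Qb (FK (N' * p)) lam ≠ 0 := (map_ne_zero _).2 hlam0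
  have hA'0 : A' ≠ 0 := fun h0 => by rw [h0, map_zero] at hA'U; exact zero_ne_one hA'U
  have hα0 : α ≠ 0 := fun h0 => by
    rw [h0, zero_pow (Fact.out : p.Prime).ne_zero, mul_zero] at hαp
    exact hA'0 hαp
  have hAF : algebraMap Qb (FK (N' * p)) A' =
      algebraMap Qb (FK (N' * p)) lam * algebraMap Qb (FK (N' * p)) α ^ p := by
    rw [hαp, map_mul, map_pow]
  have hnrm : ∀ x : FK (N' * p), ((g : (FK (N' * p))ˣ) : FK (N' * p)) =
      algebraMap Qb (FK (N' * p)) A' * x →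
      nrm (N' * p) (((g : (FK (N' * p))ˣ) : FK (N' * p))) =
        algebraMap Qb (FK (N' * p)) α ^ p * x := fun x hx => by
    rw [nrm_apply, ← hlam]
    conv_lhs => rw [hx, hAF]
    field_simp
  refine ⟨α, hα0, hαH, ⟨z₁, d₁, hz₁, hd₁, hd₁0, ?_, hr₁⟩, ⟨z₂, d₂, hz₂, hd₂, hd₂0, ?_, hr₂⟩,
    g1, hg1, hg2, hg1F, hnrm _ hgg1, hg1Z, hval⟩
  · rw [mul_assoc]
    exact hnrm _ (by rw [hg₁, mul_assoc])
  · rw [mul_assoc]
    exact hnrm _ (by rw [hg₂, mul_assoc])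

set_option maxHeartbeats 1600000 in
include hA hp2 hHI hζ hζH in
/-- **the constant-free deep representations of `g / lc_q g`** (`Pack.exists_root` shape):
`g / lc_q g = d_i ^ p * z_i` with `d_i z_i` `K'`-rational and `w_i (z_i - 1) ≤ w_i (p) ^ 3`. -/
theorem exists_deepRep_nrm
    (hint₁ : ∀ u : (FK (N' * p))ˣ, u ∈ ratUnits (N' * p) H → ∃ n : ℤ,
      (redDataBar (N' * p) A).Rw.valuation (u : FK (N' * p)) =
        (redDataBar (N' * p) A).Rw.valuation (algebraMap Qb (FK (N' * p)) (ζ - 1)) ^ n)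
    (hint₂ : ∀ u : (FK (N' * p))ˣ, u ∈ ratUnits (N' * p) H → ∃ n : ℤ,
      (redData2 (N' * p) A h).Rw.valuation (u : FK (N' * p)) =
        (redData2 (N' * p) A h).Rw.valuation (algebraMap Qb (FK (N' * p)) (ζ - 1)) ^ n)
    {ι : Type*} [Finite ι] [Nonempty ι]
    {P Q : ι → Place (ResidueField A) (FresBar (N' * p) A)}
    {C : Divisor Qb (FN (N' * p))} {C₁ C₂ : Divisor (ResidueField A) (FresBar (N' * p) A)}
    {g₀ c₀ : ℤ} {n₀ : ℕ}
    (Hn : NodalHyp (redCompatFN (N' * p) A h) P Q C C₁ C₂ g₀ c₀ n₀)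
    {Z : Divisor Qb (FN (N' * p))} (hZ : 0 ≤ Z) (hgood : ∀ v ∈ Z.support, GoodPlace Hn v)
    (g : pDivUnits Qb (FK (N' * p)) p) (hg : (g : (FK (N' * p))ˣ) ∈ ratUnits (N' * p) H)
    (h1 : aLow N' p p (Additive.ofMul (Kum.mk g)) = 0)
    (h2 : bLow h p (Additive.ofMul (Kum.mk g)) = 0)
    (hgZ : (((g : (FK (N' * p))ˣ) : FK (N' * p)) : FN (N' * p)) ∈ riemannRochSpace Z)
    {a₁ a₂ : (FK (N' * p))ˣ} (ha₁ : a₁ ∈ ratConsts (N' * p) H) (ha₂ : a₂ ∈ ratConsts (N' * p) H)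
    (ha₁U : (redDataBar (N' * p) A).Rw.valuation (a₁ : FK (N' * p)) = 1)
    (ha₂U : (redData2 (N' * p) A h).Rw.valuation (a₂ : FK (N' * p)) = 1)
    (h01 : (redDataBar (N' * p) A).Rw.valuation
      (((a₁⁻¹ * (g : (FK (N' * p))ˣ) : (FK (N' * p))ˣ) : FK (N' * p)) - 1) < 1)
    (h02 : (redData2 (N' * p) A h).Rw.valuation
      (((a₂⁻¹ * (g : (FK (N' * p))ˣ) : (FK (N' * p))ˣ) : FK (N' * p)) - 1) < 1) :
    (∃ d z : FK (N' * p), d ∈ ratField (N' * p) H ∧ z ∈ ratField (N' * p) H ∧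
      nrm (N' * p) (((g : (FK (N' * p))ˣ) : FK (N' * p))) = d ^ p * z ∧
      (redDataBar (N' * p) A).Rw.valuation (z - 1) ≤
        (redDataBar (N' * p) A).Rw.valuation (algebraMap Qb (FK (N' * p)) (p : Qb)) ^ 3) ∧
    (∃ d z : FK (N' * p), d ∈ ratField (N' * p) H ∧ z ∈ ratField (N' * p) H ∧
      nrm (N' * p) (((g : (FK (N' * p))ˣ) : FK (N' * p))) = d ^ p * z ∧
      (redData2 (N' * p) A h).Rw.valuation (z - 1) ≤
        (redData2 (N' * p) A h).Rw.valuation (algebraMap Qb (FK (N' * p)) (p : Qb)) ^ 3) := by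
  have hp : p.Prime := Fact.out
  have hζ1 : ζ - 1 ≠ 0 := sub_ne_zero.2 (hζ.ne_one hp.one_lt)
  have hζA : ζ ∈ A := zeta_mem A hζ.pow_eq_one hp.ne_zero
  have hϖA : ζ - 1 ∈ A := sub_mem hζA A.one_mem
  obtain ⟨k, hk⟩ : ∃ k, p = k + 2 := ⟨p - 2, by have := hp.two_le; omega⟩
  have hq : ((p : ℕ) : Qb) / (ζ - 1) ^ (k + 1) ∈ A := by
    have := natCast_div_pow_mem A hp hζ
    rwa [show p - 1 = k + 1 by omega] at this
  have hp0 : ((p : ℕ) : Qb) ≠ 0 := by exact_mod_cast hp.ne_zero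
  set e : Qb := (((p : ℕ) : Qb) / (ζ - 1) ^ (k + 1)) ^ 3 * (ζ - 1) ^ (2 * k + 1) with he
  have heA : e ∈ A := mul_mem (pow_mem hq 3) (pow_mem hϖA _)
  have he0 : e ≠ 0 :=
    mul_ne_zero (pow_ne_zero _ (div_ne_zero hp0 (pow_ne_zero _ hζ1))) (pow_ne_zero _ hζ1)
  have hπe : (ζ - 1) ^ p * e = ((p : ℕ) : Qb) ^ 3 := by
    rw [he, hk]
    field_simp
    ring
  obtain ⟨α, -, hαH, ⟨z₁, d₁, hz₁, hd₁, -, hg₁, r₁, hr₁, hzr₁⟩,
      ⟨z₂, d₂, hz₂, hd₂, -, hg₂, r₂, hr₂, hzr₂⟩, -⟩ :=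
    exists_asForm_nrm_deep h hA hp2 hHI hζ hζH hint₁ hint₂ Hn hZ hgood g hg h1 h2 hgZ
      ha₁ ha₂ ha₁U ha₂U h01 h02 e heA he0
  have hαF : algebraMap Qb (FK (N' * p)) α ∈ ratField (N' * p) H :=
    ratConstField_le (N' * p) H ⟨α, hαH, rfl⟩
  refine ⟨⟨algebraMap Qb (FK (N' * p)) α * d₁, z₁, (ratField (N' * p) H).mul_mem hαF hd₁, hz₁, ?_, ?_⟩,
    ⟨algebraMap Qb (FK (N' * p)) α * d₂, z₂, (ratField (N' * p) H).mul_mem hαF hd₂, hz₂, ?_, ?_⟩⟩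
  · rw [hg₁]; ring
  · rw [hzr₁, hπe, map_mul, map_pow, map_pow]
    exact mul_le_of_le_one_right' (((redDataBar (N' * p) A).Rw.valuation_le_one_iff _).2 hr₁)
  · rw [hg₂]; ring
  · rw [hzr₂, hπe, map_mul, map_pow, map_pow]
    exact mul_le_of_le_one_right' (((redData2 (N' * p) A h).Rw.valuation_le_one_iff _).2 hr₂)

end Final

/-! ### the binder-free form for `H = I'` -/

section Tame

variable {N' p : ℕ} [NeZero N'] [Fact p.Prime] (h : ExactDvd p (N' * p))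
  {A : ValuationSubring Qb} (hA : A.LiesOverPrime p) (hp2 : p ≠ 2)
  {ζ : Qb} (hζ : IsPrimitiveRoot ζ p)

set_option maxHeartbeats 1600000 in
include hA hp2 hζ in
/-- **the constant-free deep representations of `g / lc_q g` over `K' = ℚ̄^{I'}`**, in the shape of
helper3's `WDataOf.exists_root` (`d z ∈ F₁ N A ζ` spelled out). -/
theorem exists_deepRep_nrm_tame
    {ι : Type*} [Finite ι] [Nonempty ι]
    {P Q : ι → Place (ResidueField A) (FresBar (N' * p) A)}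
    {C : Divisor Qb (FN (N' * p))} {C₁ C₂ : Divisor (ResidueField A) (FresBar (N' * p) A)}
    {g₀ c₀ : ℤ} {n₀ : ℕ}
    (Hn : NodalHyp (redCompatFN (N' * p) A h) P Q C C₁ C₂ g₀ c₀ n₀)
    {Z : Divisor Qb (FN (N' * p))} (hZ : 0 ≤ Z) (hgood : ∀ v ∈ Z.support, GoodPlace Hn v)
    (g : pDivUnits Qb (FK (N' * p)) p)
    (hg : (g : (FK (N' * p))ˣ) ∈ ratUnits (N' * p) (tameSet A ζ))
    (h1 : aLow N' p p (Additive.ofMul (Kum.mk g)) = 0)
    (h2 : bLow h p (Additive.ofMul (Kum.mk g)) = 0)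
    (hgZ : (((g : (FK (N' * p))ˣ) : FK (N' * p)) : FN (N' * p)) ∈ riemannRochSpace Z)
    {a₁ a₂ : (FK (N' * p))ˣ} (ha₁ : a₁ ∈ ratConsts (N' * p) (tameSet A ζ))
    (ha₂ : a₂ ∈ ratConsts (N' * p) (tameSet A ζ))
    (ha₁U : (redDataBar (N' * p) A).Rw.valuation (a₁ : FK (N' * p)) = 1)
    (ha₂U : (redData2 (N' * p) A h).Rw.valuation (a₂ : FK (N' * p)) = 1)
    (h01 : (redDataBar (N' * p) A).Rw.valuation
      (((a₁⁻¹ * (g : (FK (N' * p))ˣ) : (FK (N' * p))ˣ) : FK (N' * p)) - 1) < 1)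
    (h02 : (redData2 (N' * p) A h).Rw.valuation
      (((a₂⁻¹ * (g : (FK (N' * p))ˣ) : (FK (N' * p))ˣ) : FK (N' * p)) - 1) < 1) :
    (∃ d z : FK (N' * p),
      (∀ ρ : GQ, IsTameFix A ζ ρ → arithmeticRingAut (modularFunctionFieldFull (N' * p)) ρ d = d) ∧
      (∀ ρ : GQ, IsTameFix A ζ ρ → arithmeticRingAut (modularFunctionFieldFull (N' * p)) ρ z = z) ∧
      nrm (N' * p) (((g : (FK (N' * p))ˣ) : FK (N' * p))) = d ^ p * z ∧
      (redDataBar (N' * p) A).Rw.valuation (z - 1) ≤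
        (redDataBar (N' * p) A).Rw.valuation (algebraMap Qb (FK (N' * p)) (p : Qb)) ^ 3) ∧
    (∃ d z : FK (N' * p),
      (∀ ρ : GQ, IsTameFix A ζ ρ → arithmeticRingAut (modularFunctionFieldFull (N' * p)) ρ d = d) ∧
      (∀ ρ : GQ, IsTameFix A ζ ρ → arithmeticRingAut (modularFunctionFieldFull (N' * p)) ρ z = z) ∧
      nrm (N' * p) (((g : (FK (N' * p))ˣ) : FK (N' * p))) = d ^ p * z ∧
      (redData2 (N' * p) A h).Rw.valuation (z - 1) ≤
        (redData2 (N' * p) A h).Rw.valuation (algebraMap Qb (FK (N' * p)) (p : Qb)) ^ 3) := by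
  obtain ⟨⟨d₁, z₁, hd₁, hz₁, hg₁, hv₁⟩, ⟨d₂, z₂, hd₂, hz₂, hg₂, hv₂⟩⟩ :=
    exists_deepRep_nrm h hA hp2 tameSet_subset hζ tameSet_fix (hint₁_tame hA hζ)
      (hint₂_tame h hA hζ) Hn hZ hgood g hg h1 h2 hgZ ha₁ ha₂ ha₁U ha₂U h01 h02
  exact ⟨⟨d₁, z₁, fun ρ hρ => hd₁ ρ hρ, fun ρ hρ => hz₁ ρ hρ, hg₁, hv₁⟩,
    ⟨d₂, z₂, fun ρ hρ => hd₂ ρ hρ, fun ρ hρ => hz₂ ρ hρ, hg₂, hv₂⟩⟩

end Tame

end Fermat.Agent.GF.KCover.ASFormNrm
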