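/-
GATE-F (S44) / GF-ASFORM-CHART (helper40): **the ASFORM chain plugged on helper48's chart
representative** (`GF/KCover/ASRep/RatRepMod.exists_rat_rep`): for `g` an `I'`-rational unit with
constant reductions on both components, `g ∈ L(p • 𝔠.D0)` for a chart `𝔠` of the pinned nodal frame,
class in `Knew`:

* `goodPlace_of_mem_disc`, `chart_D0_nonneg`, `chart_D0_good` : `Z := p • 𝔠.D0` is effective and
  supported on good places;
* `exists_start_of_isCst` : `IsCst R g` ⟹ a rational unit constant `a` with `w (a⁻¹ g - 1) < 1`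
  (helper86 `exists_ratConst_close`);
* **`exists_deepRep_chart`** : `nrm g = g / lc_q g = d_i ^ p * z_i`, `d_i z_i` `I'`-fixed,
  `w_i (z_i - 1) ≤ w_i (p) ^ 3`, `i = 1, 2` (= helper3 `WDataOf.exists_root` inputs, NO constant);
* **`exists_asForm_chart`** : `nrm g = α ^ p (1 + ϖ ^ p g1)`, `g1 ∈ Rw₁ ∩ Rw₂ ∩ F_{K'} ∩ L(p • 𝔠.D0)`
  glued at every node.
-/
import Fermat.Agent.GF.KCover.ASFormNrm
import Fermat.Agent.GF.KCover.ASRep.RatRepMod
import Fermat.Agent.GF.NormDepth.Inst.RatStart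

set_option autoImplicit false
set_option linter.unusedSectionVars false

noncomputable section

namespace Fermat.Agent.GF.KCover.ASFormChart

open AlgebraicCurve ModularCurve IsLocalRing
open Fermat.Agent.S24 Fermat.Agent.RRh45 Fermat.Agent.S24_helper62
open Fermat.Agent.GJ.J1 Fermat.Agent.GJ.J1.Val
open Fermat.Agent.GJ.Kum.KumType Fermat.Agent.GJ.KumGroup
open Fermat.Agent.GK.AL Fermat.Agent.GK.UQ Fermat.Agent.GK.UTr Fermat.Agent.GK.UqKronecker
open Fermat.Agent.GF.NormDepth.Inst Fermat.Agent.GF.NormDepth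
open Fermat.Agent.GF.KCover.ASForm Fermat.Agent.GF.KCover.ASFormMod
open Fermat.Agent.GF.KCover.ASFormRoot Fermat.Agent.GF.KCover.ASFormDeep
open Fermat.Agent.GF.KCover.ASFormLc Fermat.Agent.GF.KCover.ASFormNrm
open Fermat.Agent.GF.KCover.ASRep
open Fermat.Agent.GF.KumDesc Fermat.Agent.GF.F2Asm.Inst Fermat.Agent.GF.F2Asm.TameSigma
open Fermat.Agent.GK.MultiVal Fermat.Agent.GK.BallTwo Fermat.Agent.GK.NodalGraded
open Fermat.Agent.GS.Nodal.LSR2 Fermat.Agent.GS.Nodal.L5 Fermat.Agent.GS.Nodal.Inst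
open Fermat.Agent.GS.Nodal.SupplyPin Fermat.Agent.GS.Nodal.DiscFacts2
open Fermat.Agent.GS.Nodal.FibreHyp2
open Fermat.Agent.GS.Frame Fermat.Agent.GS.Frame.Glue Fermat.Agent.GS.Loc2.Ker
open Fermat.Agent.GF.Peu Fermat.Agent.GK.SS

open scoped Classical

attribute [local instance] finiteResidues_FN hasPrincipalDivisors_FN nonempty_place_FN
  isAlgClosed_res finiteResidues_Fres hasPrincipalDivisors_Fres nonempty_place_Fres

local notation "GQ" => (AlgebraicClosure ℚ ≃ₐ[ℚ] AlgebraicClosure ℚ)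
local notation "Qb" => AlgebraicClosure ℚ

/-! ### chart centres are good places -/

section Good

variable {K F k Ft1 Ft2 : Type*} [Field K] [Field F] [Algebra K F] [Field k]
  [Field Ft1] [Algebra k Ft1] [Field Ft2] [Algebra k Ft2]
variable {R1 : RedData K F k Ft1} {R2 : RedData K F k Ft2} {hc : RedCompat R1 R2}
variable {ι : Type*} {P : ι → Place k Ft1} {Q : ι → Place k Ft2}
variable {C : Divisor K F} {C₁ : Divisor k Ft1} {C₂ : Divisor k Ft2} {g c : ℤ} {n₀ : ℕ}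
variable [FiniteResidues K F] [HasPrincipalDivisors K F] [Nonempty (Place K F)]
variable [FiniteResidues k Ft1] [HasPrincipalDivisors k Ft1] [Nonempty (Place k Ft1)]
variable [FiniteResidues k Ft2] [HasPrincipalDivisors k Ft2] [Nonempty (Place k Ft2)]
variable [Infinite k]

/-- a place in a disc of the pinned frame is a good place -/
theorem goodPlace_of_mem_disc (H : NodalHyp hc P Q C C₁ C₂ g c n₀)
    (s : SpPt (fibreHyp1_of_nodal H (ff2_pin H)) (fibreHyp2_of_nodal H (ff2_pin H)))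
    {v : Place K F} (hv : v ∈ (pinData H).disc s) : GoodPlace H v := by
  rcases s with q | q
  · rw [nodalData_disc_inl] at hv
    exact ⟨_, _, hv⟩
  · rw [nodalData_disc_inr] at hv
    exact ⟨_, _, hv⟩

/-- the base divisor of a chart is effective and supported on good places -/
theorem chart_D0_nonneg (H : NodalHyp hc P Q C C₁ C₂ g c n₀) {n : ℕ} (𝔠 : Chart (pinData H) n)
    (m : ℕ) : 0 ≤ (m : ℤ) • 𝔠.D0 := by
  intro v
  rw [Finsupp.coe_zero, Pi.zero_apply, Finsupp.smul_apply, smul_eq_mul]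
  refine mul_nonneg (Int.natCast_nonneg m) ?_
  unfold Chart.D0
  rw [Finsupp.finsetSum_apply]
  exact Finset.sum_nonneg fun i _ => by
    rw [Finsupp.single_apply]
    split_ifs <;> norm_num

theorem chart_D0_good (H : NodalHyp hc P Q C C₁ C₂ g c n₀) {n : ℕ} (𝔠 : Chart (pinData H) n)
    (m : ℕ) : ∀ v ∈ ((m : ℤ) • 𝔠.D0).support, GoodPlace H v := by
  intro v hv
  rw [Finsupp.mem_support_iff, Finsupp.smul_apply, smul_eq_mul] at hv
  have h1 : 𝔠.D0 v ≠ 0 := fun h0 => hv (by rw [h0, mul_zero])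
  unfold Chart.D0 at h1
  rw [Finsupp.finsetSum_apply] at h1
  obtain ⟨i, -, hi⟩ := Finset.exists_ne_zero_of_sum_ne_zero h1
  rw [Finsupp.single_apply] at hi
  have hvi : (𝔠.pt i).P = v := by
    by_contra hne
    exact hi (if_neg hne)
  rw [← hvi]
  exact goodPlace_of_mem_disc H (𝔠.Q i) (𝔠.pt i).hP

end Good

/-! ### the start constants from constant reductions -/

section Start

variable {N : ℕ} [NeZero N] {p : ℕ} {A : ValuationSubring Qb} {H : Set GQ}

/-- from `IsCst R g` to a rational unit constant `a` with `w (a⁻¹ g - 1) < 1`. -/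
theorem exists_start_of_isCst {k Ft : Type*} [Field k] [Field Ft] [Algebra k Ft]
    (R : RedData Qb (FK N) k Ft) (hRA : R.A = A) (hp : p.Prime)
    (hA : ((p : ℕ) : Qb) ∈ A.nonunits)
    (hH : H ⊆ ((A.inertiaSubgroupIn ℚ : Subgroup GQ) : Set GQ))
    (g : (FK N)ˣ) (hc : IsCst R (g : FK N)) :
    ∃ a ∈ ratConsts N H, R.Rw.valuation (a : FK N) = 1 ∧
      R.Rw.valuation (((a⁻¹ * g : (FK N)ˣ) : FK N) - 1) < 1 := by
  have hgU : R.Rw.valuation (g : FK N) = 1 := val_eq_one_of_isCst hc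
  obtain ⟨c, hc1, hc2⟩ := hc
  have hc1' : A.valuation c = 1 := by rw [← hRA]; exact hc1
  have hcA : c ∈ A := (A.valuation_le_one_iff c).1 hc1'.le
  have hcu : c ∉ A.nonunits := by
    rw [A.mem_nonunits_iff, hc1']
    exact lt_irrefl _
  obtain ⟨a, ha, h0⟩ := exists_ratConst_close (H := H) R hRA hp hA hH g hcA hcu hc2
  refine ⟨a, ha, ?_, h0⟩
  have h1 : R.Rw.valuation (((a⁻¹ * g : (FK N)ˣ) : FK N)) = 1 := by
    have h2 : ((a⁻¹ * g : (FK N)ˣ) : FK N) = 1 + ((((a⁻¹ * g : (FK N)ˣ) : FK N)) - 1) := by ring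
    rw [h2, (R.Rw.valuation).map_add_eq_of_lt_left (by rw [map_one]; exact h0), map_one]
  rw [Units.val_mul, Units.val_inv_eq_inv_val, map_mul, map_inv₀, hgU, mul_one] at h1
  exact inv_eq_one.1 h1

end Start

/-! ### the plug on a chart of the pinned nodal frame -/

section Plug

variable {N' p : ℕ} [NeZero N'] [Fact p.Prime] (h : ExactDvd p (N' * p))
  {A : ValuationSubring Qb} (hA : A.LiesOverPrime p) (hp2 : p ≠ 2)
  {ζ : Qb} (hζ : IsPrimitiveRoot ζ p)

set_option maxHeartbeats 1600000 in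
include hA hp2 hζ in
/-- **the constant-free deep representations of the normalised chart representative**: for `g` the
`I'`-rational chart representative of helper48's `ASRep.exists_rat_rep` (units with constant
reductions on both components, `g ∈ L(p • 𝔠.D0)`, class in `Knew`), `nrm g = g / lc_q g` is
`d_i ^ p * z_i` with `d_i z_i` `I'`-fixed and `w_i (z_i - 1) ≤ w_i (p) ^ 3`, `i = 1, 2`. -/
theorem exists_deepRep_chart
    {ι : Type*} [Finite ι] [Nonempty ι]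
    {P Q : ι → Place (ResidueField A) (FresBar (N' * p) A)}
    {C : Divisor Qb (FN (N' * p))} {C₁ C₂ : Divisor (ResidueField A) (FresBar (N' * p) A)}
    {g₀ c₀ : ℤ} {n₀ : ℕ}
    (Hn : NodalHyp (redCompatFN (N' * p) A h) P Q C C₁ C₂ g₀ c₀ n₀)
    {n : ℕ} (𝔠 : Chart (pinData Hn) n)
    (g : pDivUnits Qb (FK (N' * p)) p)
    (hg : (g : (FK (N' * p))ˣ) ∈ ratUnits (N' * p) (tameSet A ζ))
    (h1 : aLow N' p p (Additive.ofMul (Kum.mk g)) = 0)
    (h2 : bLow h p (Additive.ofMul (Kum.mk g)) = 0)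
    (hc1 : IsCst (redDataBar (N' * p) A) (((g : (FK (N' * p))ˣ) : FK (N' * p))))
    (hc2 : IsCst (redData2 (N' * p) A h) (((g : (FK (N' * p))ˣ) : FK (N' * p))))
    (hgL : (((g : (FK (N' * p))ˣ) : FK (N' * p)) : FN (N' * p)) ∈
      riemannRochSpace ((p : ℤ) • 𝔠.D0)) :
    (∃ d z : FK (N' * p),
      (∀ ρ : GQ, IsTameFix A ζ ρ → arithmeticRingAut (modularFunctionFieldFull (N' * p)) ρ d = d) ∧
      (∀ ρ : GQ, IsTameFix A ζ ρ → arithmeticRingAut (modularFunctionFieldFull (N' * p)) ρ z = z) ∧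
      nrm (N' * p) (((g : (FK (N' * p))ˣ) : FK (N' * p))) = d ^ p * z ∧
      (redDataBar (N' * p) A).Rw.valuation (z - 1) ≤
        (redDataBar (N' * p) A).Rw.valuation (algebraMap Qb (FK (N' * p)) (p : Qb)) ^ 3) ∧
    (∃ d z : FK (N' * p),
      (∀ ρ : GQ, IsTameFix A ζ ρ → arithmeticRingAut (modularFunctionFieldFull (N' * p)) ρ d = d) ∧
      (∀ ρ : GQ, IsTameFix A ζ ρ → arithmeticRingAut (modularFunctionFieldFull (N' * p)) ρ z = z) ∧
      nrm (N' * p) (((g : (FK (N' * p))ˣ) : FK (N' * p))) = d ^ p * z ∧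
      (redData2 (N' * p) A h).Rw.valuation (z - 1) ≤
        (redData2 (N' * p) A h).Rw.valuation (algebraMap Qb (FK (N' * p)) (p : Qb)) ^ 3) := by
  have hp : p.Prime := Fact.out
  obtain ⟨a₁, ha₁, ha₁U, h01⟩ := exists_start_of_isCst (H := tameSet A ζ)
    (redDataBar (N' * p) A) rfl hp hA tameSet_subset (g : (FK (N' * p))ˣ) hc1
  obtain ⟨a₂, ha₂, ha₂U, h02⟩ := exists_start_of_isCst (H := tameSet A ζ)
    (redData2 (N' * p) A h) rfl hp hA tameSet_subset (g : (FK (N' * p))ˣ) hc2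
  exact exists_deepRep_nrm_tame h hA hp2 hζ Hn (chart_D0_nonneg Hn 𝔠 p) (chart_D0_good Hn 𝔠 p)
    g hg h1 h2 hgL ha₁ ha₂ ha₁U ha₂U h01 h02

set_option maxHeartbeats 1600000 in
include hA hp2 hζ in
/-- **the Artin–Schreier normal form of the normalised chart representative**:
`nrm g = α ^ p (1 + ϖ ^ p g1)`, `α` an `I'`-fixed constant, `g1 ∈ Rw₁ ∩ Rw₂ ∩ F_{K'} ∩ L(p • 𝔠.D0)`
with glued values at every node. -/
theorem exists_asForm_chart
    {ι : Type*} [Finite ι] [Nonempty ι]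
    {P Q : ι → Place (ResidueField A) (FresBar (N' * p) A)}
    {C : Divisor Qb (FN (N' * p))} {C₁ C₂ : Divisor (ResidueField A) (FresBar (N' * p) A)}
    {g₀ c₀ : ℤ} {n₀ : ℕ}
    (Hn : NodalHyp (redCompatFN (N' * p) A h) P Q C C₁ C₂ g₀ c₀ n₀)
    {n : ℕ} (𝔠 : Chart (pinData Hn) n)
    (g : pDivUnits Qb (FK (N' * p)) p)
    (hg : (g : (FK (N' * p))ˣ) ∈ ratUnits (N' * p) (tameSet A ζ))
    (h1 : aLow N' p p (Additive.ofMul (Kum.mk g)) = 0)
    (h2 : bLow h p (Additive.ofMul (Kum.mk g)) = 0)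
    (hc1 : IsCst (redDataBar (N' * p) A) (((g : (FK (N' * p))ˣ) : FK (N' * p))))
    (hc2 : IsCst (redData2 (N' * p) A h) (((g : (FK (N' * p))ˣ) : FK (N' * p))))
    (hgL : (((g : (FK (N' * p))ˣ) : FK (N' * p)) : FN (N' * p)) ∈
      riemannRochSpace ((p : ℤ) • 𝔠.D0)) :
    ∃ α : Qb, α ≠ 0 ∧ (∀ ρ : GQ, IsTameFix A ζ ρ → ρ α = α) ∧
      ∃ (g1 : FK (N' * p)) (hg1 : g1 ∈ (redDataBar (N' * p) A).Rw)
        (hg2 : g1 ∈ (redData2 (N' * p) A h).Rw),
        (∀ ρ : GQ, IsTameFix A ζ ρ →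
          arithmeticRingAut (modularFunctionFieldFull (N' * p)) ρ g1 = g1) ∧
        nrm (N' * p) (((g : (FK (N' * p))ˣ) : FK (N' * p))) =
          algebraMap Qb (FK (N' * p)) α ^ p *
            (1 + algebraMap Qb (FK (N' * p)) ((ζ - 1) ^ p) * g1) ∧
        (g1 : FN (N' * p)) ∈ riemannRochSpace ((p : ℤ) • 𝔠.D0) ∧
        ∀ j : ι, ∃ c : ResidueField A,
          ValueAt (P j) ((redDataBar (N' * p) A).red ⟨g1, hg1⟩) c ∧
          ValueAt (Q j) ((redData2 (N' * p) A h).red ⟨g1, hg2⟩) c := by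
  have hp : p.Prime := Fact.out
  obtain ⟨a₁, ha₁, ha₁U, h01⟩ := exists_start_of_isCst (H := tameSet A ζ)
    (redDataBar (N' * p) A) rfl hp hA tameSet_subset (g : (FK (N' * p))ˣ) hc1
  obtain ⟨a₂, ha₂, ha₂U, h02⟩ := exists_start_of_isCst (H := tameSet A ζ)
    (redData2 (N' * p) A h) rfl hp hA tameSet_subset (g : (FK (N' * p))ˣ) hc2
  obtain ⟨α, hα0, hαH, -, -, g1, hg1, hg2, hg1F, hgg1, hg1Z, hval⟩ :=
    exists_asForm_nrm_deep h hA hp2 tameSet_subset hζ tameSet_fix (hint₁_tame hA hζ)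
      (hint₂_tame h hA hζ) Hn (chart_D0_nonneg Hn 𝔠 p) (chart_D0_good Hn 𝔠 p)
      g hg h1 h2 hgL ha₁ ha₂ ha₁U ha₂U h01 h02 1 A.one_mem one_ne_zero
  exact ⟨α, hα0, fun ρ hρ => hαH ρ hρ, g1, hg1, hg2, fun ρ hρ => hg1F ρ hρ, hgg1, hg1Z, hval⟩

end Plug

end Fermat.Agent.GF.KCover.ASFormChart
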